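import Fermat.Agent.S21.E.Defs
import Fermat.Agent.S23.ConverseCore

/-!
# Project ES, part E, work package E-DIV (helper58)

Division of holomorphic functions on `ℍ`: if `‖f‖ ≤ C ‖g‖` near every zero of `g ≢ 0`, then
`f = g * h` with `h` holomorphic (isolated zeros + removable singularities, via the `ℂ`-level
lemmas `conv_isolated_zeros` / `conv_exists_quotient` of `S23/ConverseCore.lean`).
-/

set_option autoImplicit false

open UpperHalfPlane hiding I
open Complex Filter Function Topology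
open scoped Manifold MatrixGroups ModularForm Real

namespace Fermat.Agent.S21.E

noncomputable section

theorem exists_mdiff_quotient {f g : ℍ → ℂ} (hf : MDiff f) (hg : MDiff g)
    (hg0 : ∃ z, g z ≠ 0)
    (hb : ∀ z₀ : ℍ, g z₀ = 0 → ∃ C : ℝ, ∀ᶠ z : ℍ in 𝓝 z₀, ‖f z‖ ≤ C * ‖g z‖) :
    ∃ h : ℍ → ℂ, MDiff h ∧ ∀ z, f z = g z * h z := by
  obtain ⟨z1, hz1⟩ := hg0
  have hS : IsOpen upperHalfPlaneSet := isOpen_upperHalfPlaneSet
  have hSc : IsPreconnected upperHalfPlaneSet := (convex_halfSpace_im_gt 0).isPreconnected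
  have hgc : DifferentiableOn ℂ (g ∘ ofComplex) upperHalfPlaneSet := mdifferentiable_iff.mp hg
  have hfc : DifferentiableOn ℂ (f ∘ ofComplex) upperHalfPlaneSet := mdifferentiable_iff.mp hf
  have hne : ∃ z ∈ upperHalfPlaneSet, (g ∘ ofComplex) z ≠ 0 :=
    ⟨z1, z1.im_pos, by simpa using hz1⟩
  have hiso := Fermat.Agent.S23.conv_isolated_zeros hS hSc hgc hne
  have hbdd : ∀ z ∈ upperHalfPlaneSet, ∃ B : ℝ, ∀ᶠ w in 𝓝[≠] z, (g ∘ ofComplex) w ≠ 0 →
      ‖(f ∘ ofComplex) w / (g ∘ ofComplex) w‖ ≤ B := by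
    intro z hz
    have hz' : 0 < z.im := hz
    have hofc : ContinuousAt ofComplex z := (contMDiffAt_ofComplex (n := 0) hz').continuousAt
    by_cases hgz : g ⟨z, hz'⟩ = 0
    · obtain ⟨C, hC⟩ := hb ⟨z, hz'⟩ hgz
      refine ⟨C, eventually_nhdsWithin_of_eventually_nhds ?_⟩
      have hev : ∀ᶠ w in 𝓝 z, ‖f (ofComplex w)‖ ≤ C * ‖g (ofComplex w)‖ := by
        have ht : Tendsto ofComplex (𝓝 z) (𝓝 (⟨z, hz'⟩ : ℍ)) := by
          have := hofc.tendsto
          rwa [ofComplex_apply_of_im_pos hz'] at this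
        exact ht.eventually hC
      filter_upwards [hev] with w hw hgw
      simp only [Function.comp_apply] at hgw ⊢
      rw [norm_div, div_le_iff₀ (norm_pos_iff.mpr hgw)]
      exact hw
    · have hgz' : (g ∘ ofComplex) z ≠ 0 := by
        simpa [ofComplex_apply_of_im_pos hz'] using hgz
      have hq : ContinuousAt (fun w => (f ∘ ofComplex) w / (g ∘ ofComplex) w) z :=
        ((hfc.differentiableAt (hS.mem_nhds hz)).div
          (hgc.differentiableAt (hS.mem_nhds hz)) hgz').continuousAt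
      refine ⟨‖(f ∘ ofComplex) z / (g ∘ ofComplex) z‖ + 1,
        eventually_nhdsWithin_of_eventually_nhds ?_⟩
      have := hq.norm.eventually (gt_mem_nhds (lt_add_one _))
      filter_upwards [this] with w hw _
      exact hw.le
  obtain ⟨Fc, hFc, hFD⟩ := Fermat.Agent.S23.conv_exists_quotient hS hgc hfc hiso hbdd
  refine ⟨fun τ => Fc τ, ?_, fun z => ?_⟩
  · rw [mdifferentiable_iff]
    refine hFc.congr fun z hz => ?_
    have hz' : 0 < z.im := hz
    simp [ofComplex_apply_of_im_pos hz']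
  · have := hFD z z.im_pos
    simp only [Function.comp_apply, ofComplex_apply] at this
    rw [← this]
    ring

end

end Fermat.Agent.S21.E
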