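import Fermat.Agent.S21.E.Defs
import Fermat.Agent.S22.H20Nondeg

/-!
# Project ES, part E, work package E-API: basic API for `cj`, `cmat`, `det`
-/

set_option autoImplicit false

open UpperHalfPlane hiding I
open Complex Filter Function Topology
open scoped Manifold MatrixGroups ModularForm Real

namespace Fermat.Agent.S21.E

noncomputable section

local notation "Δ" => ModularForm.discriminant
local notation "E₄" => ModularForm.E₄
local notation "E₆" => ModularForm.E₆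

variable {Γ : Subgroup SL(2, ℤ)}

theorem cj_mk {f : ℍ → ℂ} (hf : ∀ γ ∈ Γ, ∀ z : ℍ, f (γ • z) = f z) (g : SL(2, ℤ)) (z : ℍ) :
    cj Γ f (g : SL(2, ℤ) ⧸ Γ) z = f (g⁻¹ • z) := by
  obtain ⟨γ, hγ⟩ := QuotientGroup.mk_out_eq_mul Γ g
  show f ((Quotient.out (g : SL(2, ℤ) ⧸ Γ))⁻¹ • z) = f (g⁻¹ • z)
  rw [hγ, mul_inv_rev, mul_smul]
  exact hf _ (Γ.inv_mem γ.2) _

theorem cj_smul {f : ℍ → ℂ} (hf : ∀ γ ∈ Γ, ∀ z : ℍ, f (γ • z) = f z) (h : SL(2, ℤ))
    (x : SL(2, ℤ) ⧸ Γ) (z : ℍ) : cj Γ f x (h • z) = cj Γ f (h⁻¹ • x) z := by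
  induction x using QuotientGroup.induction_on with
  | H g =>
    have e : h⁻¹ • (g : SL(2, ℤ) ⧸ Γ) = ((h⁻¹ * g : SL(2, ℤ)) : SL(2, ℤ) ⧸ Γ) := rfl
    rw [e, cj_mk hf, cj_mk hf, mul_inv_rev, inv_inv, mul_smul]

theorem mdiff_cj {f : ℍ → ℂ} (hf : MDiff f) (x : SL(2, ℤ) ⧸ Γ) : MDiff (cj Γ f x) := by
  have h := hf.slash 0 (((Quotient.out x)⁻¹ : SL(2, ℤ)) : GL (Fin 2) ℝ)
  have e : (f ∣[(0 : ℤ)] (((Quotient.out x)⁻¹ : SL(2, ℤ)) : GL (Fin 2) ℝ)) = cj Γ f x := by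
    ext z
    rw [← ModularForm.SL_slash, ModularForm.SL_slash_apply]
    simp [cj]
  rwa [e] at h


variable [Fintype (SL(2, ℤ) ⧸ Γ)] [DecidableEq (SL(2, ℤ) ⧸ Γ)]

theorem cmat_smul (t : Tuple Γ) (h : SL(2, ℤ)) (z : ℍ) (k x : SL(2, ℤ) ⧸ Γ) :
    cmat Γ t.v (h • z) k x = cmat Γ t.v z k (h⁻¹ • x) :=
  cj_smul (t.wh k).inv h x z

namespace Api

/-- `cmat (h • z)` is `cmat z` with permuted columns. -/
lemma cmat_smul_eq_submatrix (t : Tuple Γ) (h : SL(2, ℤ)) (z : ℍ) :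
    cmat Γ t.v (h • z) =
      (cmat Γ t.v z).submatrix (Equiv.refl _) (MulAction.toPerm h⁻¹) := by
  ext k x
  rw [cmat_smul]
  rfl

end Api

theorem cmat_inv_smul (t : Tuple Γ) (h : SL(2, ℤ)) (z : ℍ) (x k : SL(2, ℤ) ⧸ Γ) :
    (cmat Γ t.v (h • z))⁻¹ x k = (cmat Γ t.v z)⁻¹ (h⁻¹ • x) k := by
  rw [Api.cmat_smul_eq_submatrix, Matrix.inv_submatrix_equiv]
  rfl

theorem det_sq_smul (t : Tuple Γ) (h : SL(2, ℤ)) (z : ℍ) :
    (cmat Γ t.v (h • z)).det ^ 2 = (cmat Γ t.v z).det ^ 2 := by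
  rw [Api.cmat_smul_eq_submatrix]
  have h1 : ((cmat Γ t.v z).submatrix (Equiv.refl _) (MulAction.toPerm h⁻¹)).det =
      Equiv.Perm.sign (MulAction.toPerm h⁻¹ : Equiv.Perm (SL(2, ℤ) ⧸ Γ)) *
        (cmat Γ t.v z).det := by
    exact Matrix.det_permute' _ _
  rw [h1, mul_pow]
  rcases Int.units_eq_one_or (Equiv.Perm.sign (MulAction.toPerm h⁻¹ :
    Equiv.Perm (SL(2, ℤ) ⧸ Γ))) with h2 | h2 <;> rw [h2] <;> simp

namespace Api

lemma mdiff_const (c : ℂ) : MDiff (fun _ : ℍ => c) := by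
  rw [UpperHalfPlane.mdifferentiable_iff]
  exact differentiableOn_const c

lemma mdiff_finset_prod {ι : Type*} (s : Finset ι) (F : ι → ℍ → ℂ) (hF : ∀ i ∈ s, MDiff (F i)) :
    MDiff (fun z => ∏ i ∈ s, F i z) := by
  classical
  induction s using Finset.induction_on with
  | empty => simpa using mdiff_const 1
  | insert a s ha ih =>
    have h1 : MDiff (F a) := hF a (Finset.mem_insert_self a s)
    have h2 := ih fun i hi => hF i (Finset.mem_insert_of_mem hi)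
    have h3 := h1.mul h2
    have e : (fun z => ∏ i ∈ insert a s, F i z) = F a * fun z => ∏ i ∈ s, F i z := by
      ext z
      simp [Finset.prod_insert ha]
    rw [e]
    exact h3

lemma mdiff_finset_sum {ι : Type*} (s : Finset ι) (F : ι → ℍ → ℂ) (hF : ∀ i ∈ s, MDiff (F i)) :
    MDiff (fun z => ∑ i ∈ s, F i z) := by
  classical
  induction s using Finset.induction_on with
  | empty => simpa using mdiff_const 0
  | insert a s ha ih =>
    have h1 : MDiff (F a) := hF a (Finset.mem_insert_self a s)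
    have h2 := ih fun i hi => hF i (Finset.mem_insert_of_mem hi)
    have h3 := h1.add h2
    have e : (fun z => ∑ i ∈ insert a s, F i z) = F a + fun z => ∑ i ∈ s, F i z := by
      ext z
      simp [Finset.sum_insert ha]
    rw [e]
    exact h3

/-- the determinant of a matrix of holomorphic functions is holomorphic -/
lemma mdiff_det_of {n : Type*} [Fintype n] [DecidableEq n] (A : ℍ → Matrix n n ℂ)
    (hA : ∀ i j, MDiff (fun z => A z i j)) : MDiff (fun z => (A z).det) := by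
  simp only [Matrix.det_apply]
  refine mdiff_finset_sum _ _ fun σ _ => ?_
  have h1 := mdiff_finset_prod Finset.univ (fun i z => A z (σ i) i) fun i _ => hA (σ i) i
  have h2 := (mdiff_const ((Equiv.Perm.sign σ : ℤ) : ℂ)).mul h1
  have e : (fun z => Equiv.Perm.sign σ • ∏ i, A z (σ i) i) =
      (fun _ : ℍ => ((Equiv.Perm.sign σ : ℤ) : ℂ)) * fun z => ∏ i, A z (σ i) i := by
    ext z
    simp [Units.smul_def, zsmul_eq_mul]
  rw [e]
  exact h2

lemma mdiff_cmat (t : Tuple Γ) (k x : SL(2, ℤ) ⧸ Γ) : MDiff (fun z => cmat Γ t.v z k x) :=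
  mdiff_cj (t.wh k).holo x

end Api

theorem mdiff_det (t : Tuple Γ) : MDiff (fun z => (cmat Γ t.v z).det) :=
  Api.mdiff_det_of _ (Api.mdiff_cmat t)

theorem mdiff_adjugate (t : Tuple Γ) (x k : SL(2, ℤ) ⧸ Γ) :
    MDiff (fun z => (cmat Γ t.v z).adjugate x k) := by
  simp only [Matrix.adjugate_apply]
  refine Api.mdiff_det_of _ fun i j => ?_
  by_cases hi : i = k
  · subst hi
    simp only [Matrix.updateRow_self]
    exact Api.mdiff_const _
  · simp only [Matrix.updateRow_ne hi]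
    exact Api.mdiff_cmat t i j


namespace Api

/-- transfer of punctured neighbourhoods from `ℂ` to `ℍ` -/
lemma eventually_nhdsNE_of_coe {P : ℍ → Prop} (z₀ : ℍ)
    (h : ∀ᶠ w in 𝓝[≠] (z₀ : ℂ), ∀ hw : 0 < w.im, P ⟨w, hw⟩) :
    ∀ᶠ z : ℍ in 𝓝[≠] z₀, P z := by
  rw [eventually_nhdsWithin_iff] at h ⊢
  rw [← UpperHalfPlane.isOpenEmbedding_coe.map_nhds_eq, Filter.eventually_map] at h
  filter_upwards [h] with z hz hne
  exact hz (fun hcoe => hne (UpperHalfPlane.ext hcoe)) z.2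

lemma eventually_coe_nhdsNE {Q : ℂ → Prop} (z₀ : ℍ)
    (h : ∀ᶠ z : ℍ in 𝓝[≠] z₀, Q (z : ℂ)) : ∀ᶠ w in 𝓝[≠] (z₀ : ℂ), Q w := by
  rw [eventually_nhdsWithin_iff] at h ⊢
  rw [← UpperHalfPlane.isOpenEmbedding_coe.map_nhds_eq, Filter.eventually_map]
  filter_upwards [h] with z hz hne
  refine hz (fun hcoe => hne ?_)
  have : z = z₀ := hcoe
  rw [this]
  exact Set.mem_singleton _

instance nhdsNE_neBot (z₀ : ℍ) : (𝓝[≠] z₀).NeBot := by
  rw [← Filter.frequently_true_iff_neBot]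
  intro h
  have h2 : ∀ᶠ w in 𝓝[≠] (z₀ : ℂ), False :=
    eventually_coe_nhdsNE (Q := fun _ => False) z₀ (h.mono fun z hz => hz trivial)
  exact (Filter.eventually_false_iff_eq_bot.mp h2 ▸ (inferInstance : (𝓝[≠] (z₀ : ℂ)).NeBot)).ne rfl

/-- zeros of a holomorphic function on `ℍ` which is not identically zero are isolated -/
lemma eventually_ne_zero_of_mdiff {F : ℍ → ℂ} (hF : MDiff F) (hne : ∃ z, F z ≠ 0) (z₀ : ℍ) :
    ∀ᶠ z : ℍ in 𝓝[≠] z₀, F z ≠ 0 := by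
  have hU : IsOpen {w : ℂ | 0 < w.im} := isOpen_lt continuous_const Complex.continuous_im
  have hconv : IsPreconnected {w : ℂ | 0 < w.im} :=
    (convex_halfSpace_im_gt 0).isPreconnected
  have hA : AnalyticOnNhd ℂ (F ∘ ofComplex) {w : ℂ | 0 < w.im} :=
    (UpperHalfPlane.mdifferentiable_iff.mp hF).analyticOnNhd hU
  have hz₀ : (z₀ : ℂ) ∈ {w : ℂ | 0 < w.im} := z₀.2
  rcases (hA (z₀ : ℂ) hz₀).eventually_eq_zero_or_eventually_ne_zero with h | h
  · exfalso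
    obtain ⟨z, hz⟩ := hne
    have h0 := hA.eqOn_zero_of_preconnected_of_eventuallyEq_zero hconv hz₀ h
    have := h0 (show (z : ℂ) ∈ {w : ℂ | 0 < w.im} from z.2)
    simp only [Function.comp_apply, ofComplex_apply, Pi.zero_apply] at this
    exact hz this
  · refine eventually_nhdsNE_of_coe z₀ ?_
    filter_upwards [h] with w hw hpos
    simpa [Function.comp_apply, ofComplex_apply_of_im_pos hpos] using hw

end Api

/-- identity principle: the determinant is nonzero arbitrarily close to any point -/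
theorem det_frequently_ne_zero (t : Tuple Γ) (z₀ : ℍ) :
    ∃ᶠ z : ℍ in 𝓝[≠] z₀, (cmat Γ t.v z).det ≠ 0 :=
  (Api.eventually_ne_zero_of_mdiff (mdiff_det t) t.nondeg z₀).frequently

/-- zeros of the determinant are isolated -/
theorem det_eventually_ne_zero (t : Tuple Γ) (z₀ : ℍ) :
    ∀ᶠ z : ℍ in 𝓝[≠] z₀, (cmat Γ t.v z).det ≠ 0 :=
  Api.eventually_ne_zero_of_mdiff (mdiff_det t) t.nondeg z₀


/-- a weakly holomorphic function of degree `0` is constant (Mathlib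
`ModularForm.eq_const_of_weight_zero`) -/
theorem IsWH.const_of_zero [Γ.FiniteIndex] {f : ℍ → ℂ} (hf : IsWH Γ 0 f) :
    ∃ a : ℂ, f = fun _ => a := by
  have hinv : ∀ γ ∈ (Γ : Subgroup (GL (Fin 2) ℝ)), f ∣[(0 : ℤ)] γ = f := by
    rintro _ ⟨γ, hγ, rfl⟩
    ext z
    have h1 : (f ∣[(0 : ℤ)] (γ : SL(2, ℤ))) z = f (γ • z) := by
      rw [ModularForm.SL_slash_apply]; simp
    exact h1.trans (hf.inv γ hγ z)
  have hbdd : ∀ g : SL(2, ℤ), IsBoundedAtImInfty (f ∣[(0 : ℤ)] g) := by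
    intro g
    have h1 := hf.bdd g
    have e : (f ∣[(0 : ℤ)] g) = fun z : ℍ => Δ z ^ 0 * f (g • z) := by
      ext z
      rw [ModularForm.SL_slash_apply]; simp
    rw [e]
    exact h1
  obtain ⟨a, ha⟩ := ModularForm.eq_const_of_weight_zero
    (Fermat.Agent.S22.h20_mkModularForm (𝒢 := (Γ : Subgroup (GL (Fin 2) ℝ))) 0 f hf.holo
      hinv hbdd)
  refine ⟨a, ?_⟩
  have h2 : (Fermat.Agent.S22.h20_mkModularForm (𝒢 := (Γ : Subgroup (GL (Fin 2) ℝ))) 0 f hf.holo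
      hinv hbdd : ℍ → ℂ) = f := rfl
  rw [h2] at ha
  rw [ha]
  rfl

theorem Tuple.d_pos [Γ.FiniteIndex] (t : Tuple Γ) (k : SL(2, ℤ) ⧸ Γ) (hk : k ≠ x0 Γ) :
    1 ≤ t.d k := by
  by_contra hlt
  have h0 : t.d k = 0 := by omega
  have hwh := t.wh k
  rw [h0] at hwh
  obtain ⟨a, ha⟩ := hwh.const_of_zero
  obtain ⟨z, hz⟩ := t.nondeg
  apply hz
  -- row `k` is `a` times row `x0`
  rw [← Matrix.det_updateRow_add_smul_self (cmat Γ t.v z) hk (-a)]
  refine Matrix.det_eq_zero_of_row_eq_zero k fun x => ?_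
  rw [Matrix.updateRow_self]
  simp only [Pi.add_apply, Pi.smul_apply, smul_eq_mul, cmat, Matrix.of_apply, cj]
  rw [ha, t.v_one]
  ring

end

end Fermat.Agent.S21.E
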