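import Fermat.Agent.S21.E.Defs

/-!
# Project ES, part E, work package E-ALL2

Main result: `Fermat.Agent.S21.E.all2_inv_pole_bound` (equivariant analytic matrix germ,
generically invertible and saturated: the inverse has a pole of order at most `e - 1`).

Helper lemmas (namespace `Fermat.Agent.S21.E.All2`):

* `bound_of_punctured`: a bound `‖h w‖ ≤ C ‖w‖ ^ e` on a punctured neighbourhood extends to
  a full neighbourhood for continuous `h`.
* `invariant_germ_bound`: an analytic germ invariant under `w ↦ ζ w` (`ζ` a primitive `e`-th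
  root of unity) satisfies `g w - g 0 = O(w ^ e)`.
* `exists_analytic_mul_pow`: normal form of a meromorphic germ of order `≥ -n`.
* `analyticAt_det`, `analyticAt_adjugate`: determinant / adjugate of an analytic matrix germ.
* `inv_equivariant`, `inv_equivariant_pow`: equivariance of the inverse matrix.
* `meromorphicAt_inv_entry`, `bound_of_order_ge`, `false_of_order_lt`.
-/

set_option autoImplicit false

open Complex Filter Function Topology

namespace Fermat.Agent.S21.E.All2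

/-- A bound `‖h w‖ ≤ C ‖w‖ ^ e` (`e > 0`) on a punctured neighbourhood of `0` extends to a
full neighbourhood when `h` is continuous at `0`. -/
theorem bound_of_punctured {h : ℂ → ℂ} (hc : ContinuousAt h 0) {C : ℝ} {e : ℕ} (he : 0 < e)
    (hb : ∀ᶠ w in 𝓝[≠] (0 : ℂ), ‖h w‖ ≤ C * ‖w‖ ^ e) :
    ∀ᶠ w in 𝓝 (0 : ℂ), ‖h w‖ ≤ C * ‖w‖ ^ e := by
  have h0 : h 0 = 0 := by
    have t1 : Tendsto h (𝓝[≠] (0 : ℂ)) (𝓝 (h 0)) := hc.continuousWithinAt.tendsto
    have t2 : Tendsto h (𝓝[≠] (0 : ℂ)) (𝓝 0) := by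
      apply squeeze_zero_norm' hb
      have h3 : Tendsto (fun w : ℂ => C * ‖w‖ ^ e) (𝓝 0) (𝓝 (C * ‖(0 : ℂ)‖ ^ e)) := by
        apply Continuous.tendsto
        fun_prop
      simp only [norm_zero, ne_eq, he.ne', not_false_eq_true, zero_pow, mul_zero] at h3
      exact h3.mono_left nhdsWithin_le_nhds
    exact tendsto_nhds_unique t1 t2
  rw [eventually_nhdsWithin_iff] at hb
  filter_upwards [hb] with w hw
  by_cases hw0 : w = 0
  · subst hw0
    simp [h0, he.ne']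
  · exact hw hw0

/-- An analytic germ at `0` invariant under `w ↦ ζ w`, `ζ` a primitive `e`-th root of unity,
agrees with its value at `0` up to `O(w ^ e)`. -/
theorem invariant_germ_bound {g : ℂ → ℂ} (hg : AnalyticAt ℂ g 0) {e : ℕ} (he : 0 < e) {ζ : ℂ}
    (hζ : IsPrimitiveRoot ζ e) (hinv : ∀ᶠ w in 𝓝 (0 : ℂ), g (ζ * w) = g w) :
    ∃ C : ℝ, ∀ᶠ w in 𝓝 (0 : ℂ), ‖g w - g 0‖ ≤ C * ‖w‖ ^ e := by
  have hfa : AnalyticAt ℂ (fun w => g w - g 0) 0 := hg.sub analyticAt_const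
  by_cases hz : ∀ᶠ w in 𝓝 (0 : ℂ), g w - g 0 = 0
  · refine ⟨0, ?_⟩
    filter_upwards [hz] with w hw
    simp [hw]
  · obtain ⟨m, u, hu, hu0, hfu⟩ := hfa.exists_eventuallyEq_pow_smul_nonzero_iff.mpr hz
    simp only [sub_zero, smul_eq_mul] at hfu
    -- `m ≠ 0` because the function vanishes at `0`
    have hm0 : m ≠ 0 := by
      intro hm
      have := hfu.self_of_nhds
      simp [hm] at this
      exact hu0 this.symm
    -- `ζ ^ m = 1`
    have hζ0 : ζ ≠ 0 := hζ.ne_zero he.ne'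
    have hmul : Tendsto (fun w : ℂ => ζ * w) (𝓝 0) (𝓝 0) := by
      have : Continuous (fun w : ℂ => ζ * w) := by fun_prop
      simpa using this.tendsto 0
    have huc : AnalyticAt ℂ (fun w => ζ ^ m * u (ζ * w)) 0 := by
      have h1 : AnalyticAt ℂ (fun w : ℂ => ζ * w) 0 := by fun_prop
      have h2 : AnalyticAt ℂ (u ∘ fun w : ℂ => ζ * w) 0 :=
        hu.comp_of_eq h1 (by simp)
      exact analyticAt_const.mul h2
    have hev : ∀ᶠ w in 𝓝[≠] (0 : ℂ), ζ ^ m * u (ζ * w) = u w := by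
      rw [eventually_nhdsWithin_iff]
      filter_upwards [hfu, hmul.eventually hfu, hinv] with w h1 h2 h3 hw
      have hw0 : w ≠ 0 := hw
      have h4 : (ζ * w) ^ m * u (ζ * w) = w ^ m * u w := by
        rw [← h2, ← h1, h3]
      have h5 : w ^ m * (ζ ^ m * u (ζ * w)) = w ^ m * u w := by
        rw [← h4]; ring
      exact mul_left_cancel₀ (pow_ne_zero m hw0) h5
    have hev' : ∀ᶠ w in 𝓝 (0 : ℂ), ζ ^ m * u (ζ * w) = u w :=
      (huc.frequently_eq_iff_eventually_eq hu).mp hev.frequently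
    have h0 := hev'.self_of_nhds
    simp only [mul_zero] at h0
    have hζm : ζ ^ m = 1 := by
      have : (ζ ^ m - 1) * u 0 = 0 := by rw [sub_mul, h0]; ring
      rcases mul_eq_zero.mp this with h | h
      · exact sub_eq_zero.mp h
      · exact absurd h hu0
    have hem : e ≤ m := Nat.le_of_dvd (Nat.pos_of_ne_zero hm0) (hζ.dvd_of_pow_eq_one m hζm)
    -- bound
    have hub : ∀ᶠ w in 𝓝 (0 : ℂ), ‖u w‖ ≤ ‖u 0‖ + 1 := by
      have : Tendsto (fun w => ‖u w‖) (𝓝 0) (𝓝 ‖u 0‖) := hu.continuousAt.norm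
      exact this.eventually_le_const (by linarith)
    have hw1 : ∀ᶠ w in 𝓝 (0 : ℂ), ‖w‖ ≤ 1 := by
      have : Tendsto (fun w : ℂ => ‖w‖) (𝓝 0) (𝓝 ‖(0 : ℂ)‖) := continuous_norm.continuousAt
      rw [norm_zero] at this
      exact this.eventually_le_const (by norm_num)
    refine ⟨‖u 0‖ + 1, ?_⟩
    filter_upwards [hfu, hub, hw1] with w h1 h2 h3
    rw [h1, norm_mul, norm_pow]
    have h4 : ‖w‖ ^ m ≤ ‖w‖ ^ e := pow_le_pow_of_le_one (norm_nonneg w) h3 hem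
    calc ‖w‖ ^ m * ‖u w‖ ≤ ‖w‖ ^ e * (‖u 0‖ + 1) :=
          mul_le_mul h4 h2 (norm_nonneg _) (pow_nonneg (norm_nonneg w) e)
      _ = (‖u 0‖ + 1) * ‖w‖ ^ e := by ring

/-- Normal form of a meromorphic germ of order `≥ -n`: `w ^ n * f w` extends analytically,
with nonzero value at `0` when the order is exactly `-n`. -/
theorem exists_analytic_mul_pow {f : ℂ → ℂ} (hf : MeromorphicAt f 0) (n : ℕ)
    (hn : ((-(n : ℤ) : ℤ) : WithTop ℤ) ≤ meromorphicOrderAt f 0) :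
    ∃ P : ℂ → ℂ, AnalyticAt ℂ P 0 ∧ (∀ᶠ w in 𝓝[≠] (0 : ℂ), P w = w ^ n * f w) ∧
      (meromorphicOrderAt f 0 = ((-(n : ℤ) : ℤ) : WithTop ℤ) → P 0 ≠ 0) := by
  by_cases htop : meromorphicOrderAt f 0 = ⊤
  · refine ⟨fun _ => 0, analyticAt_const, ?_, ?_⟩
    · filter_upwards [meromorphicOrderAt_eq_top_iff.mp htop] with w hw
      simp [hw]
    · intro h
      rw [htop] at h
      exact absurd h WithTop.top_ne_coe
  · obtain ⟨j, hj⟩ := WithTop.ne_top_iff_exists.mp htop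
    obtain ⟨g, hg, hg0, hfg⟩ := (meromorphicOrderAt_eq_int_iff hf).mp hj.symm
    have hjn : -(n : ℤ) ≤ j := by
      rw [← hj] at hn
      exact_mod_cast hn
    obtain ⟨t, ht⟩ : ∃ t : ℕ, (t : ℤ) = n + j := ⟨(n + j).toNat, Int.toNat_of_nonneg (by omega)⟩
    refine ⟨fun w => w ^ t * g w, ?_, ?_, ?_⟩
    · exact (analyticAt_id.pow t).mul hg
    · filter_upwards [hfg, self_mem_nhdsWithin] with w hw hw0
      have hw0' : w ≠ 0 := hw0
      simp only [sub_zero, smul_eq_mul] at hw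
      rw [hw, ← mul_assoc, ← zpow_natCast w n, ← zpow_add₀ hw0', ← ht, zpow_natCast]
    · intro h
      have h1 : j = -(n : ℤ) := by
        rw [← hj] at h
        exact_mod_cast h
      have h2 : t = 0 := by omega
      subst h2
      simpa using hg0

/-- The determinant of a matrix of analytic germs is analytic. -/
theorem analyticAt_det {X : Type} [Fintype X] [DecidableEq X] (A : ℂ → Matrix X X ℂ) (z : ℂ)
    (hA : ∀ k x, AnalyticAt ℂ (fun w => A w k x) z) :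
    AnalyticAt ℂ (fun w => (A w).det) z := by
  simp only [Matrix.det_apply']
  refine Finset.analyticAt_fun_sum _ fun p _ => ?_
  refine analyticAt_const.mul ?_
  exact Finset.analyticAt_fun_prod _ fun i _ => hA _ _

/-- The entries of the adjugate of a matrix of analytic germs are analytic. -/
theorem analyticAt_adjugate {X : Type} [Fintype X] [DecidableEq X] (A : ℂ → Matrix X X ℂ)
    (z : ℂ) (hA : ∀ k x, AnalyticAt ℂ (fun w => A w k x) z) (i j : X) :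
    AnalyticAt ℂ (fun w => (A w).adjugate i j) z := by
  simp only [Matrix.adjugate_apply]
  apply analyticAt_det
  intro k x
  by_cases hk : k = j
  · subst hk
    simp only [Matrix.updateRow_self]
    exact analyticAt_const
  · simp only [Matrix.updateRow_ne hk]
    exact hA k x

section
variable {X : Type} [Fintype X] [DecidableEq X] {G : Type} [Group G] [MulAction G X]

/-- equivariance of the inverse matrix -/
theorem inv_equivariant (σ : G) (ζ : ℂ) (M : ℂ → Matrix X X ℂ)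
    (heq : ∀ᶠ w in 𝓝 (0 : ℂ), ∀ k x, M (ζ * w) k x = M w k (σ⁻¹ • x)) :
    ∀ᶠ w in 𝓝 (0 : ℂ), ∀ x k, (M (ζ * w))⁻¹ x k = (M w)⁻¹ (σ⁻¹ • x) k := by
  filter_upwards [heq] with w hw x k
  have h1 : M (ζ * w) = (M w).submatrix (Equiv.refl X) (MulAction.toPerm σ⁻¹) := by
    ext k x
    simp [hw k x]
  rw [h1, Matrix.inv_submatrix_equiv]
  simp

/-- iterated equivariance of the inverse matrix -/
theorem inv_equivariant_pow (σ : G) (ζ : ℂ) (M : ℂ → Matrix X X ℂ)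
    (heq : ∀ᶠ w in 𝓝 (0 : ℂ), ∀ k x, M (ζ * w) k x = M w k (σ⁻¹ • x)) (s : ℕ) :
    ∀ᶠ w in 𝓝 (0 : ℂ), ∀ x k, (M (ζ ^ s * w))⁻¹ x k = (M w)⁻¹ (σ⁻¹ ^ s • x) k := by
  induction s with
  | zero => exact Eventually.of_forall fun w x k => by simp
  | succ s ih =>
    have hmul : Tendsto (fun w : ℂ => ζ ^ s * w) (𝓝 0) (𝓝 0) := by
      have : Continuous (fun w : ℂ => ζ ^ s * w) := by fun_prop
      simpa using this.tendsto 0
    filter_upwards [ih, hmul.eventually (inv_equivariant σ ζ M heq)] with w h1 h2 x k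
    have h3 : ζ ^ (s + 1) * w = ζ * (ζ ^ s * w) := by ring
    rw [h3, h2 x k, h1 (σ⁻¹ • x) k, pow_succ, mul_smul]

end


section
variable {X : Type} [Fintype X] [DecidableEq X] {G : Type} [Group G] [MulAction G X]

/-- the entries of the inverse are meromorphic -/
theorem meromorphicAt_inv_entry (M : ℂ → Matrix X X ℂ)
    (hM : ∀ k x, AnalyticAt ℂ (fun w => M w k x) 0) (x k : X) :
    MeromorphicAt (fun w => (M w)⁻¹ x k) 0 := by
  have h1 : (fun w => (M w)⁻¹ x k) = fun w => ((M w).det)⁻¹ * (M w).adjugate x k := by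
    funext w
    simp [Matrix.inv_def, Ring.inverse_eq_inv']
  rw [h1]
  exact ((analyticAt_det M 0 hM).meromorphicAt.inv).mul
    (analyticAt_adjugate M 0 hM x k).meromorphicAt

/-- Case of small pole order: the bound holds. -/
theorem bound_of_order_ge (e : ℕ) (M : ℂ → Matrix X X ℂ)
    (hM : ∀ k x, AnalyticAt ℂ (fun w => M w k x) 0)
    (hord : ∀ x k, ((-((e - 1 : ℕ) : ℤ) : ℤ) : WithTop ℤ) ≤
      meromorphicOrderAt (fun w => (M w)⁻¹ x k) 0) :
    ∃ C : ℝ, ∀ᶠ w in 𝓝[≠] (0 : ℂ), ∀ x k, ‖(M w)⁻¹ x k‖ * ‖w‖ ^ (e - 1) ≤ C := by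
  choose P hPa hPe _ using fun x k =>
    exists_analytic_mul_pow (meromorphicAt_inv_entry M hM x k) (e - 1) (hord x k)
  refine ⟨∑ x, ∑ k, (‖P x k 0‖ + 1), ?_⟩
  have hb : ∀ x k, ∀ᶠ w in 𝓝[≠] (0 : ℂ), ‖P x k w‖ ≤ ‖P x k 0‖ + 1 := by
    intro x k
    have : Tendsto (fun w => ‖P x k w‖) (𝓝 0) (𝓝 ‖P x k 0‖) := (hPa x k).continuousAt.norm
    exact (this.eventually_le_const (by linarith)).filter_mono nhdsWithin_le_nhds
  have h1 : ∀ᶠ w in 𝓝[≠] (0 : ℂ), ∀ x k, P x k w = w ^ (e - 1) * (M w)⁻¹ x k := by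
    rw [eventually_all]; intro x
    rw [eventually_all]; intro k
    exact hPe x k
  have h2 : ∀ᶠ w in 𝓝[≠] (0 : ℂ), ∀ x k, ‖P x k w‖ ≤ ‖P x k 0‖ + 1 := by
    rw [eventually_all]; intro x
    rw [eventually_all]; intro k
    exact hb x k
  filter_upwards [h1, h2] with w hw1 hw2 x k
  have h3 : ‖(M w)⁻¹ x k‖ * ‖w‖ ^ (e - 1) = ‖P x k w‖ := by
    rw [hw1 x k, norm_mul, norm_pow, mul_comm]
  rw [h3]
  refine (hw2 x k).trans ?_
  have h4 : ‖P x k 0‖ + 1 ≤ ∑ k', (‖P x k' 0‖ + 1) :=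
    Finset.single_le_sum (f := fun k' => ‖P x k' 0‖ + 1)
      (fun i _ => by positivity) (Finset.mem_univ k)
  have h5 : ∑ k', (‖P x k' 0‖ + 1) ≤ ∑ x', ∑ k', (‖P x' k' 0‖ + 1) :=
    Finset.single_le_sum (f := fun x' => ∑ k', (‖P x' k' 0‖ + 1))
      (fun i _ => Finset.sum_nonneg fun j _ => by positivity) (Finset.mem_univ x)
  exact h4.trans h5


/-- the averaged row vector is invariant under `w ↦ ζ w` -/
theorem sum_range_rotate {e : ℕ} (he : 0 < e) {ζ : ℂ} (hζ : ζ ^ e = 1) (P : ℂ → ℂ) (w : ℂ) :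
    ∑ s ∈ Finset.range e, P (ζ ^ s * (ζ * w)) = ∑ s ∈ Finset.range e, P (ζ ^ s * w) := by
  obtain ⟨e', rfl⟩ : ∃ e', e = e' + 1 := ⟨e - 1, by omega⟩
  have h1 : ∀ s : ℕ, ζ ^ s * (ζ * w) = ζ ^ (s + 1) * w := fun s => by ring
  simp only [h1]
  rw [Finset.sum_range_succ, Finset.sum_range_succ' (fun s => P (ζ ^ s * w)), hζ]
  simp

/-- Case of large pole order: contradiction with saturation. -/
theorem false_of_order_lt (σ : G) (e : ℕ) (he : 0 < e) (ζ : ℂ) (hζ : IsPrimitiveRoot ζ e)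
    (M : ℂ → Matrix X X ℂ) (hM : ∀ k x, AnalyticAt ℂ (fun w => M w k x) 0)
    (heq : ∀ᶠ w in 𝓝 (0 : ℂ), ∀ k x, M (ζ * w) k x = M w k (σ⁻¹ • x))
    (hdet : ∃ᶠ w in 𝓝 (0 : ℂ), (M w).det ≠ 0)
    (hsat : ∀ c : X → ℂ, c ≠ 0 → ¬ ∃ C : ℝ, ∀ᶠ w in 𝓝 (0 : ℂ), ∀ x,
      ‖∑ k, c k * M w k x‖ ≤ C * ‖w‖ ^ e)
    (x₁ k₁ : X)
    (hlt : meromorphicOrderAt (fun w => (M w)⁻¹ x₁ k₁) 0 <
      ((-((e - 1 : ℕ) : ℤ) : ℤ) : WithTop ℤ)) : False := by
  classical
  -- the entry of minimal order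
  obtain ⟨⟨x₀, k₀⟩, -, hmin⟩ := Finset.exists_min_image (Finset.univ : Finset (X × X))
    (fun p => meromorphicOrderAt (fun w => (M w)⁻¹ p.1 p.2) 0) ⟨(x₁, k₁), Finset.mem_univ _⟩
  simp only [Finset.mem_univ, forall_const, Prod.forall] at hmin
  have h0lt : meromorphicOrderAt (fun w => (M w)⁻¹ x₀ k₀) 0 <
      ((-((e - 1 : ℕ) : ℤ) : ℤ) : WithTop ℤ) := lt_of_le_of_lt (hmin x₁ k₁) hlt
  obtain ⟨j, hj⟩ := WithTop.ne_top_iff_exists.mp (ne_top_of_lt h0lt)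
  have hje : j < -((e - 1 : ℕ) : ℤ) := by
    rw [← hj] at h0lt
    exact_mod_cast h0lt
  obtain ⟨n, hn⟩ : ∃ n : ℕ, (n : ℤ) = -j := ⟨(-j).toNat, Int.toNat_of_nonneg (by omega)⟩
  have hen : e ≤ n := by omega
  have hjn : j = -(n : ℤ) := by omega
  have hord0 : meromorphicOrderAt (fun w => (M w)⁻¹ x₀ k₀) 0 = ((-(n : ℤ) : ℤ) : WithTop ℤ) := by
    rw [← hj, hjn]
  have hord : ∀ x k, ((-(n : ℤ) : ℤ) : WithTop ℤ) ≤
      meromorphicOrderAt (fun w => (M w)⁻¹ x k) 0 := fun x k => hord0 ▸ hmin x k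
  choose P hPa hPe hP0 using fun x k =>
    exists_analytic_mul_pow (meromorphicAt_inv_entry M hM x k) n (hord x k)
  have hP00 : P x₀ k₀ 0 ≠ 0 := hP0 x₀ k₀ hord0
  -- basic facts on `ζ`
  have hζe : ζ ^ e = 1 := hζ.pow_eq_one
  have hζ0 : ζ ≠ 0 := hζ.ne_zero he.ne'
  have hζn : ‖ζ‖ = 1 := Complex.norm_eq_one_of_pow_eq_one hζe he.ne'
  -- the averaged row
  set Q : X → ℂ → ℂ := fun k w => ∑ s ∈ Finset.range e, P x₀ k (ζ ^ s * w) with hQ
  have hQa : ∀ k, AnalyticAt ℂ (Q k) 0 := by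
    intro k
    refine Finset.analyticAt_fun_sum _ fun s _ => ?_
    have h1 : AnalyticAt ℂ (fun w : ℂ => ζ ^ s * w) 0 := by fun_prop
    exact (hPa x₀ k).comp_of_eq h1 (by simp)
  have hQinv : ∀ k w, Q k (ζ * w) = Q k w := fun k w => sum_range_rotate he hζe (P x₀ k) w
  have hQ0 : ∀ k, Q k 0 = e * P x₀ k 0 := by
    intro k
    simp [hQ]
  have hc : (fun k => Q k 0) ≠ 0 := by
    intro h
    have h1 := congrFun h k₀
    simp only [Pi.zero_apply, hQ0] at h1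
    rcases mul_eq_zero.mp h1 with h2 | h2
    · exact he.ne' (by exact_mod_cast h2)
    · exact hP00 h2
  -- determinant is nonzero on a punctured neighbourhood
  have hdet' : ∀ᶠ w in 𝓝[≠] (0 : ℂ), (M w).det ≠ 0 := by
    rcases (analyticAt_det M 0 hM).eventually_eq_zero_or_eventually_ne_zero with h | h
    · exact absurd h (by simpa using hdet)
    · exact h
  -- the identity `Q(w) ᵥ* M(w) = w ^ n Σ_s ζ^(n s) e_{σ^(-s) x₀}` and its bound
  have hmulp : ∀ s : ℕ, Tendsto (fun w : ℂ => ζ ^ s * w) (𝓝[≠] 0) (𝓝[≠] 0) := by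
    intro s
    have hc : Continuous (fun w : ℂ => ζ ^ s * w) := by fun_prop
    have h1 : Tendsto (fun w : ℂ => ζ ^ s * w) (𝓝 0) (𝓝 0) := by simpa using hc.tendsto 0
    refine tendsto_nhdsWithin_of_tendsto_nhds_of_eventually_within _
      (h1.mono_left nhdsWithin_le_nhds) ?_
    filter_upwards [self_mem_nhdsWithin] with w hw
    exact mul_ne_zero (pow_ne_zero s hζ0) hw
  have hPs : ∀ᶠ w in 𝓝[≠] (0 : ℂ), ∀ s ∈ Finset.range e, ∀ k,
      P x₀ k (ζ ^ s * w) = (ζ ^ s * w) ^ n * (M w)⁻¹ (σ⁻¹ ^ s • x₀) k := by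
    rw [Filter.eventually_all_finset]
    intro s _
    rw [eventually_all]
    intro k
    filter_upwards [(hmulp s).eventually (hPe x₀ k),
      (inv_equivariant_pow σ ζ M heq s).filter_mono nhdsWithin_le_nhds] with w h1 h2
    rw [h1, h2 x₀ k]
  have hQM : ∀ᶠ w in 𝓝[≠] (0 : ℂ), ∀ x, ‖∑ k, Q k w * M w k x‖ ≤ e * ‖w‖ ^ e := by
    have hw1 : ∀ᶠ w in 𝓝[≠] (0 : ℂ), ‖w‖ ≤ 1 := by
      have : Tendsto (fun w : ℂ => ‖w‖) (𝓝 0) (𝓝 ‖(0 : ℂ)‖) := continuous_norm.continuousAt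
      rw [norm_zero] at this
      exact (this.eventually_le_const (by norm_num)).filter_mono nhdsWithin_le_nhds
    filter_upwards [hPs, hdet', hw1] with w h1 h2 h3 x
    have h4 : ∑ k, Q k w * M w k x =
        ∑ s ∈ Finset.range e, (ζ ^ s * w) ^ n * (1 : Matrix X X ℂ) (σ⁻¹ ^ s • x₀) x := by
      simp only [hQ, Finset.sum_mul]
      rw [Finset.sum_comm]
      refine Finset.sum_congr rfl fun s hs => ?_
      have h5 : (M w)⁻¹ * M w = 1 := Matrix.nonsing_inv_mul _ (isUnit_iff_ne_zero.mpr h2)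
      rw [← h5, Matrix.mul_apply, Finset.mul_sum]
      refine Finset.sum_congr rfl fun k _ => ?_
      rw [h1 s hs k]
      ring
    rw [h4]
    calc ‖∑ s ∈ Finset.range e, (ζ ^ s * w) ^ n * (1 : Matrix X X ℂ) (σ⁻¹ ^ s • x₀) x‖
        ≤ ∑ s ∈ Finset.range e, ‖(ζ ^ s * w) ^ n * (1 : Matrix X X ℂ) (σ⁻¹ ^ s • x₀) x‖ :=
          norm_sum_le _ _
      _ ≤ ∑ _s ∈ Finset.range e, ‖w‖ ^ e := by
          refine Finset.sum_le_sum fun s _ => ?_
          have h6 : ‖(1 : Matrix X X ℂ) (σ⁻¹ ^ s • x₀) x‖ ≤ 1 := by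
            by_cases hx : σ⁻¹ ^ s • x₀ = x
            · rw [hx, Matrix.one_apply_eq, norm_one]
            · rw [Matrix.one_apply_ne hx, norm_zero]
              exact zero_le_one
          have h7 : ‖(ζ ^ s * w) ^ n‖ = ‖w‖ ^ n := by
            simp [norm_pow, hζn]
          rw [norm_mul, h7]
          calc ‖w‖ ^ n * ‖(1 : Matrix X X ℂ) (σ⁻¹ ^ s • x₀) x‖ ≤ ‖w‖ ^ n * 1 :=
                mul_le_mul_of_nonneg_left h6 (pow_nonneg (norm_nonneg w) n)
            _ = ‖w‖ ^ n := mul_one _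
            _ ≤ ‖w‖ ^ e := pow_le_pow_of_le_one (norm_nonneg w) h3 hen
      _ = e * ‖w‖ ^ e := by simp
  -- invariance gives `Q k w - Q k 0 = O(w ^ e)`
  choose C hC using fun k => invariant_germ_bound (hQa k) he hζ
    (Eventually.of_forall (hQinv k))
  -- boundedness of the entries of `M`
  have hMb : ∀ᶠ w in 𝓝 (0 : ℂ), ∀ k x, ‖M w k x‖ ≤ ‖M 0 k x‖ + 1 := by
    rw [eventually_all]; intro k
    rw [eventually_all]; intro x
    have : Tendsto (fun w => ‖M w k x‖) (𝓝 0) (𝓝 ‖M 0 k x‖) := (hM k x).continuousAt.norm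
    exact this.eventually_le_const (by linarith)
  have hCall : ∀ᶠ w in 𝓝 (0 : ℂ), ∀ k, ‖Q k w - Q k 0‖ ≤ C k * ‖w‖ ^ e := by
    rw [eventually_all]; intro k
    exact hC k
  -- the final bound
  set B : ℝ := (e : ℝ) + ∑ x, ∑ k, |C k| * (‖M 0 k x‖ + 1) with hB
  have hfin : ∀ x, ∀ᶠ w in 𝓝[≠] (0 : ℂ), ‖∑ k, Q k 0 * M w k x‖ ≤ B * ‖w‖ ^ e := by
    intro x
    filter_upwards [hQM, hMb.filter_mono nhdsWithin_le_nhds,
      hCall.filter_mono nhdsWithin_le_nhds] with w h1 h2 h3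
    have h4 : ∑ k, Q k 0 * M w k x =
        ∑ k, Q k w * M w k x - ∑ k, (Q k w - Q k 0) * M w k x := by
      rw [← Finset.sum_sub_distrib]
      refine Finset.sum_congr rfl fun k _ => ?_
      ring
    have hwe : 0 ≤ ‖w‖ ^ e := pow_nonneg (norm_nonneg w) e
    have h5 : ‖∑ k, (Q k w - Q k 0) * M w k x‖ ≤
        (∑ k, |C k| * (‖M 0 k x‖ + 1)) * ‖w‖ ^ e := by
      rw [Finset.sum_mul]
      refine (norm_sum_le _ _).trans (Finset.sum_le_sum fun k _ => ?_)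
      rw [norm_mul]
      have h6 : ‖Q k w - Q k 0‖ ≤ |C k| * ‖w‖ ^ e :=
        (h3 k).trans (mul_le_mul_of_nonneg_right (le_abs_self _) hwe)
      calc ‖Q k w - Q k 0‖ * ‖M w k x‖ ≤ (|C k| * ‖w‖ ^ e) * (‖M 0 k x‖ + 1) :=
            mul_le_mul h6 (h2 k x) (norm_nonneg _) (mul_nonneg (abs_nonneg _) hwe)
        _ = |C k| * (‖M 0 k x‖ + 1) * ‖w‖ ^ e := by ring
    have h7 : (∑ k, |C k| * (‖M 0 k x‖ + 1)) ≤ ∑ x', ∑ k, |C k| * (‖M 0 k x'‖ + 1) :=
      Finset.single_le_sum (f := fun x' => ∑ k, |C k| * (‖M 0 k x'‖ + 1))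
        (fun i _ => Finset.sum_nonneg fun k _ => by positivity) (Finset.mem_univ x)
    rw [h4]
    calc ‖∑ k, Q k w * M w k x - ∑ k, (Q k w - Q k 0) * M w k x‖
        ≤ ‖∑ k, Q k w * M w k x‖ + ‖∑ k, (Q k w - Q k 0) * M w k x‖ := norm_sub_le _ _
      _ ≤ e * ‖w‖ ^ e + (∑ k, |C k| * (‖M 0 k x‖ + 1)) * ‖w‖ ^ e := add_le_add (h1 x) h5
      _ ≤ e * ‖w‖ ^ e + (∑ x', ∑ k, |C k| * (‖M 0 k x'‖ + 1)) * ‖w‖ ^ e := by
          gcongr
      _ = B * ‖w‖ ^ e := by rw [hB]; ring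
  refine hsat (fun k => Q k 0) hc ⟨B, ?_⟩
  rw [eventually_all]
  intro x
  refine bound_of_punctured ?_ he (hfin x)
  have : AnalyticAt ℂ (fun w => ∑ k, Q k 0 * M w k x) 0 :=
    Finset.analyticAt_fun_sum _ fun k _ => analyticAt_const.mul (hM k x)
  exact this.continuousAt

end

end Fermat.Agent.S21.E.All2

namespace Fermat.Agent.S21.E

/-- E-ALL2: equivariant analytic matrix germ, generically invertible and saturated:
the inverse has a pole of order at most `e - 1`. -/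
theorem all2_inv_pole_bound {X : Type} [Fintype X] [DecidableEq X] {G : Type} [Group G]
    [MulAction G X] (σ : G) (e : ℕ) (he : 0 < e) (ζ : ℂ) (hζ : IsPrimitiveRoot ζ e)
    (hσ : ∀ x : X, σ ^ e • x = x)
    (M : ℂ → Matrix X X ℂ) (hM : ∀ k x, AnalyticAt ℂ (fun w => M w k x) 0)
    (heq : ∀ᶠ w in 𝓝 (0 : ℂ), ∀ k x, M (ζ * w) k x = M w k (σ⁻¹ • x))
    (hdet : ∃ᶠ w in 𝓝 (0 : ℂ), (M w).det ≠ 0)
    (hsat : ∀ c : X → ℂ, c ≠ 0 → ¬ ∃ C : ℝ, ∀ᶠ w in 𝓝 (0 : ℂ), ∀ x,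
      ‖∑ k, c k * M w k x‖ ≤ C * ‖w‖ ^ e) :
    ∃ C : ℝ, ∀ᶠ w in 𝓝[≠] (0 : ℂ), ∀ x k, ‖(M w)⁻¹ x k‖ * ‖w‖ ^ (e - 1) ≤ C := by
  have _ := hσ
  by_cases h : ∀ x k, ((-((e - 1 : ℕ) : ℤ) : ℤ) : WithTop ℤ) ≤
      meromorphicOrderAt (fun w => (M w)⁻¹ x k) 0
  · exact All2.bound_of_order_ge e M hM h
  · exfalso
    simp only [not_forall, not_le] at h
    obtain ⟨x₁, k₁, hlt⟩ := h
    exact All2.false_of_order_lt σ e he ζ hζ M hM heq hdet hsat x₁ k₁ hlt

end Fermat.Agent.S21.E
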