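import Fermat.Agent.S21.E.Defs
import Fermat.Agent.S21.E.All2
import Fermat.Agent.S21.E.Api

/-!
# Project ES, part E, work package E-CUSP (helper22)

Decay of the inverse matrix of conjugates at `i∞` for a reduced family.

Helper lemmas live in the namespace `Fermat.Agent.S21.E.CuspDecay`:
* `cuspPeriod Γ` : a common period `L` (order of the permutation of `T` on the cosets);
* `ent t k x` : the normalised entries `Δ ^ d_k * cj (v_k) x`, holomorphic, bounded at `i∞`,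
  `L`-periodic;
* `cuspMat t w` : the matrix of their cusp functions in `w = exp (2 π i z / L)`, analytic at
  `0`, equivariant for `w ↦ ζ w` and `x ↦ T⁻¹ x`, with generically nonzero determinant.
-/

set_option autoImplicit false

open UpperHalfPlane hiding I
open Complex Filter Function Topology
open scoped Manifold MatrixGroups ModularForm Real

namespace Fermat.Agent.S21.E.CuspDecay

noncomputable section

local notation "Δ" => ModularForm.discriminant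
local notation "𝕢" => Periodic.qParam

variable {Γ : Subgroup SL(2, ℤ)}

/-! ### The common period of the cusps -/

/-- A common period: the order of the permutation induced by `T` on the cosets. -/
def cuspPeriod (Γ : Subgroup SL(2, ℤ)) : ℕ :=
  orderOf (MulAction.toPermHom SL(2, ℤ) (SL(2, ℤ) ⧸ Γ) ModularGroup.T)

lemma cuspPeriod_pos [Finite (SL(2, ℤ) ⧸ Γ)] : 0 < cuspPeriod Γ :=
  orderOf_pos _

lemma T_pow_cuspPeriod_smul (x : SL(2, ℤ) ⧸ Γ) : ModularGroup.T ^ cuspPeriod Γ • x = x := by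
  have h := pow_orderOf_eq_one (MulAction.toPermHom SL(2, ℤ) (SL(2, ℤ) ⧸ Γ) ModularGroup.T)
  rw [← map_pow] at h
  have h2 := congrArg (fun p : Equiv.Perm (SL(2, ℤ) ⧸ Γ) => p x) h
  simpa [cuspPeriod] using h2

lemma T_pow_cuspPeriod_inv_smul (x : SL(2, ℤ) ⧸ Γ) :
    (ModularGroup.T ^ cuspPeriod Γ)⁻¹ • x = x := by
  rw [inv_smul_eq_iff, T_pow_cuspPeriod_smul]

/-! ### The discriminant -/

lemma discriminant_mdiff : MDiff (Δ : ℍ → ℂ) :=
  CuspFormClass.holo CuspForm.discriminant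

lemma discriminant_T_pow_smul (n : ℕ) (z : ℍ) : Δ (ModularGroup.T ^ n • z) = Δ z := by
  have h := UpperHalfPlane.modular_T_zpow_smul z (n : ℤ)
  rw [zpow_natCast] at h
  rw [h]
  exact SlashInvariantForm.vAdd_apply_of_mem_strictPeriods CuspForm.discriminant z
    (h := ((n : ℤ) : ℝ)) (by simpa [AddSubgroup.mem_zmultiples_iff] using ⟨(n : ℤ), by simp⟩)

lemma discriminant_T_smul (z : ℍ) : Δ (ModularGroup.T • z) = Δ z := by
  simpa using discriminant_T_pow_smul 1 z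

/-- `‖Δ z‖ ≤ 2 ‖q‖` near `i∞`. -/
lemma norm_discriminant_le : ∀ᶠ z : ℍ in atImInfty, ‖Δ z‖ ≤ 2 * ‖𝕢 1 (z : ℂ)‖ := by
  have hprod := ModularForm.tendsto_atImInfty_tprod_one_sub_eta_q_pow.eventually
    (Metric.ball_mem_nhds 1 (by norm_num : (0 : ℝ) < 1))
  filter_upwards [hprod] with z hz
  rw [ModularForm.discriminant_eq_q_prod, norm_mul, mul_comm]
  gcongr
  have h1 : ‖(∏' (n : ℕ), (1 - ModularForm.eta_q n z) ^ 24) - 1‖ < 1 := by
    simpa [dist_eq_norm] using hz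
  calc ‖∏' (n : ℕ), (1 - ModularForm.eta_q n z) ^ 24‖
      = ‖(∏' (n : ℕ), (1 - ModularForm.eta_q n z) ^ 24 - 1) + 1‖ := by ring_nf
    _ ≤ ‖(∏' (n : ℕ), (1 - ModularForm.eta_q n z) ^ 24) - 1‖ + ‖(1 : ℂ)‖ := norm_add_le _ _
    _ ≤ 2 := by rw [norm_one]; linarith

/-- `‖q‖ ≤ 2 ‖Δ z‖` near `i∞`. -/
lemma norm_qParam_le_discriminant : ∀ᶠ z : ℍ in atImInfty, ‖𝕢 1 (z : ℂ)‖ ≤ 2 * ‖Δ z‖ := by
  have hprod := ModularForm.tendsto_atImInfty_tprod_one_sub_eta_q_pow.eventually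
    (Metric.ball_mem_nhds 1 (by norm_num : (0 : ℝ) < 1 / 2))
  filter_upwards [hprod] with z hz
  rw [ModularForm.discriminant_eq_q_prod, norm_mul]
  have h1 : ‖(∏' (n : ℕ), (1 - ModularForm.eta_q n z) ^ 24) - 1‖ < 1 / 2 := by
    simpa [dist_eq_norm] using hz
  have h2 : 1 / 2 ≤ ‖∏' (n : ℕ), (1 - ModularForm.eta_q n z) ^ 24‖ := by
    have := norm_sub_norm_le (1 : ℂ) (1 - ∏' (n : ℕ), (1 - ModularForm.eta_q n z) ^ 24)
    rw [norm_one, sub_sub_cancel, ← norm_neg, neg_sub] at this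
    linarith
  have h3 : 0 ≤ ‖𝕢 1 (z : ℂ)‖ := norm_nonneg _
  nlinarith

lemma norm_qParam_pow (L : ℕ) (hL : 0 < L) (z : ℂ) :
    ‖𝕢 (L : ℝ) z‖ ^ L = ‖𝕢 1 z‖ := by
  rw [Periodic.norm_qParam, Periodic.norm_qParam, ← Real.exp_nat_mul]
  congr 1
  have : (L : ℝ) ≠ 0 := by positivity
  field_simp


/-! ### The normalised entries -/

variable [Fintype (SL(2, ℤ) ⧸ Γ)] [DecidableEq (SL(2, ℤ) ⧸ Γ)]

/-- The normalised entries `Δ ^ d_k * cj (v_k) x` of the matrix of conjugates. -/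
def ent (t : Tuple Γ) (k x : SL(2, ℤ) ⧸ Γ) : ℍ → ℂ :=
  fun z => Δ z ^ t.d k * cj Γ (t.v k) x z

lemma ent_mdiff (t : Tuple Γ) (k x : SL(2, ℤ) ⧸ Γ) : MDiff (ent t k x) :=
  (discriminant_mdiff.pow (t.d k)).mul (mdiff_cj (t.wh k).holo x)

lemma ent_bdd (t : Tuple Γ) (k x : SL(2, ℤ) ⧸ Γ) : IsBoundedAtImInfty (ent t k x) :=
  (t.wh k).bdd (Quotient.out x)⁻¹

lemma ent_smul_T_pow (t : Tuple Γ) (k x : SL(2, ℤ) ⧸ Γ) (n : ℕ) (z : ℍ) :
    ent t k x (ModularGroup.T ^ n • z) = ent t k ((ModularGroup.T ^ n)⁻¹ • x) z := by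
  simp only [ent]
  rw [discriminant_T_pow_smul, cj_smul (t.wh k).inv]

lemma ent_smul_T (t : Tuple Γ) (k x : SL(2, ℤ) ⧸ Γ) (z : ℍ) :
    ent t k x (ModularGroup.T • z) = ent t k (ModularGroup.T⁻¹ • x) z := by
  simpa using ent_smul_T_pow t k x 1 z

lemma ent_periodic (t : Tuple Γ) (k x : SL(2, ℤ) ⧸ Γ) :
    Periodic (ent t k x ∘ ofComplex) ((cuspPeriod Γ : ℝ) : ℂ) := by
  intro w
  by_cases hw : 0 < w.im
  · have hw' : 0 < (w + ((cuspPeriod Γ : ℝ) : ℂ)).im := by simpa using hw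
    simp only [Function.comp_apply, ofComplex_apply_of_im_pos hw, ofComplex_apply_of_im_pos hw']
    have h1 : (⟨w + ((cuspPeriod Γ : ℝ) : ℂ), hw'⟩ : ℍ) =
        ModularGroup.T ^ cuspPeriod Γ • (⟨w, hw⟩ : ℍ) := by
      have h := UpperHalfPlane.modular_T_zpow_smul (⟨w, hw⟩ : ℍ) (cuspPeriod Γ : ℤ)
      rw [zpow_natCast] at h
      rw [h]
      ext
      simp [UpperHalfPlane.coe_vadd, add_comm]
    rw [h1, ent_smul_T_pow, T_pow_cuspPeriod_inv_smul]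
  · have hw1 : w.im ≤ 0 := not_lt.mp hw
    have hw' : (w + ((cuspPeriod Γ : ℝ) : ℂ)).im ≤ 0 := by simpa using hw1
    rw [Function.comp_apply, Function.comp_apply, ofComplex_apply_of_im_nonpos hw1,
      ofComplex_apply_of_im_nonpos hw']

/-! ### The matrix of cusp functions -/

/-- The matrix of cusp functions of the normalised entries, in the variable
`w = exp (2 π i z / L)`. -/
def cuspMat (t : Tuple Γ) (w : ℂ) : Matrix (SL(2, ℤ) ⧸ Γ) (SL(2, ℤ) ⧸ Γ) ℂ :=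
  Matrix.of fun k x => UpperHalfPlane.cuspFunction (cuspPeriod Γ) (ent t k x) w

lemma cuspMat_apply (t : Tuple Γ) (w : ℂ) (k x : SL(2, ℤ) ⧸ Γ) :
    cuspMat t w k x = UpperHalfPlane.cuspFunction (cuspPeriod Γ) (ent t k x) w := rfl

lemma cuspMat_analyticAt (t : Tuple Γ) (k x : SL(2, ℤ) ⧸ Γ) :
    AnalyticAt ℂ (fun w => cuspMat t w k x) 0 :=
  UpperHalfPlane.analyticAt_cuspFunction_zero (by exact_mod_cast cuspPeriod_pos)
    (ent_periodic t k x) (ent_mdiff t k x) (ent_bdd t k x)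

lemma cuspMat_qParam (t : Tuple Γ) (z : ℍ) (k x : SL(2, ℤ) ⧸ Γ) :
    cuspMat t (𝕢 (cuspPeriod Γ : ℝ) (z : ℂ)) k x = ent t k x z :=
  UpperHalfPlane.eq_cuspFunction z (by exact_mod_cast (cuspPeriod_pos (Γ := Γ)).ne')
    (ent_periodic t k x)

/-- The root of unity `exp (2 π i / L)`. -/
def cuspRoot (Γ : Subgroup SL(2, ℤ)) : ℂ := Complex.exp (2 * π * I / (cuspPeriod Γ : ℂ))

omit [DecidableEq (SL(2, ℤ) ⧸ Γ)] in
lemma cuspRoot_isPrimitiveRoot : IsPrimitiveRoot (cuspRoot Γ) (cuspPeriod Γ) :=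
  Complex.isPrimitiveRoot_exp _ (cuspPeriod_pos (Γ := Γ)).ne'

omit [Fintype (SL(2, ℤ) ⧸ Γ)] [DecidableEq (SL(2, ℤ) ⧸ Γ)] in
lemma qParam_T_smul (z : ℍ) :
    𝕢 (cuspPeriod Γ : ℝ) ((ModularGroup.T • z : ℍ) : ℂ) =
      cuspRoot Γ * 𝕢 (cuspPeriod Γ : ℝ) (z : ℂ) := by
  rw [UpperHalfPlane.modular_T_smul, UpperHalfPlane.coe_vadd]
  simp only [Periodic.qParam, cuspRoot, ← Complex.exp_add]
  congr 1
  push_cast
  ring


/-- Every small nonzero `w` is `𝕢 L z` for some `z` in the upper half plane. -/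
lemma exists_qParam_eq {L : ℕ} (hL : 0 < L) {w : ℂ} (hw0 : w ≠ 0) (hw1 : ‖w‖ < 1) :
    ∃ z : ℍ, 𝕢 (L : ℝ) (z : ℂ) = w := by
  have hL' : (0 : ℝ) < L := by exact_mod_cast hL
  exact ⟨⟨Periodic.invQParam L w, Periodic.im_invQParam_pos_of_norm_lt_one hL' hw1 hw0⟩,
    Periodic.qParam_right_inv hL'.ne' hw0⟩

lemma cuspMat_equivariant_of_ne (t : Tuple Γ) {w : ℂ} (hw0 : w ≠ 0) (hw1 : ‖w‖ < 1)
    (k x : SL(2, ℤ) ⧸ Γ) :
    cuspMat t (cuspRoot Γ * w) k x = cuspMat t w k (ModularGroup.T⁻¹ • x) := by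
  obtain ⟨z, rfl⟩ := exists_qParam_eq (cuspPeriod_pos (Γ := Γ)) hw0 hw1
  rw [← qParam_T_smul, cuspMat_qParam, cuspMat_qParam, ent_smul_T]

lemma cuspMat_equivariant (t : Tuple Γ) :
    ∀ᶠ w in 𝓝 (0 : ℂ), ∀ k x, cuspMat t (cuspRoot Γ * w) k x =
      cuspMat t w k (ModularGroup.T⁻¹ • x) := by
  rw [Filter.eventually_all]
  intro k
  rw [Filter.eventually_all]
  intro x
  -- the difference is analytic at `0` and vanishes on a punctured neighbourhood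
  have hA : AnalyticAt ℂ (fun w => cuspMat t (cuspRoot Γ * w) k x -
      cuspMat t w k (ModularGroup.T⁻¹ • x)) 0 := by
    refine AnalyticAt.sub ?_ (cuspMat_analyticAt t k _)
    have h1 : AnalyticAt ℂ (fun w : ℂ => cuspRoot Γ * w) 0 := by fun_prop
    have h2 : AnalyticAt ℂ (fun w => cuspMat t w k x) (cuspRoot Γ * 0) := by
      rw [mul_zero]; exact cuspMat_analyticAt t k x
    exact h2.comp h1
  have hpunct : ∀ᶠ w in 𝓝[≠] (0 : ℂ), cuspMat t (cuspRoot Γ * w) k x -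
      cuspMat t w k (ModularGroup.T⁻¹ • x) = 0 := by
    have hball : Metric.ball (0 : ℂ) 1 ∈ 𝓝 (0 : ℂ) := Metric.ball_mem_nhds 0 one_pos
    filter_upwards [nhdsWithin_le_nhds hball, self_mem_nhdsWithin] with w hw hw0
    rw [cuspMat_equivariant_of_ne t hw0 (by simpa using hw), sub_self]
  rcases hA.eventually_eq_zero_or_eventually_ne_zero with h | h
  · filter_upwards [h] with w hw
    exact sub_eq_zero.mp hw
  · exfalso
    have := (hpunct.and h).exists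
    obtain ⟨w, hw1, hw2⟩ := this
    exact hw2 hw1

/-! ### The determinant -/

lemma pow_eq_zero_iff_of_pos' {a : ℂ} {n : ℕ} (h : a ^ n = 0) : a = 0 := by
  by_contra ha
  exact pow_ne_zero n ha h

lemma cuspMat_qParam_eq (t : Tuple Γ) (z : ℍ) :
    cuspMat t (𝕢 (cuspPeriod Γ : ℝ) (z : ℂ)) =
      Matrix.diagonal (fun k => Δ z ^ t.d k) * cmat Γ t.v z := by
  ext k x
  rw [cuspMat_qParam, Matrix.diagonal_mul]
  rfl

lemma det_cuspMat_qParam (t : Tuple Γ) (z : ℍ) :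
    (cuspMat t (𝕢 (cuspPeriod Γ : ℝ) (z : ℂ))).det =
      (∏ k, Δ z ^ t.d k) * (cmat Γ t.v z).det := by
  rw [cuspMat_qParam_eq, Matrix.det_mul, Matrix.det_diagonal]

lemma inv_cuspMat_qParam (t : Tuple Γ) (z : ℍ) (x k : SL(2, ℤ) ⧸ Γ) :
    (cuspMat t (𝕢 (cuspPeriod Γ : ℝ) (z : ℂ)))⁻¹ x k =
      (cmat Γ t.v z)⁻¹ x k * (Δ z ^ t.d k)⁻¹ := by
  rw [cuspMat_qParam_eq, Matrix.mul_inv_rev, Matrix.inv_diagonal, Matrix.mul_diagonal]
  congr 1
  have hu : IsUnit (fun k => Δ z ^ t.d k) := by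
    rw [Pi.isUnit_iff]
    intro k
    exact isUnit_iff_ne_zero.mpr (pow_ne_zero _ (ModularForm.discriminant_ne_zero z))
  have h1 := congrFun (Ring.inverse_mul_cancel _ hu) k
  exact eq_inv_of_mul_eq_one_left h1

lemma qParam_tendsto_nhdsNE (L : ℕ) (hL : 0 < L) :
    Tendsto (fun z : ℍ => 𝕢 (L : ℝ) (z : ℂ)) atImInfty (𝓝[≠] 0) :=
  (Periodic.qParam_tendsto (by exact_mod_cast hL)).comp tendsto_coe_atImInfty

lemma det_cuspMat_frequently_ne_zero (t : Tuple Γ) :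
    ∃ᶠ w in 𝓝 (0 : ℂ), (cuspMat t w).det ≠ 0 := by
  intro hcontra
  have h1 : ∀ᶠ w in 𝓝[≠] (0 : ℂ), ¬ (cuspMat t w).det ≠ 0 := nhdsWithin_le_nhds hcontra
  have h2 := (qParam_tendsto_nhdsNE (cuspPeriod Γ) cuspPeriod_pos).eventually h1
  rw [Filter.Eventually, UpperHalfPlane.atImInfty_mem] at h2
  obtain ⟨A, hA⟩ := h2
  -- a point high up
  let z₀ : ℍ := ⟨⟨0, max A 0 + 1⟩, by
    have : (0 : ℝ) ≤ max A 0 := le_max_right _ _
    show (0 : ℝ) < max A 0 + 1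
    linarith⟩
  have hz₀ : A < z₀.im := by
    show A < max A 0 + 1
    have : A ≤ max A 0 := le_max_left _ _
    linarith
  have hfreq := det_frequently_ne_zero t z₀
  have hopen : {z : ℍ | A < z.im} ∈ 𝓝 z₀ :=
    (isOpen_lt continuous_const UpperHalfPlane.continuous_im).mem_nhds hz₀
  have hev : ∀ᶠ z in 𝓝[≠] z₀, (cmat Γ t.v z).det = 0 := by
    filter_upwards [nhdsWithin_le_nhds hopen] with z hz
    have h3 : ¬ (cuspMat t (𝕢 (cuspPeriod Γ : ℝ) (z : ℂ))).det ≠ 0 := hA z (le_of_lt hz)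
    rw [not_not, det_cuspMat_qParam] at h3
    rcases mul_eq_zero.mp h3 with h4 | h4
    · exfalso
      rw [Finset.prod_eq_zero_iff] at h4
      obtain ⟨k, -, hk⟩ := h4
      exact ModularForm.discriminant_ne_zero z (pow_eq_zero_iff_of_pos' hk)
    · exact h4
  exact hfreq (hev.mono fun z hz => by simp [hz])


/-! ### Saturation from reducedness -/

lemma saturated_of_reduced {t : Tuple Γ} (hred : t.Reduced) :
    ∀ c : SL(2, ℤ) ⧸ Γ → ℂ, c ≠ 0 → ¬ ∃ C : ℝ, ∀ᶠ w in 𝓝 (0 : ℂ), ∀ x,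
      ‖∑ k, c k * cuspMat t w k x‖ ≤ C * ‖w‖ ^ cuspPeriod Γ := by
  rintro c hc ⟨C, hC⟩
  refine hred c hc fun g => ?_
  have hL : 0 < cuspPeriod Γ := cuspPeriod_pos
  have h1 : ∀ᶠ z : ℍ in atImInfty, ∀ x,
      ‖∑ k, c k * cuspMat t (𝕢 (cuspPeriod Γ : ℝ) (z : ℂ)) k x‖ ≤
        C * ‖𝕢 (cuspPeriod Γ : ℝ) (z : ℂ)‖ ^ cuspPeriod Γ :=
    (UpperHalfPlane.qParam_tendsto_atImInfty (by exact_mod_cast hL)).eventually hC
  rw [UpperHalfPlane.isBoundedAtImInfty_iff]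
  have h2 := h1.and norm_qParam_le_discriminant
  rw [Filter.Eventually, UpperHalfPlane.atImInfty_mem] at h2
  obtain ⟨A, hA⟩ := h2
  refine ⟨2 * C, A, fun z hz => ?_⟩
  obtain ⟨h3, h4⟩ := hA z hz
  specialize h3 ((g⁻¹ : SL(2, ℤ)) : SL(2, ℤ) ⧸ Γ)
  have e : ∀ k, cuspMat t (𝕢 (cuspPeriod Γ : ℝ) (z : ℂ)) k ((g⁻¹ : SL(2, ℤ)) : SL(2, ℤ) ⧸ Γ)
      = Δ z ^ t.d k * t.v k (g • z) := by
    intro k
    rw [cuspMat_qParam]
    simp only [ent]
    rw [cj_mk (t.wh k).inv, inv_inv]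
  simp only [e] at h3
  rw [norm_qParam_pow _ hL] at h3
  have hq : 0 < ‖𝕢 1 (z : ℂ)‖ := norm_pos_iff.mpr (Periodic.qParam_ne_zero _)
  have hΔ : 0 < ‖Δ z‖ := norm_pos_iff.mpr (ModularForm.discriminant_ne_zero z)
  have hC0 : 0 ≤ C := by
    by_contra hneg
    have : C * ‖𝕢 1 (z : ℂ)‖ < 0 := mul_neg_of_neg_of_pos (not_le.mp hneg) hq
    linarith [norm_nonneg (∑ k, c k * (Δ z ^ t.d k * t.v k (g • z)))]
  rw [norm_mul, norm_inv]
  calc ‖Δ z‖⁻¹ * ‖∑ k, c k * (Δ z ^ t.d k * t.v k (g • z))‖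
      ≤ ‖Δ z‖⁻¹ * (C * (2 * ‖Δ z‖)) := by
        gcongr
        exact h3.trans (by gcongr)
    _ = 2 * C := by field_simp

end

end Fermat.Agent.S21.E.CuspDecay

namespace Fermat.Agent.S21.E

noncomputable section

local notation "Δ" => ModularForm.discriminant
local notation "E₄" => ModularForm.E₄
local notation "E₆" => ModularForm.E₆
local notation "𝕢" => Periodic.qParam

variable {Γ : Subgroup SL(2, ℤ)} [Fintype (SL(2, ℤ) ⧸ Γ)] [DecidableEq (SL(2, ℤ) ⧸ Γ)]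

open CuspDecay in
/-- decay of the inverse matrix at `i∞` -/
theorem inv_zero_at_infty [Γ.FiniteIndex] {t : Tuple Γ} (hred : t.Reduced)
    (x k : SL(2, ℤ) ⧸ Γ) (hk : 1 ≤ t.d k) :
    IsZeroAtImInfty (fun z : ℍ => (Δ z)⁻¹ ^ (t.d k - 1) * (cmat Γ t.v z)⁻¹ x k) := by
  have hL : 0 < cuspPeriod Γ := cuspPeriod_pos
  have hL' : (0 : ℝ) < (cuspPeriod Γ : ℝ) := by exact_mod_cast hL
  obtain ⟨C, hC⟩ := all2_inv_pole_bound (X := SL(2, ℤ) ⧸ Γ) (G := SL(2, ℤ)) ModularGroup.T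
    (cuspPeriod Γ) hL (cuspRoot Γ) cuspRoot_isPrimitiveRoot T_pow_cuspPeriod_smul
    (cuspMat t) (cuspMat_analyticAt t) (cuspMat_equivariant t)
    (det_cuspMat_frequently_ne_zero t) (saturated_of_reduced hred)
  have h1 : ∀ᶠ z : ℍ in atImInfty, ∀ x k,
      ‖(cuspMat t (𝕢 (cuspPeriod Γ : ℝ) (z : ℂ)))⁻¹ x k‖ *
        ‖𝕢 (cuspPeriod Γ : ℝ) (z : ℂ)‖ ^ (cuspPeriod Γ - 1) ≤ C :=
    (qParam_tendsto_nhdsNE (cuspPeriod Γ) hL).eventually hC
  have hb : ∀ᶠ z : ℍ in atImInfty,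
      ‖(Δ z)⁻¹ ^ (t.d k - 1) * (cmat Γ t.v z)⁻¹ x k‖ ≤
        2 * C * ‖𝕢 (cuspPeriod Γ : ℝ) (z : ℂ)‖ := by
    filter_upwards [h1, norm_discriminant_le] with z hz hΔle
    specialize hz x k
    rw [inv_cuspMat_qParam, norm_mul, norm_inv, norm_pow] at hz
    rw [← norm_qParam_pow (cuspPeriod Γ) hL] at hΔle
    have hw : 0 < ‖𝕢 (cuspPeriod Γ : ℝ) (z : ℂ)‖ := norm_pos_iff.mpr (Periodic.qParam_ne_zero _)
    have hΔ : 0 < ‖Δ z‖ := norm_pos_iff.mpr (ModularForm.discriminant_ne_zero z)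
    set a := ‖Δ z‖ with ha
    set n := ‖(cmat Γ t.v z)⁻¹ x k‖ with hn
    set w := ‖𝕢 (cuspPeriod Γ : ℝ) (z : ℂ)‖ with hw'
    have hn0 : 0 ≤ n := norm_nonneg _
    rw [norm_mul, norm_pow, norm_inv, ← ha, ← hn]
    -- `a⁻¹ ^ (d - 1) = a * (a ^ d)⁻¹`
    have e1 : a⁻¹ ^ (t.d k - 1) = a * (a ^ t.d k)⁻¹ := by
      obtain ⟨m, hm⟩ : ∃ m, t.d k = m + 1 := ⟨t.d k - 1, by omega⟩
      rw [hm, Nat.add_sub_cancel, pow_succ, inv_pow]
      field_simp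
    -- `w ^ L = w ^ (L - 1) * w`
    have e2 : w ^ cuspPeriod Γ = w ^ (cuspPeriod Γ - 1) * w := by
      obtain ⟨m, hm⟩ : ∃ m, cuspPeriod Γ = m + 1 := ⟨cuspPeriod Γ - 1, by omega⟩
      rw [hm, Nat.add_sub_cancel, pow_succ]
    have hwp : 0 < w ^ (cuspPeriod Γ - 1) := pow_pos hw _
    have hX : 0 ≤ n * (a ^ t.d k)⁻¹ := by positivity
    rw [e2] at hΔle
    rw [e1]
    calc a * (a ^ t.d k)⁻¹ * n = a * (n * (a ^ t.d k)⁻¹) := by ring
      _ ≤ (2 * (w ^ (cuspPeriod Γ - 1) * w)) * (n * (a ^ t.d k)⁻¹) := by gcongr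
      _ = 2 * (n * (a ^ t.d k)⁻¹ * w ^ (cuspPeriod Γ - 1)) * w := by ring
      _ ≤ 2 * C * w := by gcongr
  have hlim : Tendsto (fun z : ℍ => 2 * C * ‖𝕢 (cuspPeriod Γ : ℝ) (z : ℂ)‖) atImInfty (𝓝 0) := by
    have h := (UpperHalfPlane.qParam_tendsto_atImInfty hL').norm
    rw [norm_zero] at h
    simpa using h.const_mul (2 * C)
  exact squeeze_zero_norm' hb hlim

end

end Fermat.Agent.S21.E
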