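import Fermat.Agent.S21.E.Defs
import Fermat.Agent.S21.J2.JInjective

/-!
# Project ES, part E, work package J2: `j` is injective modulo `SL(2,ℤ)`

Wrapper around `Fermat.Agent.S21.J2.j_injective` (helper96).
-/

set_option autoImplicit false

open UpperHalfPlane hiding I
open Complex Filter Function Topology
open scoped Manifold MatrixGroups ModularForm Real

namespace Fermat.Agent.S21.E

noncomputable section

local notation "Δ" => ModularForm.discriminant
local notation "E₄" => ModularForm.E₄
local notation "E₆" => ModularForm.E₆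

/-- J2: `j` is injective modulo `SL(2,ℤ)` -/
theorem j_injective (z₁ z₂ : ℍ) (h : E₄ z₁ ^ 3 * Δ z₂ = E₄ z₂ ^ 3 * Δ z₁) :
    ∃ g : SL(2, ℤ), z₂ = g • z₁ :=
  Fermat.Agent.S21.J2.j_injective z₁ z₂ h

end

end Fermat.Agent.S21.E
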