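import Fermat.Agent.S21.E.Defs
import Fermat.Agent.S21.E.J2
import Fermat.Agent.S21.J1.DeltaJ

/-!
# Project ES, part E, work package J1: orders of `E₄`, `E₆`, `E₄³ - j₀ Δ`

The zeros of `E₄` are exactly the orbit of `ρ`, the zeros of `E₆` are exactly the orbit of `i`,
all of them are simple, and `E₄³ - j(z₀) Δ` vanishes at `z₀` to order exactly `ordJ z₀`.
All statements are expressed as norm bounds in a neighbourhood of the point.
-/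

set_option autoImplicit false

open UpperHalfPlane hiding I
open Complex Filter Function Topology
open scoped Manifold MatrixGroups ModularForm Real

namespace Fermat.Agent.S21.E

noncomputable section

local notation "Δ" => ModularForm.discriminant
local notation "E₄" => ModularForm.E₄
local notation "E₆" => ModularForm.E₆

namespace J1

/-- transfer of an eventual property from `ℂ` to `ℍ` -/
lemma eventually_coe {P : ℂ → Prop} {z₀ : ℍ} (h : ∀ᶠ w in 𝓝 (z₀ : ℂ), P w) :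
    ∀ᶠ z : ℍ in 𝓝 z₀, P (z : ℂ) :=
  (UpperHalfPlane.continuous_coe.tendsto z₀).eventually h

/-- a holomorphic function on `ℍ` with order of vanishing at least `n` at `z₀` is
`O(|z - z₀|^n)` -/
lemma upper_bound_of_le_order {F : ℍ → ℂ} (hF : MDiff F) {z₀ : ℍ} {n : ℕ}
    (h : (n : ℕ∞) ≤ analyticOrderAt (F ∘ ofComplex) (z₀ : ℂ)) :
    ∃ C : ℝ, ∀ᶠ z : ℍ in 𝓝 z₀, ‖F z‖ ≤ C * ‖(z : ℂ) - z₀‖ ^ n := by
  have han := Fermat.Agent.S21.J1.analyticAt_comp_ofComplex' hF z₀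
  obtain ⟨g, hg, hfg⟩ := (natCast_le_analyticOrderAt han).mp h
  refine ⟨‖g (z₀ : ℂ)‖ + 1, ?_⟩
  have hgb : ∀ᶠ w in 𝓝 (z₀ : ℂ), ‖g w‖ < ‖g (z₀ : ℂ)‖ + 1 :=
    (hg.continuousAt.norm).eventually_lt continuousAt_const (by simp)
  filter_upwards [eventually_coe hfg, eventually_coe hgb] with z hz hzb
  have hFz : F z = ((z : ℂ) - z₀) ^ n • g z := by
    simpa [Function.comp, ofComplex_apply] using hz
  rw [hFz, norm_smul, norm_pow, mul_comm]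
  exact mul_le_mul_of_nonneg_right hzb.le (by positivity)

/-- a holomorphic function on `ℍ` with order of vanishing exactly `n` at `z₀` is bounded below
by `c |z - z₀|^n` -/
lemma lower_bound_of_order_eq {F : ℍ → ℂ} (hF : MDiff F) {z₀ : ℍ} {n : ℕ}
    (h : analyticOrderAt (F ∘ ofComplex) (z₀ : ℂ) = n) :
    ∃ c : ℝ, 0 < c ∧ ∀ᶠ z : ℍ in 𝓝 z₀, c * ‖(z : ℂ) - z₀‖ ^ n ≤ ‖F z‖ := by
  have han := Fermat.Agent.S21.J1.analyticAt_comp_ofComplex' hF z₀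
  obtain ⟨g, hg, hg0, hfg⟩ := han.analyticOrderAt_eq_natCast.mp h
  have hpos : 0 < ‖g (z₀ : ℂ)‖ := norm_pos_iff.mpr hg0
  refine ⟨‖g (z₀ : ℂ)‖ / 2, by positivity, ?_⟩
  have hgb : ∀ᶠ w in 𝓝 (z₀ : ℂ), ‖g (z₀ : ℂ)‖ / 2 < ‖g w‖ :=
    continuousAt_const.eventually_lt (hg.continuousAt.norm) (by linarith)
  filter_upwards [eventually_coe hfg, eventually_coe hgb] with z hz hzb
  have hFz : F z = ((z : ℂ) - z₀) ^ n • g z := by
    simpa [Function.comp, ofComplex_apply] using hz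
  rw [hFz, norm_smul, norm_pow, mul_comm]
  exact mul_le_mul_of_nonneg_left hzb.le (by positivity)

/-- a holomorphic function on `ℍ` is locally bounded -/
lemma bounded_near {F : ℍ → ℂ} (hF : MDiff F) (z₀ : ℍ) :
    ∃ C : ℝ, 0 ≤ C ∧ ∀ᶠ z : ℍ in 𝓝 z₀, ‖F z‖ ≤ C := by
  have hc : ContinuousAt F z₀ := (hF z₀).continuousAt
  refine ⟨‖F z₀‖ + 1, by positivity, ?_⟩
  have : ∀ᶠ z in 𝓝 z₀, ‖F z‖ < ‖F z₀‖ + 1 :=
    (hc.norm).eventually_lt continuousAt_const (by simp)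
  exact this.mono fun z hz => hz.le

/-- a holomorphic function on `ℍ` vanishing at `z₀` is `O(|z - z₀|)` -/
lemma upper_bound_of_eq_zero {F : ℍ → ℂ} (hF : MDiff F) {z₀ : ℍ} (h0 : F z₀ = 0) :
    ∃ C : ℝ, 0 ≤ C ∧ ∀ᶠ z : ℍ in 𝓝 z₀, ‖F z‖ ≤ C * ‖(z : ℂ) - z₀‖ := by
  have han := Fermat.Agent.S21.J1.analyticAt_comp_ofComplex' hF z₀
  have h1 : ((1 : ℕ) : ℕ∞) ≤ analyticOrderAt (F ∘ ofComplex) (z₀ : ℂ) := by
    have hne : analyticOrderAt (F ∘ ofComplex) (z₀ : ℂ) ≠ 0 :=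
      analyticOrderAt_ne_zero.mpr ⟨han, by simpa [Function.comp, ofComplex_apply] using h0⟩
    exact Order.one_le_iff_ne_zero.mpr hne
  obtain ⟨C, hC⟩ := upper_bound_of_le_order hF h1
  refine ⟨max C 0, le_max_right _ _, ?_⟩
  filter_upwards [hC] with z hz
  rw [pow_one] at hz
  exact hz.trans (mul_le_mul_of_nonneg_right (le_max_left _ _) (norm_nonneg _))

lemma rho_eq : rho = Fermat.Agent.S21.J1.rho := by
  apply UpperHalfPlane.ext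
  apply Complex.ext
  · simp [rho, Fermat.Agent.S21.J1.rho_coe]
  · simp [rho, Fermat.Agent.S21.J1.rho_coe]

lemma E₄_rho : E₄ rho = 0 := by
  rw [rho_eq]; exact Fermat.Agent.S21.J1.E₄_rho

lemma discriminant_eq (z : ℍ) : (1728 : ℂ) * Δ z = E₄ z ^ 3 - E₆ z ^ 2 := by
  rw [ModularForm.discriminant_eq_E₄_cube_sub_E₆_sq z]; ring

lemma jfun_eq_of_E₆_eq_zero {z₀ : ℍ} (h : E₆ z₀ = 0) (z : ℍ) :
    E₄ z ^ 3 - jval z₀ * Δ z = E₆ z ^ 2 := by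
  have hΔ := ModularForm.discriminant_ne_zero z₀
  have h1 := discriminant_eq z₀
  have h2 := discriminant_eq z
  rw [h] at h1
  have hj : jval z₀ = 1728 := by
    rw [jval, div_eq_iff hΔ]; linear_combination -h1
  rw [hj]; linear_combination -h2

lemma jfun_eq_of_E₄_eq_zero {z₀ : ℍ} (h : E₄ z₀ = 0) (z : ℍ) :
    E₄ z ^ 3 - jval z₀ * Δ z = E₄ z ^ 3 := by
  have hj : jval z₀ = 0 := by rw [jval, h]; simp
  rw [hj]; ring

lemma jfun_eq_phi (z₀ z : ℍ) :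
    E₄ z ^ 3 - jval z₀ * Δ z = (Δ z₀)⁻¹ * Fermat.Agent.S21.J1.phi z₀ z := by
  have hΔ := ModularForm.discriminant_ne_zero z₀
  rw [jval, Fermat.Agent.S21.J1.phi_apply]
  field_simp

end J1

open _root_.Fermat.Agent.S21.E.J1

theorem E6_zero_iff (z : ℍ) : E₆ z = 0 ↔ ∃ g : SL(2, ℤ), z = g • UpperHalfPlane.I := by
  constructor
  · intro h
    apply j_injective
    have h1 := discriminant_eq z
    have h2 := discriminant_eq UpperHalfPlane.I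
    rw [h] at h1
    rw [Fermat.Agent.S21.J1.E₆_I] at h2
    linear_combination (-(Δ z)) * h2 + (Δ UpperHalfPlane.I) * h1
  · rintro ⟨g, rfl⟩
    exact Fermat.Agent.S21.J1.E₆_smul_I g

theorem E4_zero_iff (z : ℍ) : E₄ z = 0 ↔ ∃ g : SL(2, ℤ), z = g • rho := by
  constructor
  · intro h
    apply j_injective
    rw [h, J1.E₄_rho]; ring
  · rintro ⟨g, rfl⟩
    rw [rho_eq]
    exact Fermat.Agent.S21.J1.E₄_smul_rho g

/-- J1: lower bounds for `E₆` at `i` and `E₄` at `ρ` (simple zeros) -/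
theorem E6_lower_bound_I :
    ∃ c : ℝ, 0 < c ∧ ∀ᶠ z : ℍ in 𝓝 (UpperHalfPlane.I), c * ‖(z : ℂ) - Complex.I‖ ≤ ‖E₆ z‖ := by
  obtain ⟨c, hc, h⟩ := lower_bound_of_order_eq (n := 1) (z₀ := UpperHalfPlane.I)
    (Fermat.Agent.S21.J1.levelOne_mdiff E₆)
    (by simpa using Fermat.Agent.S21.J1.analyticOrderAt_E₆_of_eq_zero Fermat.Agent.S21.J1.E₆_I)
  refine ⟨c, hc, ?_⟩
  filter_upwards [h] with z hz
  rw [pow_one] at hz
  exact hz

theorem E4_lower_bound_rho :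
    ∃ c : ℝ, 0 < c ∧ ∀ᶠ z : ℍ in 𝓝 rho, c * ‖(z : ℂ) - rho‖ ≤ ‖E₄ z‖ := by
  obtain ⟨c, hc, h⟩ := lower_bound_of_order_eq (n := 1) (z₀ := rho)
    (Fermat.Agent.S21.J1.levelOne_mdiff E₄)
    (by simpa using Fermat.Agent.S21.J1.analyticOrderAt_E₄_of_eq_zero J1.E₄_rho)
  refine ⟨c, hc, ?_⟩
  filter_upwards [h] with z hz
  rw [pow_one] at hz
  exact hz

/-- J1 (lower bound): `E₄³ - j(z₀) Δ` vanishes at `z₀` to order exactly `ordJ z₀` -/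
theorem jfun_lower_bound (z₀ : ℍ) :
    ∃ c : ℝ, 0 < c ∧ ∀ᶠ z : ℍ in 𝓝 z₀,
      c * ‖(z : ℂ) - z₀‖ ^ ordJ z₀ ≤ ‖E₄ z ^ 3 - jval z₀ * Δ z‖ := by
  by_cases hI : ∃ g : SL(2, ℤ), z₀ = g • UpperHalfPlane.I
  · have h6 : E₆ z₀ = 0 := (E6_zero_iff z₀).mpr hI
    have hord : ordJ z₀ = 2 := by rw [ordJ, if_pos hI]
    obtain ⟨c, hc, h⟩ := lower_bound_of_order_eq (n := 1) (z₀ := z₀)
      (Fermat.Agent.S21.J1.levelOne_mdiff E₆)
      (by simpa using Fermat.Agent.S21.J1.analyticOrderAt_E₆_of_eq_zero h6)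
    refine ⟨c ^ 2, by positivity, ?_⟩
    filter_upwards [h] with z hz
    rw [hord, jfun_eq_of_E₆_eq_zero h6, norm_pow, ← mul_pow]
    rw [pow_one] at hz
    exact pow_le_pow_left₀ (by positivity) hz 2
  · by_cases hR : ∃ g : SL(2, ℤ), z₀ = g • rho
    · have h4 : E₄ z₀ = 0 := (E4_zero_iff z₀).mpr hR
      have hord : ordJ z₀ = 3 := by rw [ordJ, if_neg hI, if_pos hR]
      obtain ⟨c, hc, h⟩ := lower_bound_of_order_eq (n := 1) (z₀ := z₀)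
        (Fermat.Agent.S21.J1.levelOne_mdiff E₄)
        (by simpa using Fermat.Agent.S21.J1.analyticOrderAt_E₄_of_eq_zero h4)
      refine ⟨c ^ 3, by positivity, ?_⟩
      filter_upwards [h] with z hz
      rw [hord, jfun_eq_of_E₄_eq_zero h4, norm_pow, ← mul_pow]
      rw [pow_one] at hz
      exact pow_le_pow_left₀ (by positivity) hz 3
    · have h6 : E₆ z₀ ≠ 0 := fun h => hI ((E6_zero_iff z₀).mp h)
      have h4 : E₄ z₀ ≠ 0 := fun h => hR ((E4_zero_iff z₀).mp h)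
      have hord : ordJ z₀ = 1 := by rw [ordJ, if_neg hI, if_neg hR]
      obtain ⟨c, hc, h⟩ := lower_bound_of_order_eq (n := 1) (z₀ := z₀)
        (Fermat.Agent.S21.J1.mdiff_phi z₀)
        (by simpa using Fermat.Agent.S21.J1.analyticOrderAt_phi h4 h6)
      have hΔ : 0 < ‖(Δ z₀)⁻¹‖ :=
        norm_pos_iff.mpr (inv_ne_zero (ModularForm.discriminant_ne_zero z₀))
      refine ⟨‖(Δ z₀)⁻¹‖ * c, by positivity, ?_⟩
      filter_upwards [h] with z hz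
      rw [hord, jfun_eq_phi, norm_mul, mul_assoc]
      exact mul_le_mul_of_nonneg_left hz (norm_nonneg _)

/-- J1 (upper bound for the derivative of `j`): `E₄² E₆` vanishes at `z₀` to order at least
`ordJ z₀ - 1` -/
theorem E4sqE6_upper_bound (z₀ : ℍ) :
    ∃ C : ℝ, ∀ᶠ z : ℍ in 𝓝 z₀, ‖E₄ z ^ 2 * E₆ z‖ ≤ C * ‖(z : ℂ) - z₀‖ ^ (ordJ z₀ - 1) := by
  have hm4 := Fermat.Agent.S21.J1.levelOne_mdiff E₄
  have hm6 := Fermat.Agent.S21.J1.levelOne_mdiff E₆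
  by_cases hI : ∃ g : SL(2, ℤ), z₀ = g • UpperHalfPlane.I
  · have h6 : E₆ z₀ = 0 := (E6_zero_iff z₀).mpr hI
    have hord : ordJ z₀ = 2 := by rw [ordJ, if_pos hI]
    obtain ⟨C6, hC6, hb6⟩ := upper_bound_of_eq_zero hm6 h6
    obtain ⟨C4, hC4, hb4⟩ := bounded_near hm4 z₀
    refine ⟨C4 ^ 2 * C6, ?_⟩
    filter_upwards [hb6, hb4] with z hz6 hz4
    rw [hord, norm_mul, norm_pow]
    have h1 : ‖E₄ z‖ ^ 2 ≤ C4 ^ 2 := pow_le_pow_left₀ (norm_nonneg _) hz4 2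
    calc ‖E₄ z‖ ^ 2 * ‖E₆ z‖ ≤ C4 ^ 2 * (C6 * ‖(z : ℂ) - z₀‖) :=
          mul_le_mul h1 hz6 (norm_nonneg _) (by positivity)
      _ = C4 ^ 2 * C6 * ‖(z : ℂ) - z₀‖ ^ (2 - 1) := by norm_num; ring
  · by_cases hR : ∃ g : SL(2, ℤ), z₀ = g • rho
    · have h4 : E₄ z₀ = 0 := (E4_zero_iff z₀).mpr hR
      have hord : ordJ z₀ = 3 := by rw [ordJ, if_neg hI, if_pos hR]
      obtain ⟨C4, hC4, hb4⟩ := upper_bound_of_eq_zero hm4 h4
      obtain ⟨C6, hC6, hb6⟩ := bounded_near hm6 z₀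
      refine ⟨C4 ^ 2 * C6, ?_⟩
      filter_upwards [hb6, hb4] with z hz6 hz4
      rw [hord, norm_mul, norm_pow]
      have h1 : ‖E₄ z‖ ^ 2 ≤ (C4 * ‖(z : ℂ) - z₀‖) ^ 2 :=
        pow_le_pow_left₀ (norm_nonneg _) hz4 2
      calc ‖E₄ z‖ ^ 2 * ‖E₆ z‖ ≤ (C4 * ‖(z : ℂ) - z₀‖) ^ 2 * C6 :=
            mul_le_mul h1 hz6 (norm_nonneg _) (by positivity)
        _ = C4 ^ 2 * C6 * ‖(z : ℂ) - z₀‖ ^ (3 - 1) := by norm_num; ring
    · have hord : ordJ z₀ = 1 := by rw [ordJ, if_neg hI, if_neg hR]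
      obtain ⟨C4, hC4, hb4⟩ := bounded_near hm4 z₀
      obtain ⟨C6, hC6, hb6⟩ := bounded_near hm6 z₀
      refine ⟨C4 ^ 2 * C6, ?_⟩
      filter_upwards [hb6, hb4] with z hz6 hz4
      rw [hord, norm_mul, norm_pow]
      have h1 : ‖E₄ z‖ ^ 2 ≤ C4 ^ 2 := pow_le_pow_left₀ (norm_nonneg _) hz4 2
      calc ‖E₄ z‖ ^ 2 * ‖E₆ z‖ ≤ C4 ^ 2 * C6 :=
            mul_le_mul h1 hz6 (norm_nonneg _) (by positivity)
        _ = C4 ^ 2 * C6 * ‖(z : ℂ) - z₀‖ ^ (1 - 1) := by norm_num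

end

end Fermat.Agent.S21.E
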