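import Fermat.Agent.S21.E.Defs
import Fermat.Agent.S21.E.Dual.Indep
import Fermat.Agent.S21.E.Dual.ConstructFinal

/-!
# Project ES, part E, work package E-DUAL

The dual family of a saturated and reduced admissible family gives `Σ d_k - μ + 1` linearly
independent weight 2 cusp forms: construction in `Dual/Construct.lean` and
`Dual/ConstructFinal.lean` (helper89), independence and counting in `Dual/Indep.lean`
(helper96).
-/

set_option autoImplicit false

open UpperHalfPlane hiding I
open Complex Filter Function Topology
open scoped Manifold MatrixGroups ModularForm Real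

namespace Fermat.Agent.S21.E

noncomputable section

local notation "Δ" => ModularForm.discriminant
local notation "E₄" => ModularForm.E₄
local notation "E₆" => ModularForm.E₆

variable {Γ : Subgroup SL(2, ℤ)} [Fintype (SL(2, ℤ) ⧸ Γ)] [DecidableEq (SL(2, ℤ) ⧸ Γ)]

/-- E-DUAL: the dual family gives `Σ d_k - μ + 1` linearly independent weight 2 cusp forms -/
theorem exists_linearIndependent_cuspForms [Γ.FiniteIndex] (hneg : -1 ∈ Γ) {t : Tuple Γ}
    (hsat : t.Saturated) (hred : t.Reduced) :
    ∃ ω : Fin (t.total + 1 - Γ.index) →
        CuspForm (Γ.map (Matrix.SpecialLinearGroup.mapGL ℝ)) 2,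
      LinearIndependent ℂ ω :=
  Dual.Indep.exists_linearIndependent_of_construct t
    (fun k m hm => Dual.exists_cuspForm_dual hneg hsat hred k m hm)

end

end Fermat.Agent.S21.E
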