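import Fermat.Agent.S21.E.Defs
import Fermat.Agent.S21.E.Api
import Fermat.Agent.S21.E.Min.Core
import Fermat.Agent.S21.E.Min.Saturated
import Fermat.Agent.S21.E.Min.ReducedCore

/-!
# Project ES, part E, work package E-MIN

A tuple of minimal total degree exists, and is saturated and reduced (replacement argument).
The proofs are in `E/Min/Core.lean`, `E/Min/Saturated.lean` and `E/Min/ReducedCore.lean`.
-/

set_option autoImplicit false

open UpperHalfPlane hiding I
open Complex Filter Function Topology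
open scoped Manifold MatrixGroups ModularForm Real

namespace Fermat.Agent.S21.E

noncomputable section

local notation "Δ" => ModularForm.discriminant
local notation "E₄" => ModularForm.E₄
local notation "E₆" => ModularForm.E₆

variable {Γ : Subgroup SL(2, ℤ)} [Fintype (SL(2, ℤ) ⧸ Γ)] [DecidableEq (SL(2, ℤ) ⧸ Γ)]

theorem exists_isMin (h : Nonempty (Tuple Γ)) : ∃ t : Tuple Γ, t.IsMin := by
  classical
  obtain ⟨t₀⟩ := h
  have hex : ∃ n, ∃ t : Tuple Γ, t.total = n := ⟨t₀.total, t₀, rfl⟩
  obtain ⟨t, ht⟩ := Nat.find_spec hex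
  refine ⟨t, fun t' => ?_⟩
  rw [ht]
  exact Nat.find_min' hex ⟨t', rfl⟩

theorem Tuple.IsMin.saturated [Γ.FiniteIndex] {t : Tuple Γ} (ht : t.IsMin) : t.Saturated :=
  Min.isMin_saturated ht

theorem Tuple.IsMin.reduced [Γ.FiniteIndex] {t : Tuple Γ} (ht : t.IsMin) : t.Reduced :=
  MinReduced.isMin_reduced_of_d_pos (fun k hk => t.d_pos k hk) ht

end

end Fermat.Agent.S21.E
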