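import Mathlib
import Fermat.Agent.S21.Defs

/-!
# Project ES, part E (existence of weight 2 cusp forms): shared definitions

`G = SL(2,ℤ)`, `Γ ≤ G` of finite index, `X = G ⧸ Γ` (left cosets, left multiplication action).

* `cj Γ f x` : the conjugate `z ↦ f (r_x⁻¹ • z)` of a `Γ`-invariant function `f`
  (`r_x = Quotient.out x`; for `Γ`-invariant `f` it does not depend on the representative).
* `IsWH Γ d f` : `f` is holomorphic on `ℍ`, `Γ`-invariant, and `Δ ^ d * (f ∘ g)` is bounded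
  at `i∞` for every `g ∈ G` ("weakly holomorphic of degree `≤ d`").
* `cmat Γ v z` : the square matrix `(cj Γ (v k) x z)_{k, x}` of a family `v : X → ℍ → ℂ`.
* `Tuple Γ` : a family `v` of weakly holomorphic functions with degrees `d`, containing the
  constant function `1` (in degree `0`, at the index of the trivial coset), with `det ≢ 0`.
* `Tuple.IsMin`, `Tuple.Saturated`, `Tuple.Reduced`.
-/

set_option autoImplicit false

open UpperHalfPlane hiding I
open Complex Filter Function Topology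
open scoped Manifold MatrixGroups ModularForm Real

namespace Fermat.Agent.S21.E

noncomputable section

/-- conjugate of a function by the inverse of the chosen representative of a coset -/
def cj (Γ : Subgroup SL(2, ℤ)) (f : ℍ → ℂ) (x : SL(2, ℤ) ⧸ Γ) : ℍ → ℂ :=
  fun z => f ((Quotient.out x)⁻¹ • z)

/-- `Γ`-invariant weakly holomorphic function of degree `≤ d`. -/
structure IsWH (Γ : Subgroup SL(2, ℤ)) (d : ℕ) (f : ℍ → ℂ) : Prop where
  holo : MDiff f
  inv : ∀ γ ∈ Γ, ∀ z : ℍ, f (γ • z) = f z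
  bdd : ∀ g : SL(2, ℤ),
    IsBoundedAtImInfty (fun z : ℍ => ModularForm.discriminant z ^ d * f (g • z))

/-- the matrix of conjugates: rows = members of the family, columns = cosets -/
def cmat (Γ : Subgroup SL(2, ℤ)) (v : SL(2, ℤ) ⧸ Γ → ℍ → ℂ) (z : ℍ) :
    Matrix (SL(2, ℤ) ⧸ Γ) (SL(2, ℤ) ⧸ Γ) ℂ :=
  Matrix.of fun k x => cj Γ (v k) x z

/-- the index of the trivial coset -/
def x0 (Γ : Subgroup SL(2, ℤ)) : SL(2, ℤ) ⧸ Γ := ((1 : SL(2, ℤ)) : SL(2, ℤ) ⧸ Γ)

/-- An admissible family: `μ = [G : Γ]` weakly holomorphic `Γ`-invariant functions with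
degree bounds, the one at index `x0` being the constant `1` in degree `0`, with
generically invertible matrix of conjugates. -/
structure Tuple (Γ : Subgroup SL(2, ℤ)) [Fintype (SL(2, ℤ) ⧸ Γ)]
    [DecidableEq (SL(2, ℤ) ⧸ Γ)] where
  v : SL(2, ℤ) ⧸ Γ → ℍ → ℂ
  d : SL(2, ℤ) ⧸ Γ → ℕ
  wh : ∀ k, IsWH Γ (d k) (v k)
  v_one : v (x0 Γ) = fun _ => 1
  d_one : d (x0 Γ) = 0
  nondeg : ∃ z : ℍ, (cmat Γ v z).det ≠ 0

variable {Γ : Subgroup SL(2, ℤ)} [Fintype (SL(2, ℤ) ⧸ Γ)] [DecidableEq (SL(2, ℤ) ⧸ Γ)]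

/-- total degree -/
def Tuple.total (t : Tuple Γ) : ℕ := ∑ k, t.d k

/-- minimal total degree among all admissible families -/
def Tuple.IsMin (t : Tuple Γ) : Prop := ∀ t' : Tuple Γ, t.total ≤ t'.total

/-- saturation: no nonzero constant combination of the family is divisible by `j - j₀`
(written without denominators: `Δ * u = (E₄³ - j₀ Δ) * u'`). -/
def Tuple.Saturated (t : Tuple Γ) : Prop :=
  ∀ c : SL(2, ℤ) ⧸ Γ → ℂ, c ≠ 0 → ∀ j₀ : ℂ, ¬ ∃ u : ℍ → ℂ, MDiff u ∧
    ∀ z : ℍ, ModularForm.discriminant z * ∑ k, c k * t.v k z =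
      (ModularForm.E₄ z ^ 3 - j₀ * ModularForm.discriminant z) * u z

/-- reducedness at `∞`: no nonzero constant combination of the normalised family
`Δ ^ d_k * v_k` is `O(Δ)` at all cusps. -/
def Tuple.Reduced (t : Tuple Γ) : Prop :=
  ∀ c : SL(2, ℤ) ⧸ Γ → ℂ, c ≠ 0 → ¬ ∀ g : SL(2, ℤ),
    IsBoundedAtImInfty (fun z : ℍ => (ModularForm.discriminant z)⁻¹ *
      ∑ k, c k * (ModularForm.discriminant z ^ t.d k * t.v k (g • z)))

/-- the elliptic point `ρ = e^{2πi/3}`, fixed by `S * T` -/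
def rho : ℍ := ⟨-1 / 2 + (Real.sqrt 3 / 2) * Complex.I, by simp⟩

/-- `j₀ = j(z₀) = E₄(z₀)³ / Δ(z₀)` (normalised so that `j(i) = 1728`, `j(ρ) = 0`) -/
def jval (z₀ : ℍ) : ℂ := ModularForm.E₄ z₀ ^ 3 / ModularForm.discriminant z₀

/-- the order of vanishing of `j - j(z₀)` at `z₀`: `2` on the orbit of `i`, `3` on the orbit
of `ρ`, and `1` elsewhere. -/
def ordJ (z₀ : ℍ) : ℕ :=
  open Classical in
  if ∃ g : SL(2, ℤ), z₀ = g • UpperHalfPlane.I then 2
  else if ∃ g : SL(2, ℤ), z₀ = g • rho then 3 else 1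

end

end Fermat.Agent.S21.E
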