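import Fermat.Agent.S21.E.Defs
import Fermat.Agent.S21.EPrim.Tuple

/-!
# Project ES, part E, work package E-PRIM: an admissible family exists for `Γ₀(N)`

Wrapper around `Fermat.Agent.S21.EPrim.H20.h20_nonempty_tuple_Gamma0` (helper20): powers of
`j(Nz)`, Vandermonde determinant.
-/

set_option autoImplicit false

open scoped MatrixGroups

namespace Fermat.Agent.S21.E

theorem nonempty_tuple_Gamma0 (N : ℕ) [NeZero N]
    [Fintype (SL(2, ℤ) ⧸ CongruenceSubgroup.Gamma0 N)]
    [DecidableEq (SL(2, ℤ) ⧸ CongruenceSubgroup.Gamma0 N)] :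
    Nonempty (Tuple (CongruenceSubgroup.Gamma0 N)) :=
  Fermat.Agent.S21.EPrim.H20.h20_nonempty_tuple_Gamma0 N

end Fermat.Agent.S21.E
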