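import Fermat.Agent.S21.E.Defs
import Fermat.Agent.S21.E.All1.Core

/-!
# Project ES, part E, work package E-ALL1

Equivariant analytic matrix germ: lower bound for the order of `det ^ 2`.
Proof: `Q w = M w * (M w)ᵀ` is invariant under `w ↦ ζ w`, `det Q = (det M) ^ 2`, and the kernel
of `(M 0)ᵀ` has dimension `≥ |X| - #orbits` (see `All1/Core.lean`).
-/

set_option autoImplicit false

open UpperHalfPlane hiding I
open Complex Filter Function Topology
open scoped Manifold MatrixGroups ModularForm Real Matrix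

namespace Fermat.Agent.S21.E

noncomputable section

/-- E-ALL1: equivariant analytic matrix germ: lower bound for the order of `det ^ 2`. -/
theorem all1_det_sq_bound {X : Type} [Fintype X] [DecidableEq X] {G : Type} [Group G]
    [MulAction G X] (σ : G) (e : ℕ) (he : 0 < e) (ζ : ℂ) (hζ : IsPrimitiveRoot ζ e)
    (hσ : ∀ x : X, σ ^ e • x = x)
    (M : ℂ → Matrix X X ℂ) (hM : ∀ k x, AnalyticAt ℂ (fun w => M w k x) 0)
    (heq : ∀ᶠ w in 𝓝 (0 : ℂ), ∀ k x, M (ζ * w) k x = M w k (σ⁻¹ • x)) :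
    ∃ C : ℝ, ∀ᶠ w in 𝓝 (0 : ℂ), ‖(M w).det‖ ^ 2 ≤
      C * ‖w‖ ^ (e * (Fintype.card X -
        Nat.card (MulAction.orbitRel.Quotient (Subgroup.zpowers σ) X))) := by
  classical
  -- the symmetric matrix `Q = M Mᵀ`
  set Q : ℂ → Matrix X X ℂ := fun w => M w * (M w)ᵀ with hQ
  have hQentry : ∀ w i j, Q w i j = ∑ x, M w i x * M w j x := by
    intro w i j
    simp [hQ, Matrix.mul_apply]
  have hQan : ∀ i j, AnalyticAt ℂ (fun w => Q w i j) 0 := by
    intro i j
    have : (fun w => Q w i j) = fun w => ∑ x, M w i x * M w j x := funext fun w => hQentry w i j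
    rw [this]
    exact Finset.analyticAt_fun_sum _ fun x _ => (hM i x).mul (hM j x)
  -- invariance of `Q`
  have hQinv : ∀ᶠ w in 𝓝 (0 : ℂ), ∀ i j, Q (ζ * w) i j = Q w i j := by
    filter_upwards [heq] with w hw i j
    rw [hQentry, hQentry]
    have : ∑ x, M (ζ * w) i x * M (ζ * w) j x = ∑ x, M w i (σ⁻¹ • x) * M w j (σ⁻¹ • x) :=
      Finset.sum_congr rfl fun x _ => by rw [hw i x, hw j x]
    rw [this]
    exact Equiv.sum_comp (MulAction.toPerm σ⁻¹) (fun x => M w i x * M w j x)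
  -- the kernel
  have hM0 : ∀ k x, M 0 k x = M 0 k (σ⁻¹ • x) := by
    intro k x
    have := heq.self_of_nhds k x
    rwa [mul_zero] at this
  set K : Submodule ℂ (X → ℂ) := LinearMap.ker (Matrix.toLin' (M 0)ᵀ) with hKdef
  have hKdim := All1.le_finrank_ker σ (M 0) hM0
  -- boundedness of the entries of `Q`
  have hbdd : ∃ C : ℝ, 0 ≤ C ∧ ∀ᶠ w in 𝓝 (0 : ℂ), ∀ i j, ‖Q w i j‖ ≤ C := by
    refine ⟨∑ i, ∑ j, (‖Q 0 i j‖ + 1),
      Finset.sum_nonneg fun i _ => Finset.sum_nonneg fun j _ => by positivity, ?_⟩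
    have h1 : ∀ i j, ∀ᶠ w in 𝓝 (0 : ℂ), ‖Q w i j‖ ≤ ‖Q 0 i j‖ + 1 := by
      intro i j
      have : ∀ᶠ w in 𝓝 (0 : ℂ), ‖Q w i j‖ < ‖Q 0 i j‖ + 1 :=
        ((hQan i j).continuousAt.norm.tendsto).eventually (gt_mem_nhds (by linarith))
      exact this.mono fun w hw => hw.le
    have h2 : ∀ᶠ w in 𝓝 (0 : ℂ), ∀ i j, ‖Q w i j‖ ≤ ‖Q 0 i j‖ + 1 :=
      Filter.eventually_all.mpr fun i => Filter.eventually_all.mpr fun j => h1 i j
    filter_upwards [h2] with w hw i j
    refine (hw i j).trans ?_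
    have h3 : ‖Q 0 i j‖ + 1 ≤ ∑ j', (‖Q 0 i j'‖ + 1) :=
      Finset.single_le_sum (f := fun j' => ‖Q 0 i j'‖ + 1) (fun j' _ => by positivity)
        (Finset.mem_univ j)
    have h4 : ∑ j', (‖Q 0 i j'‖ + 1) ≤ ∑ i', ∑ j', (‖Q 0 i' j'‖ + 1) :=
      Finset.single_le_sum (f := fun i' => ∑ j', (‖Q 0 i' j'‖ + 1))
        (fun i' _ => Finset.sum_nonneg fun j' _ => by positivity) (Finset.mem_univ i)
    exact h3.trans h4
  -- vanishing to order `e` on the kernel
  have hK : ∀ v ∈ K, ∃ C : ℝ, 0 ≤ C ∧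
      ∀ᶠ w in 𝓝 (0 : ℂ), ∀ k, ‖(Q w).mulVec v k‖ ≤ C * ‖w‖ ^ e := by
    intro v hv
    have hv0 : ∀ x, ∑ l, M 0 l x * v l = 0 := by
      intro x
      have h := congrFun (LinearMap.mem_ker.mp hv) x
      simpa [Matrix.toLin'_apply, Matrix.mulVec, dotProduct] using h
    have hF : ∀ k, ∃ C : ℝ, 0 ≤ C ∧ ∀ᶠ w in 𝓝 (0 : ℂ), ‖(Q w).mulVec v k‖ ≤ C * ‖w‖ ^ e := by
      intro k
      have han : AnalyticAt ℂ (fun w => (Q w).mulVec v k) 0 := by
        have : (fun w => (Q w).mulVec v k) = fun w => ∑ l, Q w k l * v l := by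
          funext w; simp [Matrix.mulVec, dotProduct]
        rw [this]
        exact Finset.analyticAt_fun_sum _ fun l _ => (hQan k l).mul analyticAt_const
      have h0 : (Q 0).mulVec v k = 0 := by
        simp only [Matrix.mulVec, dotProduct, hQentry]
        calc ∑ l, (∑ x, M 0 k x * M 0 l x) * v l
            = ∑ x, M 0 k x * ∑ l, M 0 l x * v l := by
              simp only [Finset.sum_mul, Finset.mul_sum]
              rw [Finset.sum_comm]
              exact Finset.sum_congr rfl fun x _ => Finset.sum_congr rfl fun l _ => by ring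
          _ = 0 := by simp [hv0]
      have hinv : ∀ᶠ w in 𝓝 (0 : ℂ), (Q (ζ * w)).mulVec v k = (Q w).mulVec v k := by
        filter_upwards [hQinv] with w hw
        simp only [Matrix.mulVec, dotProduct]
        exact Finset.sum_congr rfl fun l _ => by rw [hw k l]
      exact All1.norm_le_pow_of_invariant han h0 hζ hinv
    choose Cf hCf hFC using hF
    refine ⟨∑ k, Cf k, Finset.sum_nonneg fun k _ => hCf k, ?_⟩
    have hall : ∀ᶠ w in 𝓝 (0 : ℂ), ∀ k, ‖(Q w).mulVec v k‖ ≤ Cf k * ‖w‖ ^ e :=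
      Filter.eventually_all.mpr hFC
    filter_upwards [hall] with w hw k
    refine (hw k).trans (mul_le_mul_of_nonneg_right ?_ (by positivity))
    exact Finset.single_le_sum (f := Cf) (fun k _ => hCf k) (Finset.mem_univ k)
  obtain ⟨C, hC, hdet⟩ := All1.norm_det_le_of_ker Q K e hbdd hK
  have hw1 : ∀ᶠ w in 𝓝 (0 : ℂ), ‖w‖ ≤ 1 := by
    have : ∀ᶠ w in 𝓝 (0 : ℂ), ‖w‖ < 1 :=
      (continuous_norm.tendsto (0 : ℂ)).eventually (gt_mem_nhds (by simp))
    exact this.mono fun w hw => hw.le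
  refine ⟨C, ?_⟩
  filter_upwards [hdet, hw1] with w hw hw1
  have hdetQ : (Q w).det = (M w).det ^ 2 := by
    simp [hQ, Matrix.det_mul, Matrix.det_transpose, sq]
  rw [hdetQ, norm_pow] at hw
  refine hw.trans (mul_le_mul_of_nonneg_left ?_ hC)
  exact pow_le_pow_of_le_one (norm_nonneg w) hw1 (Nat.mul_le_mul_left e hKdim)

end

end Fermat.Agent.S21.E
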