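import Fermat.Agent.S21.E.Defs
import Fermat.Agent.S21.E.All1
import Fermat.Agent.S21.E.Api
import Fermat.Agent.S24.OrbitCountGen

/-!
# Project ES, part E, work package E-RH-I

The square of the determinant of the matrix of conjugates vanishes at `i` to order at least
`μ - ε₂` (index minus the number of fixed points of `S`): apply `all1_det_sq_bound` in the
Cayley chart `w = (z - i) / (z + i)`, in which `S` acts as `w ↦ -w`.
-/

set_option autoImplicit false

open UpperHalfPlane hiding I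
open Complex Filter Function Topology
open scoped Manifold MatrixGroups ModularForm Real

namespace Fermat.Agent.S21.E

noncomputable section

local notation "Δ" => ModularForm.discriminant
local notation "E₄" => ModularForm.E₄
local notation "E₆" => ModularForm.E₆

namespace RHI

/-- the inverse Cayley transform `w ↦ i (1 + w) / (1 - w)` -/
def cayInv (w : ℂ) : ℂ := Complex.I * (1 + w) / (1 - w)

/-- the Cayley chart `z ↦ (z - i) / (z + i)` -/
def cay (z : ℍ) : ℂ := ((z : ℂ) - Complex.I) / ((z : ℂ) + Complex.I)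

theorem one_sub_ne_zero {w : ℂ} (hw : ‖w‖ < 1) : (1 : ℂ) - w ≠ 0 := by
  intro h
  have : w = 1 := by linear_combination -h
  rw [this] at hw
  simp at hw

theorem one_add_ne_zero {w : ℂ} (hw : ‖w‖ < 1) : (1 : ℂ) + w ≠ 0 := by
  intro h
  have : w = -1 := by linear_combination h
  rw [this] at hw
  simp at hw

theorem cayInv_im_pos {w : ℂ} (hw : ‖w‖ < 1) : 0 < (cayInv w).im := by
  have h1 : (1 : ℂ) - w ≠ 0 := one_sub_ne_zero hw
  have hn : 0 < Complex.normSq (1 - w) := Complex.normSq_pos.mpr h1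
  have hw2 : Complex.normSq w < 1 := by
    rw [Complex.normSq_eq_norm_sq]
    have h0 : 0 ≤ ‖w‖ := norm_nonneg w
    nlinarith
  have him : (cayInv w).im = (1 - Complex.normSq w) / Complex.normSq (1 - w) := by
    unfold cayInv
    rw [Complex.div_im]
    simp only [Complex.mul_re, Complex.mul_im, Complex.I_re, Complex.I_im, Complex.add_re,
      Complex.add_im, Complex.sub_re, Complex.sub_im, Complex.one_re, Complex.one_im,
      Complex.normSq_apply]
    field_simp
    ring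
  rw [him]
  exact div_pos (by linarith) hn

/-- the inverse Cayley transform as a map to `ℍ` -/
def psi (w : ℂ) : ℍ := ofComplex (cayInv w)

theorem coe_psi {w : ℂ} (hw : ‖w‖ < 1) : ((psi w : ℍ) : ℂ) = cayInv w := by
  unfold psi
  rw [ofComplex_apply_of_im_pos (cayInv_im_pos hw)]

theorem add_I_ne_zero (z : ℍ) : (z : ℂ) + Complex.I ≠ 0 := by
  intro h
  have := congrArg Complex.im h
  simp only [Complex.add_im, Complex.I_im, Complex.zero_im] at this
  have hz := z.im_pos
  have : z.im + 1 = 0 := this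
  linarith

theorem cayInv_cay (z : ℍ) : cayInv (cay z) = z := by
  unfold cayInv cay
  have h := add_I_ne_zero z
  have hI : Complex.I ≠ 0 := Complex.I_ne_zero
  have h2 : (1 : ℂ) - ((z : ℂ) - Complex.I) / ((z : ℂ) + Complex.I) =
      2 * Complex.I / ((z : ℂ) + Complex.I) := by
    field_simp
    ring
  have h3 : (1 : ℂ) + ((z : ℂ) - Complex.I) / ((z : ℂ) + Complex.I) =
      2 * (z : ℂ) / ((z : ℂ) + Complex.I) := by
    field_simp
    ring
  rw [h2, h3]
  field_simp

theorem psi_cay (z : ℍ) : psi (cay z) = z := by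
  unfold psi
  rw [cayInv_cay]
  exact ofComplex_apply z

theorem cay_I : cay UpperHalfPlane.I = 0 := by
  unfold cay
  simp

theorem continuous_cay : Continuous cay := by
  unfold cay
  refine Continuous.div ?_ ?_ add_I_ne_zero
  · exact (UpperHalfPlane.continuous_coe).sub continuous_const
  · exact (UpperHalfPlane.continuous_coe).add continuous_const

theorem tendsto_cay : Tendsto cay (𝓝 UpperHalfPlane.I) (𝓝 0) := by
  have := continuous_cay.tendsto UpperHalfPlane.I
  rwa [cay_I] at this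

theorem norm_cay_le (z : ℍ) : ‖cay z‖ ≤ ‖(z : ℂ) - Complex.I‖ := by
  unfold cay
  rw [norm_div]
  have h1 : (1 : ℝ) ≤ ‖(z : ℂ) + Complex.I‖ := by
    have h2 : ((z : ℂ) + Complex.I).im ≤ ‖(z : ℂ) + Complex.I‖ :=
      (le_abs_self _).trans (Complex.abs_im_le_norm _)
    have h3 : ((z : ℂ) + Complex.I).im = z.im + 1 := by simp
    have hz := z.im_pos
    linarith
  exact div_le_self (norm_nonneg _) h1

/-- in the chart, `S` acts as `w ↦ -w` -/
theorem psi_neg {w : ℂ} (hw : ‖w‖ < 1) : psi (-w) = ModularGroup.S • psi w := by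
  have hw' : ‖-w‖ < 1 := by rwa [norm_neg]
  apply UpperHalfPlane.ext
  rw [coe_psi hw', UpperHalfPlane.modular_S_smul, UpperHalfPlane.coe_mk, coe_psi hw]
  unfold cayInv
  have h1 := one_sub_ne_zero hw
  have h2 := one_add_ne_zero hw
  have hI : Complex.I ≠ 0 := Complex.I_ne_zero
  rw [sub_neg_eq_add]
  field_simp
  have hI2 : Complex.I ^ 2 = -1 := Complex.I_sq
  linear_combination (1 - w) * hI2

theorem analyticAt_cayInv : AnalyticAt ℂ cayInv 0 := by
  unfold cayInv
  refine AnalyticAt.div ?_ ?_ (by simp)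
  · exact analyticAt_const.mul (analyticAt_const.add analyticAt_id)
  · exact analyticAt_const.sub analyticAt_id

/-- a holomorphic function on `ℍ` is analytic in the Cayley chart -/
theorem analyticAt_comp_psi {F : ℍ → ℂ} (hF : MDiff F) :
    AnalyticAt ℂ (fun w => F (psi w)) 0 := by
  have hd : DifferentiableOn ℂ (F ∘ ofComplex) {z : ℂ | 0 < z.im} :=
    UpperHalfPlane.mdifferentiable_iff.mp hF
  have hopen : IsOpen {z : ℂ | 0 < z.im} := isOpen_upperHalfPlaneSet
  have hmem : cayInv 0 ∈ {z : ℂ | 0 < z.im} := by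
    have := cayInv_im_pos (w := 0) (by simp)
    exact this
  have han : AnalyticAt ℂ (F ∘ ofComplex) (cayInv 0) :=
    hd.analyticAt (hopen.mem_nhds hmem)
  exact han.comp analyticAt_cayInv

variable {Γ : Subgroup SL(2, ℤ)}

/-- `-1 ∈ Γ` acts trivially on the cosets of `Γ` -/
theorem neg_one_smul (hneg : -1 ∈ Γ) (x : SL(2, ℤ) ⧸ Γ) : (-1 : SL(2, ℤ)) • x = x := by
  induction x using QuotientGroup.induction_on with
  | H g =>
    change ((((-1 : SL(2, ℤ)) * g : SL(2, ℤ)) : SL(2, ℤ) ⧸ Γ)) = (g : SL(2, ℤ) ⧸ Γ)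
    have hc : (-1 : SL(2, ℤ)) * g = g * (-1) := by
      ext i j
      simp
    rw [hc]
    exact QuotientGroup.mk_mul_of_mem g hneg

theorem S_sq : ModularGroup.S ^ 2 = (-1 : SL(2, ℤ)) := by
  ext i j
  fin_cases i <;> fin_cases j <;>
    simp [pow_two, ModularGroup.S, Matrix.mul_apply, Fin.sum_univ_two]

end RHI

variable {Γ : Subgroup SL(2, ℤ)} [Fintype (SL(2, ℤ) ⧸ Γ)] [DecidableEq (SL(2, ℤ) ⧸ Γ)]

open RHI in
/-- order of vanishing of `det²` at `i` -/
theorem det_sq_bound_I [Γ.FiniteIndex] (hneg : -1 ∈ Γ) (t : Tuple Γ) :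
    ∃ C : ℝ, ∀ᶠ z : ℍ in 𝓝 (UpperHalfPlane.I), ‖(cmat Γ t.v z).det‖ ^ 2 ≤
      C * ‖(z : ℂ) - Complex.I‖ ^ (Γ.index - fixCount Γ ModularGroup.S) := by
  have hσ : ∀ x : SL(2, ℤ) ⧸ Γ, ModularGroup.S ^ 2 • x = x := fun x => by
    rw [S_sq]; exact neg_one_smul hneg x
  -- the matrix germ in the chart
  have hM : ∀ k x, AnalyticAt ℂ (fun w => (cmat Γ t.v (psi w)) k x) 0 := by
    intro k x
    have h1 : MDiff (cj Γ (t.v k) x) := mdiff_cj (t.wh k).holo x
    exact analyticAt_comp_psi h1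
  have hball : ∀ᶠ w in 𝓝 (0 : ℂ), ‖w‖ < 1 := by
    have : Metric.ball (0 : ℂ) 1 ∈ 𝓝 (0 : ℂ) := Metric.ball_mem_nhds 0 one_pos
    filter_upwards [this] with w hw
    simpa using hw
  have heq : ∀ᶠ w in 𝓝 (0 : ℂ), ∀ k x,
      (cmat Γ t.v (psi ((-1 : ℂ) * w))) k x = (cmat Γ t.v (psi w)) k (ModularGroup.S⁻¹ • x) := by
    filter_upwards [hball] with w hw k x
    rw [neg_one_mul, psi_neg hw]
    exact cmat_smul t ModularGroup.S (psi w) k x
  obtain ⟨C, hC⟩ := all1_det_sq_bound (X := SL(2, ℤ) ⧸ Γ) (G := SL(2, ℤ)) ModularGroup.S 2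
    two_pos (-1) (IsPrimitiveRoot.neg_one 0 (by norm_num)) hσ (fun w => cmat Γ t.v (psi w)) hM heq
  -- the exponent
  have hB := Fermat.Agent.S24.mul_card_orbits_zpowers (X := SL(2, ℤ) ⧸ Γ) ModularGroup.S
    Nat.prime_two hσ
  have key : ∀ O : ℕ, 2 * O = Nat.card (SL(2, ℤ) ⧸ Γ) +
      (2 - 1) * Nat.card {x : SL(2, ℤ) ⧸ Γ // ModularGroup.S • x = x} →
      2 * (Fintype.card (SL(2, ℤ) ⧸ Γ) - O) = Γ.index - fixCount Γ ModularGroup.S := by
    intro O hO
    have hidx : Γ.index = Nat.card (SL(2, ℤ) ⧸ Γ) := rfl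
    have hcard : Fintype.card (SL(2, ℤ) ⧸ Γ) = Nat.card (SL(2, ℤ) ⧸ Γ) :=
      Nat.card_eq_fintype_card.symm
    have hfix : fixCount Γ ModularGroup.S =
        Nat.card {x : SL(2, ℤ) ⧸ Γ // ModularGroup.S • x = x} := rfl
    have hle : Nat.card {x : SL(2, ℤ) ⧸ Γ // ModularGroup.S • x = x} ≤
        Nat.card (SL(2, ℤ) ⧸ Γ) :=
      Nat.card_le_card_of_injective _ Subtype.val_injective
    rw [hidx, hcard, hfix]
    simp only [Nat.add_one_sub_one, one_mul] at hO
    omega
  have hexp := key _ hB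
  rw [hexp] at hC
  refine ⟨max C 0, ?_⟩
  have hC' := tendsto_cay.eventually hC
  filter_upwards [hC'] with z hz
  rw [psi_cay] at hz
  refine hz.trans ?_
  have h1 : ‖cay z‖ ^ (Γ.index - fixCount Γ ModularGroup.S) ≤
      ‖(z : ℂ) - Complex.I‖ ^ (Γ.index - fixCount Γ ModularGroup.S) :=
    pow_le_pow_left₀ (norm_nonneg _) (norm_cay_le z) _
  calc C * ‖cay z‖ ^ (Γ.index - fixCount Γ ModularGroup.S)
      ≤ max C 0 * ‖cay z‖ ^ (Γ.index - fixCount Γ ModularGroup.S) :=
        mul_le_mul_of_nonneg_right (le_max_left _ _) (pow_nonneg (norm_nonneg _) _)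
    _ ≤ max C 0 * ‖(z : ℂ) - Complex.I‖ ^ (Γ.index - fixCount Γ ModularGroup.S) :=
        mul_le_mul_of_nonneg_left h1 (le_max_right _ _)

end

end Fermat.Agent.S21.E
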