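import Fermat.Agent.S21.E.Defs
import Fermat.Agent.S21.E.All1
import Fermat.Agent.S21.E.Api
import Fermat.Agent.S21.E.RHInfty.CuspMat

/-!
# Project ES, part E, work package E-RH-OO: growth of `det ^ 2` at `i∞`

`det² * Δ ^ (2 total) * Δ⁻¹ ^ (index − number of cusps)` is bounded at `i∞`: pass to the matrix
of cusp functions (`RHInfty.cuspMat`), apply the abstract bound `all1_det_sq_bound` for the
rotation by a primitive root of unity, and compare `Δ` with `q`.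
-/

set_option autoImplicit false

open UpperHalfPlane hiding I
open Complex Filter Function Topology
open scoped Manifold MatrixGroups ModularForm Real

namespace Fermat.Agent.S21.E

noncomputable section

local notation "Δ" => ModularForm.discriminant
local notation "E₄" => ModularForm.E₄
local notation "E₆" => ModularForm.E₆

variable {Γ : Subgroup SL(2, ℤ)} [Fintype (SL(2, ℤ) ⧸ Γ)] [DecidableEq (SL(2, ℤ) ⧸ Γ)]

namespace RHInfty

local notation "𝕢" => Periodic.qParam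

omit [DecidableEq (SL(2, ℤ) ⧸ Γ)] in
lemma index_sub_eq : Γ.index - cuspOrbitCount Γ =
    Fintype.card (SL(2, ℤ) ⧸ Γ) -
      Nat.card (MulAction.orbitRel.Quotient (Subgroup.zpowers ModularGroup.T) (SL(2, ℤ) ⧸ Γ)) := by
  rw [Subgroup.index_eq_card, Nat.card_eq_fintype_card]
  rfl

omit [DecidableEq (SL(2, ℤ) ⧸ Γ)] in
lemma norm_qParam_pow (z : ℍ) (m : ℕ) :
    ‖𝕢 (cuspPeriod Γ : ℝ) z‖ ^ (cuspPeriod Γ * m) = Real.exp (-2 * π * z.im) ^ m := by
  have hL : (0 : ℝ) < (cuspPeriod Γ : ℝ) := cuspPeriod_real_pos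
  rw [Periodic.norm_qParam, pow_mul, ← Real.exp_nat_mul]
  congr 2
  simp only [coe_im]
  field_simp

end RHInfty

open RHInfty in
/-- growth of `det²` at `i∞` -/
theorem det_sq_bound_infty [Γ.FiniteIndex] (t : Tuple Γ) :
    IsBoundedAtImInfty (fun z : ℍ => (cmat Γ t.v z).det ^ 2 * Δ z ^ (2 * t.total) *
      (Δ z)⁻¹ ^ (Γ.index - cuspOrbitCount Γ)) := by
  obtain ⟨C, hC⟩ := all1_det_sq_bound (X := SL(2, ℤ) ⧸ Γ) (G := SL(2, ℤ)) ModularGroup.T
    (cuspPeriod Γ) cuspPeriod_pos (rot Γ) rot_isPrimitiveRoot T_pow_smul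
    (cuspMat t) (cuspMat_analyticAt t) (cuspMat_equivariant t)
  set m : ℕ := Γ.index - cuspOrbitCount Γ with hm
  have hC' : ∀ᶠ w in 𝓝 (0 : ℂ), ‖(cuspMat t w).det‖ ^ 2 ≤ C * ‖w‖ ^ (cuspPeriod Γ * m) := by
    rw [hm, index_sub_eq (Γ := Γ)]
    exact hC
  have h1 : ∀ᶠ z : ℍ in atImInfty,
      ‖(cuspMat t (Periodic.qParam (cuspPeriod Γ : ℝ) z)).det‖ ^ 2 ≤
        C * ‖Periodic.qParam (cuspPeriod Γ : ℝ) z‖ ^ (cuspPeriod Γ * m) :=
    (qParam_tendsto_atImInfty cuspPeriod_real_pos).eventually hC'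
  obtain ⟨c, hc⟩ := ModularForm.exp_isBigO_discriminant.bound
  have hC0 : 0 ≤ max C 0 := le_max_right _ _
  have hc0 : 0 ≤ max c 0 := le_max_right _ _
  refine Asymptotics.IsBigO.of_bound (max C 0 * max c 0 ^ m) ?_
  filter_upwards [h1, hc] with z hz hcz
  rw [det_cuspMat_qParam, norm_qParam_pow] at hz
  have hΔ : Δ z ≠ 0 := ModularForm.discriminant_ne_zero z
  have hΔpos : 0 < ‖Δ z‖ := norm_pos_iff.mpr hΔ
  have hexp : Real.exp (-2 * π * z.im) ≤ max c 0 * ‖Δ z‖ := by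
    have := hcz
    rw [Real.norm_of_nonneg (Real.exp_pos _).le] at this
    exact this.trans (mul_le_mul_of_nonneg_right (le_max_left _ _) (norm_nonneg _))
  have hexp0 : 0 ≤ Real.exp (-2 * π * z.im) := (Real.exp_pos _).le
  have key : ‖(cmat Γ t.v z).det ^ 2 * Δ z ^ (2 * t.total) * (Δ z)⁻¹ ^ m‖ =
      ‖Δ z ^ t.total * (cmat Γ t.v z).det‖ ^ 2 * (‖Δ z‖ ^ m)⁻¹ := by
    simp only [norm_mul, norm_pow, norm_inv, inv_pow]
    ring
  rw [key]
  simp only [Pi.one_apply, norm_one, mul_one]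
  calc ‖Δ z ^ t.total * (cmat Γ t.v z).det‖ ^ 2 * (‖Δ z‖ ^ m)⁻¹
      ≤ (C * Real.exp (-2 * π * z.im) ^ m) * (‖Δ z‖ ^ m)⁻¹ :=
        mul_le_mul_of_nonneg_right hz (inv_nonneg.mpr (pow_nonneg (norm_nonneg _) _))
    _ ≤ (max C 0 * (max c 0 * ‖Δ z‖) ^ m) * (‖Δ z‖ ^ m)⁻¹ := by
        apply mul_le_mul_of_nonneg_right _ (inv_nonneg.mpr (pow_nonneg (norm_nonneg _) _))
        calc C * Real.exp (-2 * π * z.im) ^ m
            ≤ max C 0 * Real.exp (-2 * π * z.im) ^ m :=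
              mul_le_mul_of_nonneg_right (le_max_left _ _) (pow_nonneg hexp0 _)
          _ ≤ max C 0 * (max c 0 * ‖Δ z‖) ^ m :=
              mul_le_mul_of_nonneg_left (pow_le_pow_left₀ hexp0 hexp _) hC0
    _ = max C 0 * max c 0 ^ m := by
        rw [mul_pow]
        field_simp

end

end Fermat.Agent.S21.E
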