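import Fermat.Agent.S21.E.Defs
import Fermat.Agent.S21.E.Api
import Fermat.Agent.S21.E.J1

/-!
# Project ES, part E: the local chart at a point of `ℍ`

For `z₀ : ℍ` the chart `chart z₀ z = (z - z₀) / (z - conj z₀)` maps `ℍ` onto the unit disc,
`z₀ ↦ 0`; its inverse is `chartInv z₀ w = (z₀ - conj z₀ * w) / (1 - w)`.  An element
`σ : SL(2, ℤ)` fixing `z₀` acts in the chart as the rotation by `conj μ / μ`, `μ = c z₀ + d`
(`chart_smul`).  For `σ = g S g⁻¹` (at `g • i`) the rotation number is a primitive square root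
of unity, for `σ = g (S T) g⁻¹` (at `g • ρ`) a primitive cube root of unity
(`stab_conj_S`, `stab_conj_ST`, `stab_I`, `stab_rho`, `exists_stab`).

`chartMat Γ v z₀ w = cmat Γ v (ofComplex (chartInv z₀ w))` is the matrix of conjugates in the
chart: an analytic matrix germ at `0`, equivariant under the rotation
(`analyticAt_chartMat`, `chartMat_equivariant`, `chartMat_chart`), i.e. exactly the input of
`all1_det_sq_bound` / `all2_inv_pole_bound`.  Transport of bounds between `w` and `z`: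
`eventually_le_of_chart`, `eventually_pole_of_chart`.

Everything lives in the namespace `Fermat.Agent.S21.E.Chart`.
-/

set_option autoImplicit false

open UpperHalfPlane hiding I
open Complex Filter Function Topology
open scoped Manifold MatrixGroups ModularForm Real ComplexConjugate

namespace Fermat.Agent.S21.E

noncomputable section

namespace Chart


/-- Möbius difference formula -/
lemma moebius_sub (a b c d z z₀ : ℂ) (hdet : a * d - b * c = 1)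
    (h1 : a * z₀ + b = z₀ * (c * z₀ + d)) (hz : c * z + d ≠ 0) (hμ : c * z₀ + d ≠ 0) :
    (a * z + b) / (c * z + d) - z₀ = (z - z₀) / ((c * z + d) * (c * z₀ + d)) := by
  have hne : (c * z + d) * (c * z₀ + d) ≠ 0 := mul_ne_zero hz hμ
  rw [div_sub' hz, div_eq_div_iff hz hne]
  linear_combination (c * z + d) * ((z - z₀) * hdet + (c * z + d) * h1)

/-- equivariance of the chart `z ↦ (z - z₀) / (z - w₀)` under a Möbius map fixing `z₀, w₀` -/
lemma chart_equiv_aux (a b c d z z₀ w₀ : ℂ) (hdet : a * d - b * c = 1)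
    (h1 : a * z₀ + b = z₀ * (c * z₀ + d)) (h2 : a * w₀ + b = w₀ * (c * w₀ + d))
    (hz : c * z + d ≠ 0) (hμ : c * z₀ + d ≠ 0) (hμ' : c * w₀ + d ≠ 0) (hzw : z - w₀ ≠ 0) :
    ((a * z + b) / (c * z + d) - z₀) / ((a * z + b) / (c * z + d) - w₀) =
      ((c * w₀ + d) / (c * z₀ + d)) * ((z - z₀) / (z - w₀)) := by
  rw [moebius_sub a b c d z z₀ hdet h1 hz hμ, moebius_sub a b c d z w₀ hdet h2 hz hμ']
  have hne : (c * z + d) * (c * z₀ + d) ≠ 0 := mul_ne_zero hz hμ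
  have hne' : (c * z + d) * (c * w₀ + d) ≠ 0 := mul_ne_zero hz hμ'
  rw [div_div_div_eq, div_mul_div_comm, div_eq_div_iff (mul_ne_zero hne hzw) (mul_ne_zero hμ hzw)]
  ring

/-- the multiplier `μ = c z₀ + d` of a matrix fixing `z₀` is an eigenvalue -/
lemma mu_quadratic (a b c d z₀ : ℂ) (hdet : a * d - b * c = 1)
    (h1 : a * z₀ + b = z₀ * (c * z₀ + d)) :
    (c * z₀ + d) ^ 2 - (a + d) * (c * z₀ + d) + 1 = 0 := by
  linear_combination (-c) * h1 - hdet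

/-- a root of unity of prime order different from `1` is primitive -/
lemma isPrimitiveRoot_of_prime {ζ : ℂ} {p : ℕ} (hp : p.Prime) (h1 : ζ ^ p = 1) (h2 : ζ ≠ 1) :
    IsPrimitiveRoot ζ p := by
  have : Fact p.Prime := ⟨hp⟩
  have h3 : orderOf ζ = p := orderOf_eq_prime h1 h2
  rw [← h3]
  exact IsPrimitiveRoot.orderOf ζ

/-- the rotation number attached to a multiplier `μ` with `μ² + 1 = 0` -/
lemma zeta_primitive_two {μ : ℂ} (h : μ ^ 2 + 1 = 0) : IsPrimitiveRoot (conj μ / μ) 2 := by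
  have hμ : μ ≠ 0 := by
    rintro rfl
    norm_num at h
  have hc : conj μ ^ 2 + 1 = 0 := by
    have := congrArg conj h
    simpa using this
  apply isPrimitiveRoot_of_prime Nat.prime_two
  · rw [div_pow, div_eq_one_iff_eq (pow_ne_zero 2 hμ)]
    linear_combination hc - h
  · intro h1
    rw [div_eq_one_iff_eq hμ] at h1
    have him : μ.im = 0 := by
      have := congrArg Complex.im h1
      simp at this
      linarith
    have hre := congrArg Complex.re h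
    simp [pow_two, him] at hre
    nlinarith [sq_nonneg μ.re]

/-- the rotation number attached to a multiplier `μ` with `μ² - μ + 1 = 0` -/
lemma zeta_primitive_three {μ : ℂ} (h : μ ^ 2 - μ + 1 = 0) : IsPrimitiveRoot (conj μ / μ) 3 := by
  have hμ : μ ≠ 0 := by
    rintro rfl
    norm_num at h
  have hc : conj μ ^ 2 - conj μ + 1 = 0 := by
    have := congrArg conj h
    simpa using this
  have h3 : μ ^ 3 = -1 := by linear_combination (μ + 1) * h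
  have hc3 : conj μ ^ 3 = -1 := by linear_combination (conj μ + 1) * hc
  apply isPrimitiveRoot_of_prime Nat.prime_three
  · rw [div_pow, div_eq_one_iff_eq (pow_ne_zero 3 hμ), h3, hc3]
  · intro h1
    rw [div_eq_one_iff_eq hμ] at h1
    have him : μ.im = 0 := by
      have := congrArg Complex.im h1
      simp at this
      linarith
    have hre := congrArg Complex.re h
    simp [pow_two, him] at hre
    nlinarith [sq_nonneg (μ.re - 1 / 2)]

/-- the chart centred at `z₀` -/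
def chart (z₀ : ℍ) (z : ℂ) : ℂ := (z - z₀) / (z - conj (z₀ : ℂ))

/-- the inverse chart -/
def chartInv (z₀ : ℍ) (w : ℂ) : ℂ := ((z₀ : ℂ) - conj (z₀ : ℂ) * w) / (1 - w)

/-- the multiplier of `σ` at `z₀` -/
def mu (σ : SL(2, ℤ)) (z₀ : ℍ) : ℂ := ((σ 1 0 : ℤ) : ℂ) * z₀ + ((σ 1 1 : ℤ) : ℂ)

lemma coe_smul_eq (σ : SL(2, ℤ)) (z : ℍ) :
    ((σ • z : ℍ) : ℂ) = (((σ 0 0 : ℤ) : ℂ) * z + ((σ 0 1 : ℤ) : ℂ)) /
      (((σ 1 0 : ℤ) : ℂ) * z + ((σ 1 1 : ℤ) : ℂ)) := by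
  rw [UpperHalfPlane.coe_specialLinearGroup_apply]
  simp

lemma det_eq (σ : SL(2, ℤ)) :
    ((σ 0 0 : ℤ) : ℂ) * ((σ 1 1 : ℤ) : ℂ) - ((σ 0 1 : ℤ) : ℂ) * ((σ 1 0 : ℤ) : ℂ) = 1 := by
  have h := σ.2
  rw [Matrix.det_fin_two] at h
  have h2 : (((σ 0 0 * σ 1 1 - σ 0 1 * σ 1 0 : ℤ)) : ℂ) = ((1 : ℤ) : ℂ) := by
    exact_mod_cast congrArg (Int.cast : ℤ → ℂ) h
  push_cast at h2
  exact h2

lemma lin_ne_zero (σ : SL(2, ℤ)) (z : ℂ) (hz : z.im ≠ 0) :
    ((σ 1 0 : ℤ) : ℂ) * z + ((σ 1 1 : ℤ) : ℂ) ≠ 0 := by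
  intro h
  have him : ((σ 1 0 : ℤ) : ℝ) * z.im = 0 := by
    have := congrArg Complex.im h
    simpa using this
  have hc : ((σ 1 0 : ℤ) : ℝ) = 0 := by
    rcases mul_eq_zero.mp him with h | h
    · exact h
    · exact absurd h hz
  have hc' : σ 1 0 = 0 := by exact_mod_cast hc
  have hre : ((σ 1 1 : ℤ) : ℝ) = 0 := by
    have := congrArg Complex.re h
    simpa [hc'] using this
  have hd' : σ 1 1 = 0 := by exact_mod_cast hre
  have hdet := σ.2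
  rw [Matrix.det_fin_two, hc', hd'] at hdet
  simp at hdet

lemma conj_coe_im_ne (z₀ : ℍ) : (conj (z₀ : ℂ)).im ≠ 0 := by
  simp only [Complex.conj_im, ne_eq, neg_eq_zero]
  exact z₀.im_pos.ne'

lemma sub_conj_ne (z₀ z : ℍ) : (z : ℂ) - conj (z₀ : ℂ) ≠ 0 := by
  intro h
  have him := congrArg Complex.im h
  simp at him
  have h1 := z.im_pos
  have h2 := z₀.im_pos
  have h3 : (z : ℂ).im = z.im := rfl
  have h4 : (z₀ : ℂ).im = z₀.im := rfl
  linarith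

/-- fixed point equation -/
lemma fix_eq {σ : SL(2, ℤ)} {z₀ : ℍ} (hσ : σ • z₀ = z₀) :
    ((σ 0 0 : ℤ) : ℂ) * z₀ + ((σ 0 1 : ℤ) : ℂ) =
      (z₀ : ℂ) * (((σ 1 0 : ℤ) : ℂ) * z₀ + ((σ 1 1 : ℤ) : ℂ)) := by
  have h : ((σ • z₀ : ℍ) : ℂ) = (z₀ : ℂ) := by rw [hσ]
  rw [coe_smul_eq, div_eq_iff (lin_ne_zero σ _ z₀.im_pos.ne')] at h
  exact h

/-- equivariance of the chart under the stabiliser -/
lemma chart_smul {σ : SL(2, ℤ)} {z₀ : ℍ} (hσ : σ • z₀ = z₀) (z : ℍ) :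
    chart z₀ ((σ • z : ℍ) : ℂ) = (conj (mu σ z₀) / mu σ z₀) * chart z₀ z := by
  have h1 := fix_eq hσ
  have h2 : ((σ 0 0 : ℤ) : ℂ) * conj (z₀ : ℂ) + ((σ 0 1 : ℤ) : ℂ) =
      conj (z₀ : ℂ) * (((σ 1 0 : ℤ) : ℂ) * conj (z₀ : ℂ) + ((σ 1 1 : ℤ) : ℂ)) := by
    have := congrArg conj h1
    simpa using this
  have hcm : conj (mu σ z₀) = ((σ 1 0 : ℤ) : ℂ) * conj (z₀ : ℂ) + ((σ 1 1 : ℤ) : ℂ) := by
    simp [mu]
  rw [chart, chart, coe_smul_eq, hcm, mu]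
  exact chart_equiv_aux _ _ _ _ _ _ _ (det_eq σ) h1 h2 (lin_ne_zero σ _ z.im_pos.ne')
    (lin_ne_zero σ _ z₀.im_pos.ne') (lin_ne_zero σ _ (conj_coe_im_ne z₀)) (sub_conj_ne z₀ z)

/-- the multiplier satisfies the characteristic equation -/
lemma mu_charpoly {σ : SL(2, ℤ)} {z₀ : ℍ} (hσ : σ • z₀ = z₀) :
    mu σ z₀ ^ 2 - ((σ.1.trace : ℤ) : ℂ) * mu σ z₀ + 1 = 0 := by
  have h := mu_quadratic _ _ _ _ _ (det_eq σ) (fix_eq hσ)
  rw [Matrix.trace_fin_two]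
  push_cast
  exact h

lemma trace_conj (g s : SL(2, ℤ)) : (g * s * g⁻¹).1.trace = s.1.trace := by
  have h1 : (g * s * g⁻¹).1 = g.1 * s.1 * (g⁻¹).1 := by
    simp [Matrix.SpecialLinearGroup.coe_mul]
  have h2 : (g⁻¹).1 * g.1 = 1 := by
    rw [← Matrix.SpecialLinearGroup.coe_mul]
    simp
  rw [h1, Matrix.trace_mul_cycle, h2, one_mul]

lemma trace_S : (ModularGroup.S).1.trace = 0 := by
  simp [ModularGroup.S, Matrix.trace_fin_two]

lemma trace_ST : (ModularGroup.S * ModularGroup.T).1.trace = 1 := by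
  simp [ModularGroup.S, ModularGroup.T, Matrix.trace_fin_two, Matrix.SpecialLinearGroup.coe_mul]

lemma S_sq : ModularGroup.S ^ 2 = -1 := by
  ext i j
  fin_cases i <;> fin_cases j <;>
    simp [pow_two, ModularGroup.S, Matrix.SpecialLinearGroup.coe_mul, Matrix.mul_apply,
      Fin.sum_univ_two]

lemma ST_cube : (ModularGroup.S * ModularGroup.T) ^ 3 = -1 := by
  ext i j
  fin_cases i <;> fin_cases j <;>
    simp [pow_succ, ModularGroup.S, ModularGroup.T, Matrix.SpecialLinearGroup.coe_mul,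
      Matrix.mul_apply, Fin.sum_univ_two]

lemma conj_pow_eq_neg_one (g s : SL(2, ℤ)) (n : ℕ) (h : s ^ n = -1) :
    (g * s * g⁻¹) ^ n = -1 := by
  rw [conj_pow, h]
  simp

/-- the rotation number of `g S g⁻¹` at `g • i` is a primitive square root of unity -/
theorem stab_conj_S (g : SL(2, ℤ)) : ∃ ζ : ℂ, IsPrimitiveRoot ζ 2 ∧
    ∀ z : ℍ, chart (g • UpperHalfPlane.I) (((g * ModularGroup.S * g⁻¹) • z : ℍ) : ℂ) =
      ζ * chart (g • UpperHalfPlane.I) z := by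
  set σ : SL(2, ℤ) := g * ModularGroup.S * g⁻¹ with hσdef
  have hfix : σ • (g • UpperHalfPlane.I) = g • UpperHalfPlane.I := by
    rw [hσdef, ← mul_smul, inv_mul_cancel_right, mul_smul, Fermat.Agent.S21.J1.S_smul_I]
  have htr : σ.1.trace = 0 := by rw [hσdef, trace_conj, trace_S]
  refine ⟨conj (mu σ (g • UpperHalfPlane.I)) / mu σ (g • UpperHalfPlane.I), ?_, chart_smul hfix⟩
  apply zeta_primitive_two
  have h := mu_charpoly hfix
  rw [htr] at h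
  simpa using h

/-- the rotation number of `g (S T) g⁻¹` at `g • ρ` is a primitive cube root of unity -/
theorem stab_conj_ST (g : SL(2, ℤ)) : ∃ ζ : ℂ, IsPrimitiveRoot ζ 3 ∧
    ∀ z : ℍ, chart (g • rho)
      (((g * (ModularGroup.S * ModularGroup.T) * g⁻¹) • z : ℍ) : ℂ) = ζ * chart (g • rho) z := by
  set σ : SL(2, ℤ) := g * (ModularGroup.S * ModularGroup.T) * g⁻¹ with hσdef
  have hfix : σ • (g • rho) = g • rho := by
    rw [hσdef, ← mul_smul, inv_mul_cancel_right, mul_smul, J1.rho_eq,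
      Fermat.Agent.S21.J1.ST_smul_rho]
  have htr : σ.1.trace = 1 := by rw [hσdef, trace_conj, trace_ST]
  refine ⟨conj (mu σ (g • rho)) / mu σ (g • rho), ?_, chart_smul hfix⟩
  apply zeta_primitive_three
  have h := mu_charpoly hfix
  rw [htr] at h
  simpa using h

/-- the rotation number of `S` at `i` -/
theorem stab_I : ∃ ζ : ℂ, IsPrimitiveRoot ζ 2 ∧
    ∀ z : ℍ, chart UpperHalfPlane.I ((ModularGroup.S • z : ℍ) : ℂ) =
      ζ * chart UpperHalfPlane.I z := by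
  simpa using stab_conj_S 1

/-- the rotation number of `S T` at `ρ` -/
theorem stab_rho : ∃ ζ : ℂ, IsPrimitiveRoot ζ 3 ∧
    ∀ z : ℍ, chart rho (((ModularGroup.S * ModularGroup.T) • z : ℍ) : ℂ) = ζ * chart rho z := by
  simpa using stab_conj_ST 1

/-- the stabiliser generator and its rotation number -/
theorem exists_stab (z₀ : ℍ) : ∃ (σ : SL(2, ℤ)) (ζ : ℂ), IsPrimitiveRoot ζ (ordJ z₀) ∧
    (σ ^ ordJ z₀ = 1 ∨ σ ^ ordJ z₀ = -1) ∧
    ∀ z : ℍ, chart z₀ ((σ • z : ℍ) : ℂ) = ζ * chart z₀ z := by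
  by_cases hI : ∃ g : SL(2, ℤ), z₀ = g • UpperHalfPlane.I
  · obtain ⟨g, rfl⟩ := hI
    have hord : ordJ (g • UpperHalfPlane.I) = 2 := by rw [ordJ, if_pos ⟨g, rfl⟩]
    obtain ⟨ζ, hζ, hch⟩ := stab_conj_S g
    refine ⟨g * ModularGroup.S * g⁻¹, ζ, ?_, ?_, hch⟩
    · rw [hord]; exact hζ
    · rw [hord]
      right
      exact conj_pow_eq_neg_one g _ 2 S_sq
  · by_cases hR : ∃ g : SL(2, ℤ), z₀ = g • rho
    · obtain ⟨g, rfl⟩ := hR
      have hord : ordJ (g • rho) = 3 := by rw [ordJ, if_neg hI, if_pos ⟨g, rfl⟩]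
      obtain ⟨ζ, hζ, hch⟩ := stab_conj_ST g
      refine ⟨g * (ModularGroup.S * ModularGroup.T) * g⁻¹, ζ, ?_, ?_, hch⟩
      · rw [hord]; exact hζ
      · rw [hord]
        right
        exact conj_pow_eq_neg_one g _ 3 ST_cube
    · have hord : ordJ z₀ = 1 := by rw [ordJ, if_neg hI, if_neg hR]
      refine ⟨1, 1, ?_, ?_, ?_⟩
      · rw [hord]
        exact IsPrimitiveRoot.one
      · left
        simp
      · intro z
        simp

/-! ### The chart -/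

lemma conj_ne_self (z₀ : ℍ) : (z₀ : ℂ) - conj (z₀ : ℂ) ≠ 0 := sub_conj_ne z₀ z₀

lemma chartInv_zero (z₀ : ℍ) : chartInv z₀ 0 = z₀ := by
  simp [chartInv]

lemma chart_self (z₀ : ℍ) : chart z₀ (z₀ : ℂ) = 0 := by
  simp [chart]

lemma one_sub_chart (z₀ z : ℍ) :
    1 - chart z₀ z = ((z₀ : ℂ) - conj (z₀ : ℂ)) / ((z : ℂ) - conj (z₀ : ℂ)) := by
  rw [chart, one_sub_div (sub_conj_ne z₀ z)]
  congr 1
  ring

lemma chart_ne_one (z₀ z : ℍ) : chart z₀ z ≠ 1 := by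
  intro h
  have h1 := one_sub_chart z₀ z
  rw [h, sub_self] at h1
  exact div_ne_zero (conj_ne_self z₀) (sub_conj_ne z₀ z) h1.symm

lemma chartInv_chart (z₀ z : ℍ) : chartInv z₀ (chart z₀ z) = z := by
  have h1 := sub_conj_ne z₀ z
  have h2 := conj_ne_self z₀
  rw [chartInv, one_sub_chart, chart]
  field_simp
  ring

lemma chart_chartInv (z₀ : ℍ) {w : ℂ} (hw : w ≠ 1) : chart z₀ (chartInv z₀ w) = w := by
  have h1 : (1 : ℂ) - w ≠ 0 := sub_ne_zero.mpr (Ne.symm hw)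
  have h2 := conj_ne_self z₀
  have e1 : chartInv z₀ w - z₀ = w * ((z₀ : ℂ) - conj (z₀ : ℂ)) / (1 - w) := by
    rw [chartInv, div_sub' h1]
    congr 1
    ring
  have e2 : chartInv z₀ w - conj (z₀ : ℂ) = ((z₀ : ℂ) - conj (z₀ : ℂ)) / (1 - w) := by
    rw [chartInv, div_sub' h1]
    congr 1
    ring
  rw [chart, e1, e2]
  field_simp

lemma analyticAt_chartInv (z₀ : ℍ) : AnalyticAt ℂ (chartInv z₀) 0 := by
  unfold chartInv
  refine (analyticAt_const.sub (analyticAt_const.mul analyticAt_id)).div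
    (analyticAt_const.sub analyticAt_id) ?_
  simp

lemma eventually_im_pos (z₀ : ℍ) : ∀ᶠ w in 𝓝 (0 : ℂ), 0 < (chartInv z₀ w).im := by
  have hc : ContinuousAt (chartInv z₀) 0 := (analyticAt_chartInv z₀).continuousAt
  have h0 : chartInv z₀ 0 ∈ {z : ℂ | 0 < z.im} := by
    rw [chartInv_zero]
    exact z₀.im_pos
  exact hc.eventually (isOpen_upperHalfPlaneSet.mem_nhds h0)

lemma eventually_ne_one : ∀ᶠ w in 𝓝 (0 : ℂ), w ≠ 1 :=
  (continuous_id.tendsto (0 : ℂ)).eventually_ne (by norm_num)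

lemma continuous_chart (z₀ : ℍ) : Continuous (fun z : ℍ => chart z₀ (z : ℂ)) := by
  unfold chart
  refine Continuous.div ?_ ?_ fun z => sub_conj_ne z₀ z
  · exact UpperHalfPlane.continuous_coe.sub continuous_const
  · exact UpperHalfPlane.continuous_coe.sub continuous_const

lemma tendsto_chart (z₀ : ℍ) : Tendsto (fun z : ℍ => chart z₀ (z : ℂ)) (𝓝 z₀) (𝓝 0) := by
  have := (continuous_chart z₀).tendsto z₀
  rwa [chart_self] at this

lemma chart_ne_zero (z₀ : ℍ) {z : ℍ} (hz : z ≠ z₀) : chart z₀ (z : ℂ) ≠ 0 := by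
  rw [chart]
  refine div_ne_zero ?_ (sub_conj_ne z₀ z)
  intro h
  exact hz (UpperHalfPlane.ext (sub_eq_zero.mp h))

lemma tendsto_chart_ne (z₀ : ℍ) :
    Tendsto (fun z : ℍ => chart z₀ (z : ℂ)) (𝓝[≠] z₀) (𝓝[≠] 0) := by
  refine tendsto_nhdsWithin_of_tendsto_nhds_of_eventually_within _
    ((tendsto_chart z₀).mono_left nhdsWithin_le_nhds) ?_
  filter_upwards [self_mem_nhdsWithin] with z hz
  exact chart_ne_zero z₀ hz

lemma ofComplex_chartInv_chart (z₀ z : ℍ) : ofComplex (chartInv z₀ (chart z₀ z)) = z := by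
  rw [chartInv_chart, ofComplex_apply]

/-- equivariance of the inverse chart -/
lemma eventually_chartInv_smul {z₀ : ℍ} {σ : SL(2, ℤ)} {ζ : ℂ}
    (hchart : ∀ z : ℍ, chart z₀ ((σ • z : ℍ) : ℂ) = ζ * chart z₀ z) :
    ∀ᶠ w in 𝓝 (0 : ℂ), ofComplex (chartInv z₀ (ζ * w)) = σ • ofComplex (chartInv z₀ w) := by
  filter_upwards [eventually_im_pos z₀, eventually_ne_one] with w hw hw1
  have h1 : ((ofComplex (chartInv z₀ w) : ℍ) : ℂ) = chartInv z₀ w := by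
    rw [ofComplex_apply_of_im_pos hw]
  have h2 := hchart (ofComplex (chartInv z₀ w))
  rw [h1, chart_chartInv z₀ hw1] at h2
  rw [← h2, ofComplex_chartInv_chart]

/-- norm of the chart -/
lemma norm_chart (z₀ z : ℍ) :
    ‖chart z₀ (z : ℂ)‖ = ‖(z : ℂ) - z₀‖ / ‖(z : ℂ) - conj (z₀ : ℂ)‖ := by
  rw [chart, norm_div]

lemma im_le_norm_sub_conj (z₀ z : ℍ) : z₀.im ≤ ‖(z : ℂ) - conj (z₀ : ℂ)‖ := by
  have h1 : ((z : ℂ) - conj (z₀ : ℂ)).im = z.im + z₀.im := by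
    simp [UpperHalfPlane.coe_im]
  have h2 := Complex.abs_im_le_norm ((z : ℂ) - conj (z₀ : ℂ))
  rw [h1] at h2
  have h3 := z.im_pos
  have h4 := z₀.im_pos
  rw [abs_of_pos (by linarith)] at h2
  linarith

lemma eventually_norm_sub_conj_le (z₀ : ℍ) :
    ∀ᶠ z : ℍ in 𝓝 z₀, ‖(z : ℂ) - conj (z₀ : ℂ)‖ ≤ ‖(z₀ : ℂ) - conj (z₀ : ℂ)‖ + 1 := by
  have hc : Continuous (fun z : ℍ => ‖(z : ℂ) - conj (z₀ : ℂ)‖) :=
    (UpperHalfPlane.continuous_coe.sub continuous_const).norm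
  exact (hc.tendsto z₀).eventually_le_const (by linarith)

lemma ordJ_pos (z₀ : ℍ) : 0 < ordJ z₀ := by
  unfold ordJ
  split_ifs <;> norm_num


/-! ### Transport of bounds -/

/-- a bound `F w ≤ C ‖w‖ ^ n` near `0` gives a bound in terms of `‖z - z₀‖ ^ n` near `z₀` -/
lemma eventually_le_of_chart {F : ℂ → ℝ} {C : ℝ} {n : ℕ} (z₀ : ℍ)
    (h : ∀ᶠ w in 𝓝 (0 : ℂ), F w ≤ C * ‖w‖ ^ n) :
    ∀ᶠ z : ℍ in 𝓝 z₀, F (chart z₀ z) ≤ (|C| / z₀.im ^ n) * ‖(z : ℂ) - z₀‖ ^ n := by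
  filter_upwards [(tendsto_chart z₀).eventually h] with z hz
  refine hz.trans ?_
  have him := z₀.im_pos
  have h1 : ‖chart z₀ (z : ℂ)‖ ≤ ‖(z : ℂ) - z₀‖ / z₀.im := by
    rw [norm_chart]
    exact div_le_div_of_nonneg_left (norm_nonneg _) him (im_le_norm_sub_conj z₀ z)
  have h2 : ‖chart z₀ (z : ℂ)‖ ^ n ≤ (‖(z : ℂ) - z₀‖ / z₀.im) ^ n :=
    pow_le_pow_left₀ (norm_nonneg _) h1 n
  calc C * ‖chart z₀ (z : ℂ)‖ ^ n ≤ |C| * ‖chart z₀ (z : ℂ)‖ ^ n :=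
        mul_le_mul_of_nonneg_right (le_abs_self C) (pow_nonneg (norm_nonneg _) n)
    _ ≤ |C| * (‖(z : ℂ) - z₀‖ / z₀.im) ^ n := mul_le_mul_of_nonneg_left h2 (abs_nonneg C)
    _ = (|C| / z₀.im ^ n) * ‖(z : ℂ) - z₀‖ ^ n := by
        rw [div_pow]
        field_simp

/-- a pole bound `F w * ‖w‖ ^ n ≤ C` on a punctured neighbourhood of `0` gives a pole bound in
terms of `‖z - z₀‖ ^ n` on a punctured neighbourhood of `z₀` -/
lemma eventually_pole_of_chart {F : ℂ → ℝ} (hF : ∀ w, 0 ≤ F w) {C : ℝ} {n : ℕ} (z₀ : ℍ)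
    (h : ∀ᶠ w in 𝓝[≠] (0 : ℂ), F w * ‖w‖ ^ n ≤ C) :
    ∀ᶠ z : ℍ in 𝓝[≠] z₀, F (chart z₀ z) * ‖(z : ℂ) - z₀‖ ^ n ≤
      |C| * (‖(z₀ : ℂ) - conj (z₀ : ℂ)‖ + 1) ^ n := by
  filter_upwards [(tendsto_chart_ne z₀).eventually h,
    (eventually_norm_sub_conj_le z₀).filter_mono nhdsWithin_le_nhds] with z hz hb
  have hne : ‖(z : ℂ) - conj (z₀ : ℂ)‖ ≠ 0 := norm_ne_zero_iff.mpr (sub_conj_ne z₀ z)
  have h1 : ‖(z : ℂ) - z₀‖ = ‖chart z₀ (z : ℂ)‖ * ‖(z : ℂ) - conj (z₀ : ℂ)‖ := by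
    rw [norm_chart, div_mul_cancel₀ _ hne]
  rw [h1, mul_pow, ← mul_assoc]
  have h2 : ‖(z : ℂ) - conj (z₀ : ℂ)‖ ^ n ≤ (‖(z₀ : ℂ) - conj (z₀ : ℂ)‖ + 1) ^ n :=
    pow_le_pow_left₀ (norm_nonneg _) hb n
  have h3 : 0 ≤ F (chart z₀ z) * ‖chart z₀ (z : ℂ)‖ ^ n :=
    mul_nonneg (hF _) (pow_nonneg (norm_nonneg _) n)
  exact mul_le_mul (hz.trans (le_abs_self C)) h2 (pow_nonneg (norm_nonneg _) n) (abs_nonneg C)

/-! ### The matrix germ in the chart -/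

section Mat

variable {Γ : Subgroup SL(2, ℤ)}

/-- `-1 ∈ Γ` acts trivially on the cosets -/
lemma neg_one_smul_coset (hneg : -1 ∈ Γ) (x : SL(2, ℤ) ⧸ Γ) : (-1 : SL(2, ℤ)) • x = x := by
  induction x using QuotientGroup.induction_on with
  | H g =>
    change ((((-1 : SL(2, ℤ)) * g : SL(2, ℤ)) : SL(2, ℤ) ⧸ Γ)) = (g : SL(2, ℤ) ⧸ Γ)
    have hc : (-1 : SL(2, ℤ)) * g = g * (-1) := by
      ext i j
      simp
    rw [hc]
    exact QuotientGroup.mk_mul_of_mem g hneg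

/-- powers `σ ^ n = ±1` act trivially on the cosets -/
lemma pow_smul_coset (hneg : -1 ∈ Γ) {σ : SL(2, ℤ)} {n : ℕ} (h : σ ^ n = 1 ∨ σ ^ n = -1)
    (x : SL(2, ℤ) ⧸ Γ) : σ ^ n • x = x := by
  rcases h with h | h
  · rw [h, one_smul]
  · rw [h]
    exact neg_one_smul_coset hneg x

variable [Fintype (SL(2, ℤ) ⧸ Γ)] [DecidableEq (SL(2, ℤ) ⧸ Γ)]

/-- the matrix of conjugates in the chart at `z₀` -/
def chartMat (Γ : Subgroup SL(2, ℤ)) [Fintype (SL(2, ℤ) ⧸ Γ)] [DecidableEq (SL(2, ℤ) ⧸ Γ)]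
    (v : SL(2, ℤ) ⧸ Γ → ℍ → ℂ) (z₀ : ℍ) (w : ℂ) :
    Matrix (SL(2, ℤ) ⧸ Γ) (SL(2, ℤ) ⧸ Γ) ℂ :=
  cmat Γ v (ofComplex (chartInv z₀ w))

lemma chartMat_chart (v : SL(2, ℤ) ⧸ Γ → ℍ → ℂ) (z₀ z : ℍ) :
    chartMat Γ v z₀ (chart z₀ z) = cmat Γ v z := by
  rw [chartMat, ofComplex_chartInv_chart]

lemma analyticAt_chartMat (t : Tuple Γ) (z₀ : ℍ) (k x : SL(2, ℤ) ⧸ Γ) :
    AnalyticAt ℂ (fun w => chartMat Γ t.v z₀ w k x) 0 := by
  have h1 : AnalyticAt ℂ ((cj Γ (t.v k) x) ∘ ofComplex) (chartInv z₀ 0) := by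
    rw [chartInv_zero]
    exact Fermat.Agent.S21.J1.analyticAt_comp_ofComplex' (mdiff_cj (t.wh k).holo x) z₀
  exact h1.comp (analyticAt_chartInv z₀)

lemma chartMat_equivariant (t : Tuple Γ) {z₀ : ℍ} {σ : SL(2, ℤ)} {ζ : ℂ}
    (hchart : ∀ z : ℍ, chart z₀ ((σ • z : ℍ) : ℂ) = ζ * chart z₀ z) :
    ∀ᶠ w in 𝓝 (0 : ℂ), ∀ k x,
      chartMat Γ t.v z₀ (ζ * w) k x = chartMat Γ t.v z₀ w k (σ⁻¹ • x) := by
  filter_upwards [eventually_chartInv_smul hchart] with w hw k x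
  rw [chartMat, chartMat, hw, cmat_smul]

lemma chartMat_det_frequently_ne_zero (t : Tuple Γ) (z₀ : ℍ) :
    ∃ᶠ w in 𝓝 (0 : ℂ), (chartMat Γ t.v z₀ w).det ≠ 0 := by
  have h1 : ∃ᶠ z : ℍ in 𝓝 z₀, (chartMat Γ t.v z₀ (chart z₀ z)).det ≠ 0 := by
    have h2 := (det_frequently_ne_zero t z₀).filter_mono nhdsWithin_le_nhds
    refine h2.mono fun z hz => ?_
    rwa [chartMat_chart]
  exact (tendsto_chart z₀).frequently h1

end Mat

end Chart

end

end Fermat.Agent.S21.E
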