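import Fermat.Agent.S21.E.Defs
import Fermat.Agent.S21.E.All1
import Fermat.Agent.S21.E.Api
import Fermat.Agent.S21.E.Chart
import Fermat.Agent.S24.OrbitCountGen

/-!
# Project ES, part E, work package E-RH-RHO: order of vanishing of `det²` at `ρ`

Application of the abstract order bound `all1_det_sq_bound` in the Cayley chart at `ρ`, for the
elliptic element `S * T` of order `3`, together with the orbit count
`3 * #orbits = μ + 2 * #fixed points`.
-/

set_option autoImplicit false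

open UpperHalfPlane hiding I
open Complex Filter Function Topology
open scoped Manifold MatrixGroups ModularForm Real

namespace Fermat.Agent.S21.E

noncomputable section

variable {Γ : Subgroup SL(2, ℤ)} [Fintype (SL(2, ℤ) ⧸ Γ)] [DecidableEq (SL(2, ℤ) ⧸ Γ)]

/-- order of vanishing of `det²` at `ρ` -/
theorem det_sq_bound_rho [Γ.FiniteIndex] (hneg : -1 ∈ Γ) (t : Tuple Γ) :
    ∃ C : ℝ, ∀ᶠ z : ℍ in 𝓝 rho, ‖(cmat Γ t.v z).det‖ ^ 2 ≤
      C * ‖(z : ℂ) - rho‖ ^ (2 * (Γ.index - fixCount Γ (ModularGroup.S * ModularGroup.T))) := by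
  obtain ⟨ζ, hζ, hchart⟩ := Chart.stab_rho
  have hσ : ∀ x : SL(2, ℤ) ⧸ Γ, (ModularGroup.S * ModularGroup.T) ^ 3 • x = x :=
    Chart.pow_smul_coset hneg (Or.inr Chart.ST_cube)
  obtain ⟨C, hC⟩ := all1_det_sq_bound (ModularGroup.S * ModularGroup.T) 3 (by norm_num) ζ hζ hσ
    (Chart.chartMat Γ t.v rho) (Chart.analyticAt_chartMat t rho)
    (Chart.chartMat_equivariant t hchart)
  have hC' : ∀ᶠ w in 𝓝 (0 : ℂ), ‖(Chart.chartMat Γ t.v rho w).det‖ ^ 2 ≤
      C * ‖w‖ ^ (3 * (Fintype.card (SL(2, ℤ) ⧸ Γ) - Nat.card (MulAction.orbitRel.Quotient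
        (Subgroup.zpowers (ModularGroup.S * ModularGroup.T)) (SL(2, ℤ) ⧸ Γ)))) := hC
  have hB : 3 * Nat.card (MulAction.orbitRel.Quotient
      (Subgroup.zpowers (ModularGroup.S * ModularGroup.T)) (SL(2, ℤ) ⧸ Γ)) =
      Nat.card (SL(2, ℤ) ⧸ Γ) + (3 - 1) *
        Nat.card {x : SL(2, ℤ) ⧸ Γ // (ModularGroup.S * ModularGroup.T) • x = x} :=
    Fermat.Agent.S24.mul_card_orbits_zpowers (X := SL(2, ℤ) ⧸ Γ)
      (ModularGroup.S * ModularGroup.T) Nat.prime_three hσ
  have hfix : Nat.card {x : SL(2, ℤ) ⧸ Γ // (ModularGroup.S * ModularGroup.T) • x = x} ≤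
      Nat.card (SL(2, ℤ) ⧸ Γ) := Finite.card_subtype_le _
  have hexp : 3 * (Fintype.card (SL(2, ℤ) ⧸ Γ) - Nat.card (MulAction.orbitRel.Quotient
      (Subgroup.zpowers (ModularGroup.S * ModularGroup.T)) (SL(2, ℤ) ⧸ Γ))) =
      2 * (Γ.index - fixCount Γ (ModularGroup.S * ModularGroup.T)) := by
    rw [Subgroup.index_eq_card, fixCount, ← Nat.card_eq_fintype_card]
    omega
  rw [hexp] at hC'
  have h := Chart.eventually_le_of_chart
    (F := fun w => ‖(Chart.chartMat Γ t.v rho w).det‖ ^ 2) rho hC'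
  refine ⟨|C| / rho.im ^ (2 * (Γ.index - fixCount Γ (ModularGroup.S * ModularGroup.T))), ?_⟩
  filter_upwards [h] with z hz
  rwa [Chart.chartMat_chart] at hz

end

end Fermat.Agent.S21.E
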