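import Fermat.Agent.S21.E.Defs
import Fermat.Agent.S21.E.Api
import Fermat.Agent.S21.E.RHI
import Fermat.Agent.S21.E.RHRho
import Fermat.Agent.S21.E.RHInfty
import Fermat.Agent.S21.E.RH.Weight

/-!
# Project ES, part E, work package E-RH: the Riemann-Hurwitz lower bound

For every admissible family, `μ + g - 1 ≤ Σ d_k`: the square of the determinant of the matrix of
conjugates is a level one invariant function vanishing to order `μ - ε₂` at `i`,
`2 (μ - ε₃)` at `ρ`, and gaining `μ - ε∞` at `i∞`; the weight inequality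
(`RHTransport.weight_ineq`) gives the claim.
-/

set_option autoImplicit false

open UpperHalfPlane hiding I
open Complex Filter Function Topology
open scoped Manifold MatrixGroups ModularForm Real

namespace Fermat.Agent.S21.E

noncomputable section

local notation "Δ" => ModularForm.discriminant
local notation "E₄" => ModularForm.E₄
local notation "E₆" => ModularForm.E₆

variable {Γ : Subgroup SL(2, ℤ)} [Fintype (SL(2, ℤ) ⧸ Γ)] [DecidableEq (SL(2, ℤ) ⧸ Γ)]

namespace RHMain

lemma fixCount_le_index (Γ : Subgroup SL(2, ℤ)) [Γ.FiniteIndex] (g : SL(2, ℤ)) :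
    fixCount Γ g ≤ Γ.index := by
  have : Finite (SL(2, ℤ) ⧸ Γ) := Subgroup.finite_quotient_of_finiteIndex
  unfold fixCount
  rw [Subgroup.index_eq_card]
  exact Finite.card_subtype_le _

lemma cuspOrbitCount_le_index (Γ : Subgroup SL(2, ℤ)) [Γ.FiniteIndex] :
    cuspOrbitCount Γ ≤ Γ.index := by
  have : Finite (SL(2, ℤ) ⧸ Γ) := Subgroup.finite_quotient_of_finiteIndex
  unfold cuspOrbitCount
  rw [Subgroup.index_eq_card]
  exact Nat.card_le_card_of_surjective _ Quotient.mk_surjective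

/-- the weight `12 n - 12 W` factor `Δ ^ n * Δ⁻¹ ^ W` -/
lemma disc_factor_smul (n W : ℕ) (g : SL(2, ℤ)) (z : ℍ) :
    Δ (g • z) ^ n * (Δ (g • z))⁻¹ ^ W =
      denom g z ^ (12 * (n : ℤ) - 12 * (W : ℤ)) * (Δ z ^ n * (Δ z)⁻¹ ^ W) := by
  have hd : denom g z ≠ 0 := denom_ne_zero g z
  have hΔ : Δ z ≠ 0 := ModularForm.discriminant_ne_zero z
  rw [Fermat.Agent.S21.J1.discriminant_smul_apply g z, zpow_sub₀ hd, mul_pow, mul_inv, mul_pow]
  have h1 : (denom g z ^ (12 : ℤ)) ^ n = denom g z ^ (12 * (n : ℤ)) := by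
    rw [← zpow_natCast, ← zpow_mul]
  have h2 : ((denom g z ^ (12 : ℤ))⁻¹) ^ W = (denom g z ^ (12 * (W : ℤ)))⁻¹ := by
    rw [inv_pow, ← zpow_natCast, ← zpow_mul]
  rw [h1, h2]
  field_simp

end RHMain

/-- E-RH: `μ + g - 1 ≤ Σ d_k` -/
theorem total_ge [Γ.FiniteIndex] (hneg : -1 ∈ Γ) (t : Tuple Γ) :
    (Γ.index : ℚ) + genusOf Γ - 1 ≤ t.total := by
  have h2 := RHMain.fixCount_le_index Γ ModularGroup.S
  have h3 := RHMain.fixCount_le_index Γ (ModularGroup.S * ModularGroup.T)
  have hc := RHMain.cuspOrbitCount_le_index Γ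
  have hI := det_sq_bound_I hneg t
  have hρ := det_sq_bound_rho hneg t
  have hoo := det_sq_bound_infty t
  have key : ((6 * (Γ.index - fixCount Γ ModularGroup.S) +
      4 * (2 * (Γ.index - fixCount Γ (ModularGroup.S * ModularGroup.T))) : ℕ) : ℤ) ≤
      12 * ((2 * t.total : ℕ) : ℤ) - 12 * ((Γ.index - cuspOrbitCount Γ : ℕ) : ℤ) := by
    refine RHTransport.weight_ineq (F := fun z => (cmat Γ t.v z).det ^ 2)
      (H := fun z => Δ z ^ (2 * t.total) * (Δ z)⁻¹ ^ (Γ.index - cuspOrbitCount Γ))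
      ((mdiff_det t).pow 2) (fun g z => det_sq_smul t g z) ?_ ?_ ?_ ?_ ?_ ?_
    · have hΔ : MDiff (fun z : ℍ => Δ z) := CuspForm.discriminant.holo'
      have hinv : MDiff (fun z : ℍ => (Δ z)⁻¹) := by
        have hΔ' := hΔ
        rw [UpperHalfPlane.mdifferentiable_iff] at hΔ' ⊢
        exact fun z hz => (hΔ' z hz).inv (ModularForm.discriminant_ne_zero _)
      exact (hΔ.pow _).mul (hinv.pow _)
    · intro g z
      exact RHMain.disc_factor_smul _ _ g z
    · have he : (fun z : ℍ => (cmat Γ t.v z).det ^ 2 *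
          (Δ z ^ (2 * t.total) * (Δ z)⁻¹ ^ (Γ.index - cuspOrbitCount Γ))) =
          (fun z : ℍ => (cmat Γ t.v z).det ^ 2 * Δ z ^ (2 * t.total) *
            (Δ z)⁻¹ ^ (Γ.index - cuspOrbitCount Γ)) := by
        funext z; ring
      rw [he]
      exact hoo
    · obtain ⟨z, hz⟩ := t.nondeg
      refine ⟨z, ?_⟩
      have hΔ : Δ z ≠ 0 := ModularForm.discriminant_ne_zero z
      exact mul_ne_zero (pow_ne_zero _ hz)
        (mul_ne_zero (pow_ne_zero _ hΔ) (pow_ne_zero _ (inv_ne_zero hΔ)))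
    · obtain ⟨C, hC⟩ := hI
      refine ⟨C, ?_⟩
      filter_upwards [hC] with z hz
      simpa [norm_pow] using hz
    · obtain ⟨C, hC⟩ := hρ
      refine ⟨C, ?_⟩
      filter_upwards [hC] with z hz
      simpa [norm_pow] using hz
  have key' : (6 * ((Γ.index : ℚ) - fixCount Γ ModularGroup.S) +
      4 * (2 * ((Γ.index : ℚ) - fixCount Γ (ModularGroup.S * ModularGroup.T)))) ≤
      12 * (2 * (t.total : ℚ)) - 12 * ((Γ.index : ℚ) - cuspOrbitCount Γ) := by
    have := key
    push_cast [Nat.cast_sub h2, Nat.cast_sub h3, Nat.cast_sub hc] at this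
    exact_mod_cast this
  unfold genusOf
  linarith

end

end Fermat.Agent.S21.E
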