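import Fermat.Agent.S21.E.Defs
import Fermat.Agent.S21.E.Prim
import Fermat.Agent.S21.E.Min
import Fermat.Agent.S21.E.RH
import Fermat.Agent.S21.E.Dual
import Fermat.Agent.S49.HeckeFinite

/-!
# Project ES, part E: the lower bound `genus ≤ dim S₂(Γ₀(N))`

Assembly of the work packages of part E: a minimal admissible family is saturated and reduced
(`E/Min.lean`), its total degree is at least `μ + g - 1` (`E/RH.lean`), and its dual family
yields `total - μ + 1` linearly independent weight 2 cusp forms (`E/Dual.lean`).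
-/

set_option autoImplicit false

open UpperHalfPlane hiding I
open Complex Filter Function Topology
open scoped Manifold MatrixGroups ModularForm Real

namespace Fermat.Agent.S21.E

noncomputable section

local notation "Δ" => ModularForm.discriminant
local notation "E₄" => ModularForm.E₄
local notation "E₆" => ModularForm.E₆

theorem genusOf_le_finrank_Gamma0 (N : ℕ) [NeZero N] :
    genusOf (CongruenceSubgroup.Gamma0 N) ≤
      (Module.finrank ℂ (CuspForm ((CongruenceSubgroup.Gamma0 N).map
        (Matrix.SpecialLinearGroup.mapGL ℝ)) 2) : ℚ) := by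
  classical
  letI : Fintype (SL(2, ℤ) ⧸ CongruenceSubgroup.Gamma0 N) :=
    Subgroup.fintypeQuotientOfFiniteIndex
  have hneg : (-1 : SL(2, ℤ)) ∈ CongruenceSubgroup.Gamma0 N := by
    rw [CongruenceSubgroup.Gamma0_mem]; simp
  obtain ⟨t, ht⟩ := exists_isMin (nonempty_tuple_Gamma0 N)
  have h1 := total_ge hneg t
  obtain ⟨ω, hω⟩ := exists_linearIndependent_cuspForms hneg ht.saturated ht.reduced
  haveI : FiniteDimensional ℂ (CuspForm ((CongruenceSubgroup.Gamma0 N).map
      (Matrix.SpecialLinearGroup.mapGL ℝ)) 2) :=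
    Fermat.Agent.S49.finiteDimensional_cuspForm N 2
  have h2 := hω.fintype_card_le_finrank
  rw [Fintype.card_fin] at h2
  have h3 : ((t.total : ℕ) : ℚ) + 1 ≤ (Module.finrank ℂ (CuspForm
      ((CongruenceSubgroup.Gamma0 N).map (Matrix.SpecialLinearGroup.mapGL ℝ)) 2) : ℚ)
      + ((CongruenceSubgroup.Gamma0 N).index : ℚ) := by
    have h4 : t.total + 1 ≤ Module.finrank ℂ (CuspForm
      ((CongruenceSubgroup.Gamma0 N).map (Matrix.SpecialLinearGroup.mapGL ℝ)) 2)
      + (CongruenceSubgroup.Gamma0 N).index := by omega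
    exact_mod_cast h4
  linarith

end

end Fermat.Agent.S21.E
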