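import Fermat.Agent.S21.E.Defs
import Fermat.Agent.S21.J1.DeltaJ
import Fermat.Agent.S21.J2.JInjective
import Fermat.Agent.S21.J3.Order

/-!
# Project ES, part E, work package J3: the division criterion

If every `SL(2,ℤ)`-translate of a holomorphic function `u` on `ℍ` vanishes at `z₀` to order at
least `ordJ z₀`, then `u` is divisible by `j - j(z₀)` (written without denominators).

Helper lemmas live in the namespace `Fermat.Agent.S21.E.J3`.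
-/

set_option autoImplicit false

open UpperHalfPlane hiding I
open Complex Filter Function Topology
open scoped Manifold MatrixGroups ModularForm Real

namespace Fermat.Agent.S21.E

noncomputable section

local notation "Δ" => ModularForm.discriminant
local notation "E₄" => ModularForm.E₄
local notation "E₆" => ModularForm.E₆

namespace J3

open Fermat.Agent.S21.J3

/-- a norm bound `‖F z‖ ≤ C ‖z - z₀‖ ^ n` near `z₀` forces order of vanishing `≥ n` -/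
lemma natCast_le_ordAt_of_norm_le {F : ℍ → ℂ} (hF : MDiff F) {z₀ : ℍ} {n : ℕ}
    (h : ∃ C : ℝ, ∀ᶠ z : ℍ in 𝓝 z₀, ‖F z‖ ≤ C * ‖(z : ℂ) - z₀‖ ^ n) :
    (n : ℕ∞) ≤ ordAt F z₀ := by
  obtain ⟨C, hC⟩ := h
  have han : AnalyticAt ℂ (F ∘ ofComplex) (z₀ : ℂ) := analyticAt_comp_ofComplex hF z₀
  -- transfer the bound to a neighbourhood in `ℂ`
  have hopen : ∀ᶠ w in 𝓝 (z₀ : ℂ), 0 < w.im :=
    isOpen_upperHalfPlaneSet.mem_nhds z₀.im_pos
  have htend : Tendsto (fun w : ℂ => (ofComplex w : ℍ)) (𝓝 (z₀ : ℂ)) (𝓝 z₀) := by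
    have := (UpperHalfPlane.contMDiffAt_ofComplex (n := 0) z₀.im_pos).continuousAt
    have h2 : Tendsto (fun w : ℂ => (ofComplex w : ℍ)) (𝓝 (z₀ : ℂ)) (𝓝 (ofComplex (z₀ : ℂ))) :=
      this
    rwa [ofComplex_apply] at h2
  have hC' : ∀ᶠ w in 𝓝 (z₀ : ℂ), ‖(F ∘ ofComplex) w‖ ≤ C * ‖w - (z₀ : ℂ)‖ ^ n := by
    filter_upwards [htend.eventually hC, hopen] with w hw hwim
    have : ((ofComplex w : ℍ) : ℂ) = w := by
      rw [ofComplex_apply_of_im_pos hwim]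
    simpa [Function.comp, this] using hw
  by_contra hlt
  rw [not_le] at hlt
  have hne_top : analyticOrderAt (F ∘ ofComplex) (z₀ : ℂ) ≠ ⊤ := ne_top_of_lt hlt
  obtain ⟨m, hm⟩ := ENat.ne_top_iff_exists.mp hne_top
  have hmn : m < n := by
    have : ((m : ℕ) : ℕ∞) < n := by rw [hm]; exact hlt
    exact_mod_cast this
  obtain ⟨g, hg, hg0, hgeq⟩ := (han.analyticOrderAt_eq_natCast).mp hm.symm
  -- `‖g w‖ ≤ C ‖w - z₀‖ ^ (n - m)` on a punctured neighbourhood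
  have hbound : ∀ᶠ w in 𝓝[≠] (z₀ : ℂ), ‖g w‖ ≤ C * ‖w - (z₀ : ℂ)‖ ^ (n - m) := by
    have h1 : ∀ᶠ w in 𝓝[≠] (z₀ : ℂ), ‖(F ∘ ofComplex) w‖ ≤ C * ‖w - (z₀ : ℂ)‖ ^ n :=
      hC'.filter_mono nhdsWithin_le_nhds
    have h2 : ∀ᶠ w in 𝓝[≠] (z₀ : ℂ), (F ∘ ofComplex) w = (w - (z₀ : ℂ)) ^ m • g w :=
      hgeq.filter_mono nhdsWithin_le_nhds
    filter_upwards [h1, h2, self_mem_nhdsWithin] with w hw1 hw2 hw3
    have hpos : 0 < ‖w - (z₀ : ℂ)‖ := norm_pos_iff.mpr (sub_ne_zero.mpr hw3)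
    rw [hw2, norm_smul, norm_pow] at hw1
    have hsplit : ‖w - (z₀ : ℂ)‖ ^ n = ‖w - (z₀ : ℂ)‖ ^ m * ‖w - (z₀ : ℂ)‖ ^ (n - m) := by
      rw [← pow_add]; congr 1; omega
    rw [hsplit] at hw1
    have hpm : 0 < ‖w - (z₀ : ℂ)‖ ^ m := pow_pos hpos m
    have : ‖w - (z₀ : ℂ)‖ ^ m * ‖g w‖ ≤ ‖w - (z₀ : ℂ)‖ ^ m * (C * ‖w - (z₀ : ℂ)‖ ^ (n - m)) := by
      calc ‖w - (z₀ : ℂ)‖ ^ m * ‖g w‖ ≤ C * (‖w - (z₀ : ℂ)‖ ^ m * ‖w - (z₀ : ℂ)‖ ^ (n - m)) := hw1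
        _ = ‖w - (z₀ : ℂ)‖ ^ m * (C * ‖w - (z₀ : ℂ)‖ ^ (n - m)) := by ring
    exact le_of_mul_le_mul_left this hpm
  have hlim1 : Tendsto (fun w => ‖g w‖) (𝓝[≠] (z₀ : ℂ)) (𝓝 ‖g (z₀ : ℂ)‖) :=
    (hg.continuousAt.norm).tendsto.mono_left nhdsWithin_le_nhds
  have hlim2 : Tendsto (fun w : ℂ => C * ‖w - (z₀ : ℂ)‖ ^ (n - m)) (𝓝[≠] (z₀ : ℂ)) (𝓝 0) := by
    have hc : ContinuousAt (fun w : ℂ => C * ‖w - (z₀ : ℂ)‖ ^ (n - m)) (z₀ : ℂ) := by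
      fun_prop
    have h0 : C * ‖((z₀ : ℂ)) - (z₀ : ℂ)‖ ^ (n - m) = 0 := by
      have : n - m ≠ 0 := by omega
      simp [this]
    have := hc.tendsto
    rw [h0] at this
    exact this.mono_left nhdsWithin_le_nhds
  have hle : ‖g (z₀ : ℂ)‖ ≤ 0 := le_of_tendsto_of_tendsto hlim1 hlim2 hbound
  exact hg0 (norm_le_zero_iff.mp hle)

/-- the translate `z ↦ u (g • z)` of a holomorphic function is holomorphic -/
lemma mdiff_comp_smul {u : ℍ → ℂ} (hu : MDiff u) (g : SL(2, ℤ)) :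
    MDiff (fun z : ℍ => u (g • z)) := by
  have hdet : 0 < ((g : GL (Fin 2) ℝ)).det.val := by
    rw [Matrix.GeneralLinearGroup.val_det_apply]; exact det_coe_SL_pos g
  exact hu.comp (mdifferentiable_smul hdet)

/-- the hypothesis of `div_criterion`, converted into a statement on orders of vanishing along
the orbit of `z₀` -/
lemma le_ordAt_smul_of_norm_le {u : ℍ → ℂ} (hu : MDiff u) {z₀ : ℍ} {n : ℕ}
    (hvan : ∀ g : SL(2, ℤ), ∃ C : ℝ, ∀ᶠ z : ℍ in 𝓝 z₀,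
      ‖u (g • z)‖ ≤ C * ‖(z : ℂ) - z₀‖ ^ n) (g : SL(2, ℤ)) :
    (n : ℕ∞) ≤ ordAt u (g • z₀) := by
  rw [← ordAt_comp_smul u g z₀]
  exact natCast_le_ordAt_of_norm_le (mdiff_comp_smul hu g) (hvan g)

lemma ordAt_E₄_le_one (z : ℍ) : ordAt (E₄ : ℍ → ℂ) z ≤ 1 := by
  by_cases h : E₄ z = 0
  · exact (J1.analyticOrderAt_E₄_of_eq_zero h).le
  · rw [ordAt_of_ne_zero (J1.levelOne_mdiff E₄) h]; exact bot_le

lemma ordAt_E₆_le_one (z : ℍ) : ordAt (E₆ : ℍ → ℂ) z ≤ 1 := by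
  by_cases h : E₆ z = 0
  · exact (J1.analyticOrderAt_E₆_of_eq_zero h).le
  · rw [ordAt_of_ne_zero (J1.levelOne_mdiff E₆) h]; exact bot_le

lemma E₄_cube_sub_E₆_sq (z : ℍ) : E₄ z ^ 3 - E₆ z ^ 2 = 1728 * Δ z := by
  rw [ModularForm.discriminant_eq_E₄_cube_sub_E₆_sq z]; ring

lemma E₄_ne_zero_of_phi_eq_zero {z₀ z : ℍ} (h4 : E₄ z₀ ≠ 0) (h : J1.phi z₀ z = 0) :
    E₄ z ≠ 0 := by
  intro hz
  rw [J1.phi_apply, hz] at h
  have h' : E₄ z₀ ^ 3 * Δ z = 0 := by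
    have : (0 : ℂ) ^ 3 * Δ z₀ - E₄ z₀ ^ 3 * Δ z = 0 := h
    simpa using this
  rcases mul_eq_zero.mp h' with h'' | h''
  · exact h4 (pow_eq_zero_iff (by norm_num) |>.mp h'')
  · exact ModularForm.discriminant_ne_zero z h''

lemma E₆_ne_zero_of_phi_eq_zero {z₀ z : ℍ} (h6 : E₆ z₀ ≠ 0) (h : J1.phi z₀ z = 0) :
    E₆ z ≠ 0 := by
  intro hz
  rw [J1.phi_apply] at h
  have h1 := E₄_cube_sub_E₆_sq z
  have h2 := E₄_cube_sub_E₆_sq z₀
  rw [hz] at h1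
  have e1 : E₄ z ^ 3 = 1728 * Δ z := by rw [← h1]; ring
  have e2 : E₄ z₀ ^ 3 = 1728 * Δ z₀ + E₆ z₀ ^ 2 := by rw [← h2]; ring
  rw [e1, e2] at h
  have h' : E₆ z₀ ^ 2 * Δ z = 0 := by linear_combination -h
  rcases mul_eq_zero.mp h' with h'' | h''
  · exact h6 (pow_eq_zero_iff (by norm_num) |>.mp h'')
  · exact ModularForm.discriminant_ne_zero z h''

/-- for `z₀` with `E₄ z₀ ≠ 0`, `E₆ z₀ ≠ 0` all zeros of `φ_{z₀}` are simple -/
lemma ordAt_phi_le_one {z₀ : ℍ} (h4 : E₄ z₀ ≠ 0) (h6 : E₆ z₀ ≠ 0) (z : ℍ) :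
    ordAt (J1.phi z₀) z ≤ 1 := by
  by_cases h : J1.phi z₀ z = 0
  · refine le_of_eq ((ordAt_eq_one_iff_normalizedDeriv (J1.mdiff_phi z₀)).mpr ⟨h, ?_⟩)
    have hD : Derivative.normalizedDerivOfComplex (J1.phi z₀) z
        = EisensteinSeries.E2 z * J1.phi z₀ z - E₄ z ^ 2 * E₆ z * Δ z₀ := by
      rw [J1.D_phi_apply, J1.phi_apply]; ring
    rw [hD, h, mul_zero, zero_sub]
    exact neg_ne_zero.mpr (mul_ne_zero (mul_ne_zero
      (pow_ne_zero 2 (E₄_ne_zero_of_phi_eq_zero h4 h)) (E₆_ne_zero_of_phi_eq_zero h6 h))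
      (ModularForm.discriminant_ne_zero z₀))
  · rw [ordAt_of_ne_zero (J1.mdiff_phi z₀) h]; exact bot_le

lemma rho_eq : rho = J1.rho := by
  apply UpperHalfPlane.ext
  apply Complex.ext <;> simp [rho, J1.rho_coe]

lemma E₄_rho' : E₄ rho = 0 := by rw [rho_eq]; exact J1.E₄_rho

/-- zeros of `E₆` are the orbit of `i` -/
lemma E₆_eq_zero_iff (z : ℍ) : E₆ z = 0 ↔ ∃ g : SL(2, ℤ), z = g • UpperHalfPlane.I := by
  constructor
  · intro hz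
    refine J2.j_injective UpperHalfPlane.I z ?_
    have h1 := E₄_cube_sub_E₆_sq UpperHalfPlane.I
    have h2 := E₄_cube_sub_E₆_sq z
    rw [J1.E₆_I] at h1
    rw [hz] at h2
    have e1 : E₄ UpperHalfPlane.I ^ 3 = 1728 * Δ UpperHalfPlane.I := by rw [← h1]; ring
    have e2 : E₄ z ^ 3 = 1728 * Δ z := by rw [← h2]; ring
    rw [e1, e2]; ring
  · rintro ⟨g, rfl⟩
    exact J1.E₆_smul_I g

/-- zeros of `E₄` are the orbit of `ρ` -/
lemma E₄_eq_zero_iff (z : ℍ) : E₄ z = 0 ↔ ∃ g : SL(2, ℤ), z = g • rho := by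
  constructor
  · intro hz
    refine J2.j_injective rho z ?_
    rw [E₄_rho', hz]; ring
  · rintro ⟨g, rfl⟩
    rw [rho_eq]; exact J1.E₄_smul_rho g

lemma exists_smul_of_smul {z₀ z₁ z : ℍ} (h₀ : ∃ g : SL(2, ℤ), z₀ = g • z₁)
    (h : ∃ g : SL(2, ℤ), z = g • z₁) : ∃ g : SL(2, ℤ), z = g • z₀ := by
  obtain ⟨g₀, rfl⟩ := h₀
  obtain ⟨g, rfl⟩ := h
  exact ⟨g * g₀⁻¹, by rw [mul_smul, inv_smul_smul]⟩

end J3

open Fermat.Agent.S21.J3 in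
/-- J3: the division criterion.  If every `SL(2,ℤ)`-translate of `u` vanishes at `z₀` to order
at least `ordJ z₀`, then `u` is divisible by `j - j(z₀)`. -/
theorem div_criterion (z₀ : ℍ) {u : ℍ → ℂ} (hu : MDiff u)
    (hvan : ∀ g : SL(2, ℤ), ∃ C : ℝ, ∀ᶠ z : ℍ in 𝓝 z₀,
      ‖u (g • z)‖ ≤ C * ‖(z : ℂ) - z₀‖ ^ ordJ z₀) :
    ∃ u' : ℍ → ℂ, MDiff u' ∧ ∀ z : ℍ, Δ z * u z = (E₄ z ^ 3 - jval z₀ * Δ z) * u' z := by
  have hord : ∀ g : SL(2, ℤ), (ordJ z₀ : ℕ∞) ≤ ordAt u (g • z₀) :=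
    J3.le_ordAt_smul_of_norm_le hu hvan
  have hΔ₀ : Δ z₀ ≠ 0 := ModularForm.discriminant_ne_zero z₀
  by_cases hI : ∃ g : SL(2, ℤ), z₀ = g • UpperHalfPlane.I
  · -- the orbit of `i`: `j(z₀) = 1728`, `E₄³ - 1728 Δ = E₆²`
    have hJ : ordJ z₀ = 2 := by unfold ordJ; rw [if_pos hI]
    rw [hJ] at hord
    have h6 : E₆ z₀ = 0 := (J3.E₆_eq_zero_iff z₀).mpr hI
    obtain ⟨h, hh, hmul⟩ := exists_mdiff_eq_mul_pow_of_simple hu (J1.levelOne_mdiff E₆) 2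
      J3.ordAt_E₆_le_one (fun z hz => by
        obtain ⟨g, rfl⟩ := J3.exists_smul_of_smul hI ((J3.E₆_eq_zero_iff z).mp hz)
        exact hord g)
    refine ⟨fun z => Δ z * h z, J1.mdiff_discriminant.mul hh, fun z => ?_⟩
    have hj : jval z₀ = 1728 := by
      have h2 := J3.E₄_cube_sub_E₆_sq z₀
      rw [h6] at h2
      unfold jval
      rw [div_eq_iff hΔ₀, ← h2]; ring
    have h1 := J3.E₄_cube_sub_E₆_sq z
    rw [hmul z, hj]
    linear_combination (-(Δ z * h z)) * h1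
  · by_cases hρ : ∃ g : SL(2, ℤ), z₀ = g • rho
    · -- the orbit of `ρ`: `j(z₀) = 0`
      have hJ : ordJ z₀ = 3 := by unfold ordJ; rw [if_neg hI, if_pos hρ]
      rw [hJ] at hord
      have h4 : E₄ z₀ = 0 := (J3.E₄_eq_zero_iff z₀).mpr hρ
      obtain ⟨h, hh, hmul⟩ := exists_mdiff_eq_mul_pow_of_simple hu (J1.levelOne_mdiff E₄) 3
        J3.ordAt_E₄_le_one (fun z hz => by
          obtain ⟨g, rfl⟩ := J3.exists_smul_of_smul hρ ((J3.E₄_eq_zero_iff z).mp hz)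
          exact hord g)
      refine ⟨fun z => Δ z * h z, J1.mdiff_discriminant.mul hh, fun z => ?_⟩
      have hj : jval z₀ = 0 := by
        unfold jval; rw [h4]; simp
      rw [hmul z, hj]
      ring
    · -- generic points
      have hJ : ordJ z₀ = 1 := by unfold ordJ; rw [if_neg hI, if_neg hρ]
      rw [hJ] at hord
      have h4 : E₄ z₀ ≠ 0 := fun h => hρ ((J3.E₄_eq_zero_iff z₀).mp h)
      have h6 : E₆ z₀ ≠ 0 := fun h => hI ((J3.E₆_eq_zero_iff z₀).mp h)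
      obtain ⟨h, hh, hmul⟩ := exists_mdiff_eq_mul_pow_of_simple hu (J1.mdiff_phi z₀) 1
        (J3.ordAt_phi_le_one h4 h6) (fun z hz => by
          have hz' : E₄ z₀ ^ 3 * Δ z = E₄ z ^ 3 * Δ z₀ := by
            rw [J1.phi_apply] at hz
            exact (sub_eq_zero.mp hz).symm
          obtain ⟨g, rfl⟩ := J2.j_injective z₀ z hz'
          exact hord g)
      refine ⟨fun z => Δ z * Δ z₀ * h z,
        (J1.mdiff_discriminant.mul mdifferentiable_const).mul hh, fun z => ?_⟩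
      have hj : jval z₀ * Δ z₀ = E₄ z₀ ^ 3 := by
        unfold jval; rw [div_mul_cancel₀ _ hΔ₀]
      rw [hmul z, pow_one, J1.phi_apply]
      linear_combination (Δ z * Δ z * h z) * hj

end

end Fermat.Agent.S21.E
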