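import Fermat.Agent.S21.E.Defs
import Fermat.Agent.S21.E.All2
import Fermat.Agent.S21.E.Api
import Fermat.Agent.S21.E.J1
import Fermat.Agent.S21.E.J3
import Fermat.Agent.S21.E.Chart

/-!
# Project ES, part E, work package E-LOC: poles of the inverse matrix at points of `ℍ`

* `sat_local`: local saturation at a point, from global saturation and the division criterion;
* `inv_pole_bound_finite`: the inverse of the matrix of conjugates has poles of order at most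
  `ordJ z₀ - 1` at `z₀` (from `all2_inv_pole_bound` in the chart at `z₀`);
* `inv_bound_finite`: `E₄² E₆ * (inverse matrix)` is locally bounded.

Helper lemmas live in the namespace `Fermat.Agent.S21.E.Loc`.
-/

set_option autoImplicit false

open UpperHalfPlane hiding I
open Complex Filter Function Topology
open scoped Manifold MatrixGroups ModularForm Real

namespace Fermat.Agent.S21.E

noncomputable section

local notation "Δ" => ModularForm.discriminant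
local notation "E₄" => ModularForm.E₄
local notation "E₆" => ModularForm.E₆

variable {Γ : Subgroup SL(2, ℤ)} [Fintype (SL(2, ℤ) ⧸ Γ)] [DecidableEq (SL(2, ℤ) ⧸ Γ)]

namespace Loc

/-- a constant combination of the family is holomorphic -/
lemma mdiff_comb (t : Tuple Γ) (c : SL(2, ℤ) ⧸ Γ → ℂ) :
    MDiff (fun z : ℍ => ∑ k, c k * t.v k z) := by
  have h : ∀ s : Finset (SL(2, ℤ) ⧸ Γ), MDiff (fun z : ℍ => ∑ k ∈ s, c k * t.v k z) := by
    intro s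
    induction s using Finset.induction_on with
    | empty =>
      simp only [Finset.sum_empty]
      exact mdifferentiable_const
    | insert a s ha ih =>
      simp only [Finset.sum_insert ha]
      exact (mdifferentiable_const.mul (t.wh a).holo).add ih
  exact h Finset.univ

/-- value of a combination at a translate -/
lemma comb_smul (t : Tuple Γ) (c : SL(2, ℤ) ⧸ Γ → ℂ) (g : SL(2, ℤ)) (z : ℍ) :
    ∑ k, c k * t.v k (g • z) = ∑ k, c k * cmat Γ t.v z k ((g⁻¹ : SL(2, ℤ)) : SL(2, ℤ) ⧸ Γ) := by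
  refine Finset.sum_congr rfl fun k _ => ?_
  simp only [cmat, Matrix.of_apply]
  rw [cj_mk (t.wh k).inv, inv_inv]

end Loc

/-- local saturation at a point, from global saturation and the division criterion -/
theorem sat_local {t : Tuple Γ} (hsat : t.Saturated) (z₀ : ℍ)
    (c : SL(2, ℤ) ⧸ Γ → ℂ) (hc : c ≠ 0) :
    ¬ ∃ C : ℝ, ∀ᶠ z : ℍ in 𝓝 z₀, ∀ x,
      ‖∑ k, c k * cmat Γ t.v z k x‖ ≤ C * ‖(z : ℂ) - z₀‖ ^ ordJ z₀ := by
  rintro ⟨C, hC⟩
  refine hsat c hc (jval z₀) ?_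
  refine div_criterion z₀ (Loc.mdiff_comb t c) fun g => ⟨C, ?_⟩
  filter_upwards [hC] with z hz
  rw [Loc.comb_smul]
  exact hz _

/-- poles of the inverse matrix at a point of `ℍ` have order at most `ordJ z₀ - 1` -/
theorem inv_pole_bound_finite [Γ.FiniteIndex] (hneg : -1 ∈ Γ) {t : Tuple Γ} (hsat : t.Saturated)
    (z₀ : ℍ) :
    ∃ C : ℝ, ∀ᶠ z : ℍ in 𝓝[≠] z₀, ∀ x k,
      ‖(cmat Γ t.v z)⁻¹ x k‖ * ‖(z : ℂ) - z₀‖ ^ (ordJ z₀ - 1) ≤ C := by
  obtain ⟨σ, ζ, hζ, hpow, hchart⟩ := Chart.exists_stab z₀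
  have hsat' : ∀ c : SL(2, ℤ) ⧸ Γ → ℂ, c ≠ 0 → ¬ ∃ C : ℝ, ∀ᶠ w in 𝓝 (0 : ℂ), ∀ x,
      ‖∑ k, c k * Chart.chartMat Γ t.v z₀ w k x‖ ≤ C * ‖w‖ ^ ordJ z₀ := by
    rintro c hc ⟨C, hC⟩
    refine sat_local hsat z₀ c hc ⟨|C| / z₀.im ^ ordJ z₀, ?_⟩
    rw [eventually_all]
    intro x
    have h1 : ∀ᶠ w in 𝓝 (0 : ℂ),
        ‖∑ k, c k * Chart.chartMat Γ t.v z₀ w k x‖ ≤ C * ‖w‖ ^ ordJ z₀ := by
      filter_upwards [hC] with w hw using hw x
    have h2 := Chart.eventually_le_of_chart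
      (F := fun w => ‖∑ k, c k * Chart.chartMat Γ t.v z₀ w k x‖) z₀ h1
    filter_upwards [h2] with z hz
    simpa only [Chart.chartMat_chart] using hz
  obtain ⟨C, hC⟩ := all2_inv_pole_bound σ (ordJ z₀) (Chart.ordJ_pos z₀) ζ hζ
    (fun x => Chart.pow_smul_coset hneg hpow x) (Chart.chartMat Γ t.v z₀)
    (Chart.analyticAt_chartMat t z₀) (Chart.chartMat_equivariant t hchart)
    (Chart.chartMat_det_frequently_ne_zero t z₀) hsat'
  refine ⟨|C| * (‖(z₀ : ℂ) - (starRingEnd ℂ) (z₀ : ℂ)‖ + 1) ^ (ordJ z₀ - 1), ?_⟩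
  rw [eventually_all]
  intro x
  rw [eventually_all]
  intro k
  have h1 : ∀ᶠ w in 𝓝[≠] (0 : ℂ),
      ‖(Chart.chartMat Γ t.v z₀ w)⁻¹ x k‖ * ‖w‖ ^ (ordJ z₀ - 1) ≤ C := by
    filter_upwards [hC] with w hw using hw x k
  have h2 := Chart.eventually_pole_of_chart
    (F := fun w => ‖(Chart.chartMat Γ t.v z₀ w)⁻¹ x k‖) (fun w => norm_nonneg _) z₀ h1
  filter_upwards [h2] with z hz
  simpa only [Chart.chartMat_chart] using hz

/-- consequently `E₄² E₆ * (inverse matrix)` is locally bounded -/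
theorem inv_bound_finite [Γ.FiniteIndex] (hneg : -1 ∈ Γ) {t : Tuple Γ} (hsat : t.Saturated)
    (z₀ : ℍ) :
    ∃ C : ℝ, ∀ᶠ z : ℍ in 𝓝[≠] z₀, ∀ x k,
      ‖E₄ z ^ 2 * E₆ z * (cmat Γ t.v z)⁻¹ x k‖ ≤ C := by
  obtain ⟨C₁, hC₁⟩ := inv_pole_bound_finite hneg hsat z₀
  obtain ⟨C₂, hC₂⟩ := E4sqE6_upper_bound z₀
  refine ⟨|C₂| * |C₁|, ?_⟩
  filter_upwards [hC₁, hC₂.filter_mono nhdsWithin_le_nhds] with z h1 h2 x k
  rw [norm_mul]
  have hp : 0 ≤ ‖(z : ℂ) - z₀‖ ^ (ordJ z₀ - 1) := pow_nonneg (norm_nonneg _) _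
  have h3 : ‖E₄ z ^ 2 * E₆ z‖ ≤ |C₂| * ‖(z : ℂ) - z₀‖ ^ (ordJ z₀ - 1) :=
    h2.trans (mul_le_mul_of_nonneg_right (le_abs_self _) hp)
  calc ‖E₄ z ^ 2 * E₆ z‖ * ‖(cmat Γ t.v z)⁻¹ x k‖
      ≤ (|C₂| * ‖(z : ℂ) - z₀‖ ^ (ordJ z₀ - 1)) * ‖(cmat Γ t.v z)⁻¹ x k‖ :=
        mul_le_mul_of_nonneg_right h3 (norm_nonneg _)
    _ = |C₂| * (‖(cmat Γ t.v z)⁻¹ x k‖ * ‖(z : ℂ) - z₀‖ ^ (ordJ z₀ - 1)) := by ring
    _ ≤ |C₂| * |C₁| :=
        mul_le_mul_of_nonneg_left ((h1 x k).trans (le_abs_self _)) (abs_nonneg _)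

end

end Fermat.Agent.S21.E
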